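import Mathlib

set_option autoImplicit false

/-! # S24 (M3, part 1): the Taylor expansion of the Euler product -/

namespace Fermat.Agent.S24

open Filter Topology PowerSeries

/-- the Euler function on the unit disc. -/
noncomputable def eulerG (q : ℂ) : ℂ := ∏' n : ℕ, (1 - q ^ (n + 1))

/-- the partial products as polynomials. -/
noncomputable def eulerP (s : Finset ℕ) : Polynomial ℂ :=
  ∏ n ∈ s, (1 - Polynomial.X ^ (n + 1))

theorem eval_eulerP (s : Finset ℕ) (q : ℂ) : (eulerP s).eval q = ∏ n ∈ s, (1 - q ^ (n + 1)) := by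
  simp [eulerP, Polynomial.eval_prod]

theorem coe_eulerP (s : Finset ℕ) :
    ((eulerP s : Polynomial ℂ) : PowerSeries ℂ) = ∏ n ∈ s, (1 - PowerSeries.X ^ (n + 1)) := by
  have h : ∀ p : Polynomial ℂ, (p : PowerSeries ℂ) = Polynomial.coeToPowerSeries.ringHom p :=
    fun _ => rfl
  rw [h, eulerP, map_prod]
  refine Finset.prod_congr rfl fun n _ => ?_
  rw [← h]
  simp

theorem iteratedDeriv_eval (p : Polynomial ℂ) (m : ℕ) :
    iteratedDeriv m (fun q => p.eval q) = fun q => (Polynomial.derivative^[m] p).eval q := by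
  induction m generalizing p with
  | zero => simp
  | succ m ih =>
    rw [iteratedDeriv_succ', Function.iterate_succ_apply]
    have : deriv (fun q => p.eval q) = fun q => (Polynomial.derivative p).eval q := by
      funext q
      exact p.deriv
    rw [this, ih]

theorem iteratedDeriv_eval_zero (p : Polynomial ℂ) (m : ℕ) :
    iteratedDeriv m (fun q => p.eval q) 0 = (m.factorial : ℂ) * p.coeff m := by
  rw [iteratedDeriv_eval]
  show (Polynomial.derivative^[m] p).eval 0 = _
  rw [← Polynomial.coeff_zero_eq_eval_zero, Polynomial.coeff_iterate_derivative]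
  simp [Nat.descFactorial_self]

theorem tendstoLocallyUniformlyOn_iteratedDeriv {ι : Type} {φ : Filter ι} [φ.NeBot]
    {F : ι → ℂ → ℂ} {f : ℂ → ℂ} {U : Set ℂ} (hU : IsOpen U)
    (hFa : ∀ i m, Differentiable ℂ (iteratedDeriv m (F i)))
    (hf : TendstoLocallyUniformlyOn F f φ U) (m : ℕ) :
    TendstoLocallyUniformlyOn (fun i => iteratedDeriv m (F i)) (iteratedDeriv m f) φ U := by
  induction m with
  | zero => simpa using hf
  | succ m ih =>
    have := ih.deriv (Eventually.of_forall fun i => (hFa i m).differentiableOn) hU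
    simp only [iteratedDeriv_succ]
    exact this

theorem iteratedDeriv_eulerG_zero (m : ℕ) :
    iteratedDeriv m eulerG 0 = (m.factorial : ℂ) * (pentagonalSeries ℂ).coeff m := by
  have h1 : TendstoLocallyUniformlyOn (fun (s : Finset ℕ) (q : ℂ) => (eulerP s).eval q) eulerG atTop
      (Metric.ball (0 : ℂ) 1) := by
    have := ModularForm.multipliableLocallyUniformlyOn_one_sub_pow.hasProdLocallyUniformlyOn
    rw [hasProdLocallyUniformlyOn_iff_tendstoLocallyUniformlyOn] at this
    have he : (fun (s : Finset ℕ) (q : ℂ) => (eulerP s).eval q) =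
        fun (s : Finset ℕ) (q : ℂ) => ∏ n ∈ s, (1 - q ^ (n + 1)) := by
      funext s q
      exact eval_eulerP s q
    rw [he]
    exact this
  have h2 := tendstoLocallyUniformlyOn_iteratedDeriv Metric.isOpen_ball
    (fun s m => by rw [iteratedDeriv_eval]; exact Polynomial.differentiable _) h1 m
  have h3 : Tendsto (fun s : Finset ℕ => iteratedDeriv m (fun q => (eulerP s).eval q) 0) atTop
      (𝓝 (iteratedDeriv m eulerG 0)) :=
    h2.tendsto_at (Metric.mem_ball_self one_pos)
  have h4 : ∀ᶠ s : Finset ℕ in atTop, iteratedDeriv m (fun q => (eulerP s).eval q) 0 =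
      (m.factorial : ℂ) * (pentagonalSeries ℂ).coeff m := by
    filter_upwards [coeff_prod_one_sub_X_pow_eventually_eq ℂ m] with s hs
    rw [iteratedDeriv_eval_zero, ← hs, ← coe_eulerP, Polynomial.coeff_coe]
  exact tendsto_nhds_unique h3 (tendsto_nhds_of_eventually_eq h4)

theorem hasSum_eulerG {q : ℂ} (hq : ‖q‖ < 1) :
    HasSum (fun m : ℕ => (pentagonalSeries ℂ).coeff m * q ^ m) (eulerG q) := by
  have h1 := Complex.hasSum_taylorSeries_on_ball (f := eulerG) (c := 0) (r := 1)
    ModularForm.differentiableOn_tprod_one_sub_pow (z := q) (by simpa using hq)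
  have he : (fun m : ℕ => (pentagonalSeries ℂ).coeff m * q ^ m) =
      fun n : ℕ => ((n.factorial : ℂ))⁻¹ • (q - 0) ^ n • iteratedDeriv n eulerG 0 := by
    funext m
    rw [iteratedDeriv_eulerG_zero, sub_zero, smul_eq_mul, smul_eq_mul]
    have : (m.factorial : ℂ) ≠ 0 := by exact_mod_cast m.factorial_ne_zero
    field_simp
  rw [he]
  exact h1

end Fermat.Agent.S24
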