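import Mathlib
import Fermat.Prelude.Def_ModularCurve_ArithmeticGalois
import Fermat.Prelude.Def_ModularCurve_GenusNumerics
import Fermat.Prelude.Def_AlgebraicCurve_CanonicalDivisor

set_option autoImplicit false

/-! # S24: common definitions (abstract Riemann-Hurwitz interface) -/

namespace Fermat.Agent.S24

open AlgebraicCurve IntermediateField

/-- The places of `F/K` at which `y` vanishes. -/
def zeroSet (K : Type) {F : Type} [Field K] [Field F] [Algebra K F] (y : F) : Set (Place K F) :=
  {v | 0 < v.ord y}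

/-- Number of orbits of a permutation. -/
noncomputable def orbCard {Q : Type} (ε : Equiv.Perm Q) : ℕ :=
  Nat.card (MulAction.orbitRel.Quotient (Subgroup.zpowers ε) Q)

/-- Local uniformisation data at the zeros of `y`: a full set of `K(y)`-embeddings of `F` into
`k((u))`, permuted by the rotation `u ↦ ζ u`. -/
structure LocalData (K F k Q : Type) [Field K] [Field F] [Algebra K F] [Field k] [Algebra K k]
    (y : F) where
  σ : Q → (F →ₐ[K] LaurentSeries k)
  σ_inj : Function.Injective σ
  e : ℕ
  e_pos : 0 < e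
  ζ : k
  hζ : IsPrimitiveRoot ζ e
  ε : Equiv.Perm Q
  σ_y : ∀ γ γ', σ γ y = σ γ' y
  order_y : ∀ γ, (σ γ y).order = (e : ℤ)
  rot : ∀ (γ : Q) (f : F) (n : ℤ), (σ (ε γ) f).coeff n = ζ ^ n * (σ γ f).coeff n

end Fermat.Agent.S24
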