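import Mathlib
import Fermat.Agent.S24.Defs
import Fermat.Agent.S20.Defs
import Fermat.Agent.S22.Hermite
import Fermat.Prelude.Def_GaloisRep_ComplexConjugation

set_option autoImplicit false

/-! # S24: definitions for the modular (analytic) part -/

namespace Fermat.Agent.S24

open UpperHalfPlane ModularForm EisensteinSeries Matrix.SpecialLinearGroup
open scoped MatrixGroups ModularForm Manifold

/-- `ℚ̄`. -/
abbrev Kb : Type := AlgebraicClosure ℚ

/-- a fixed embedding `ℚ̄ → ℂ`. -/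
noncomputable def iota : Kb →+* ℂ := complexEmbedding.toRingHom

noncomputable instance instAlgebraKbComplex : Algebra Kb ℂ := iota.toAlgebra

theorem algebraMap_Kb_complex (c : Kb) : algebraMap Kb ℂ c = iota c := rfl

/-- the function field `ℚ̄(j(q^d) : d ∣ N)`. -/
abbrev FN (N : ℕ) : Type := ↥(ModularCurve.modularFunctionFieldBar N)

/-- divisors of `N`. -/
abbrev Dv (N : ℕ) : Type := {d : ℕ // d ∣ N}

theorem Dv.ne_zero {N : ℕ} [NeZero N] (d : Dv N) : d.1 ≠ 0 :=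
  ne_zero_of_dvd_ne_zero (NeZero.ne N) d.2

/-- the generator `j(q^d)` of `FN N`. -/
noncomputable def Jd (N : ℕ) [NeZero N] (d : Dv N) : FN N :=
  haveI : NeZero d.1 := ⟨d.ne_zero⟩
  ⟨ModularCurve.coeffEmb Kb (ModularCurve.qExpand ℚ d.1 ModularCurve.jq),
    ModularCurve.coeffEmb_mem_laurentBaseChange Kb (ModularCurve.jqd_mem_full N d.2)⟩

/-- `j` as an element of `FN N`. -/
noncomputable def jF (N : ℕ) [NeZero N] : FN N := Jd N ⟨1, one_dvd N⟩

/-- the analytic `j`-function. -/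
noncomputable def jfun (z : ℍ) : ℂ := E₄ z ^ 3 / ModularForm.discriminant z

/-- `z ↦ j(d · γ z)`. -/
noncomputable def jdg (N : ℕ) [NeZero N] (d : Dv N) (γ : SL(2, ℤ)) (z : ℍ) : ℂ :=
  jfun (S22.tri d.1 1 0 d.ne_zero one_ne_zero • (γ • z))

/-- the local parameter `q_h = exp(2πi z / h)`. -/
noncomputable def qN (h : ℕ) (z : ℍ) : ℂ := Function.Periodic.qParam h z

/-- holomorphic, `h`-periodic and meromorphic at `i∞`. -/
def IsMer (h : ℕ) (f : ℍ → ℂ) : Prop :=
  MDiff f ∧ (∀ z : ℍ, f ((h : ℝ) +ᵥ z) = f z) ∧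
    ∃ m : ℕ, IsBoundedAtImInfty (fun z => qN h z ^ m * f z)

/-- the disc coordinate centred at `τ₀`: `u ↦ (τ₀ - conj τ₀ * u) / (1 - u)`. -/
noncomputable def cay (τ₀ : ℍ) (u : ℂ) : ℂ :=
  ((τ₀ : ℂ) - (starRingEnd ℂ) (τ₀ : ℂ) * u) / (1 - u)

end Fermat.Agent.S24
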