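import Mathlib
import Fermat.Agent.S24.ModDefs
import Fermat.Agent.S22.QExp
import Fermat.Agent.S22.Good
import Fermat.Agent.S20.DivDelta

set_option autoImplicit false

/-! # S24 M1: functions meromorphic at `i∞` and their Laurent `q_h`-expansions -/

namespace Fermat.Agent.S24

open UpperHalfPlane ModularForm Function Filter
open scoped MatrixGroups ModularForm Manifold Topology

local notation "𝕢" => Periodic.qParam

theorem natCast_pos (h : ℕ) [NeZero h] : (0 : ℝ) < h := by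
  exact_mod_cast Nat.pos_of_ne_zero (NeZero.ne h)

theorem qN_ne_zero (h : ℕ) (z : ℍ) : qN h z ≠ 0 := Complex.exp_ne_zero _

theorem qN_mdiff (h : ℕ) : MDiff (qN h) := by
  rw [UpperHalfPlane.mdifferentiable_iff]
  have : DifferentiableOn ℂ (fun w : ℂ => 𝕢 h w) {w | 0 < w.im} := by
    unfold Periodic.qParam
    fun_prop
  refine this.congr fun w hw => ?_
  simp [qN, Function.comp_apply, ofComplex_apply_of_im_pos hw]

theorem norm_qN_le_one (h : ℕ) (z : ℍ) : ‖qN h z‖ ≤ 1 := by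
  unfold qN
  rw [Periodic.norm_qParam]
  apply Real.exp_le_one_iff.mpr
  have h1 : (0 : ℝ) ≤ h := Nat.cast_nonneg h
  have h2 : 0 < (z : ℂ).im := z.im_pos
  have : 0 ≤ 2 * Real.pi * (z : ℂ).im / h := by positivity
  have e : -2 * Real.pi * (z : ℂ).im / h = -(2 * Real.pi * (z : ℂ).im / h) := by ring
  rw [e]
  linarith

theorem qN_bdd (h : ℕ) : IsBoundedAtImInfty (qN h) := by
  rw [UpperHalfPlane.isBoundedAtImInfty_iff]
  exact ⟨1, 0, fun z _ => norm_qN_le_one h z⟩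

theorem qN_vadd (h : ℕ) (z : ℍ) : qN h ((h : ℝ) +ᵥ z) = qN h z := by
  rcases Nat.eq_zero_or_pos h with rfl | hpos
  · simp [qN]
  · have hh : ((h : ℕ) : ℝ) ≠ 0 := by exact_mod_cast hpos.ne'
    have := S22.qParam_add_period hh (z : ℂ)
    unfold qN
    rw [← this]
    congr 1
    simp [add_comm]

theorem qN_pow_bdd (h m : ℕ) : IsBoundedAtImInfty (fun z => qN h z ^ m) := by
  rw [UpperHalfPlane.isBoundedAtImInfty_iff]
  refine ⟨1, 0, fun z _ => ?_⟩
  rw [norm_pow]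
  exact pow_le_one₀ (norm_nonneg _) (norm_qN_le_one h z)

theorem IsMer.bdd_of_le {h : ℕ} {f : ℍ → ℂ} {m m' : ℕ} (hmm : m ≤ m')
    (hf : IsBoundedAtImInfty (fun z => qN h z ^ m * f z)) :
    IsBoundedAtImInfty (fun z => qN h z ^ m' * f z) := by
  obtain ⟨r, rfl⟩ := Nat.exists_eq_add_of_le hmm
  have := (qN_pow_bdd h r).mul hf
  refine this.congr' ?_ (EventuallyEq.refl _ _)
  exact Eventually.of_forall fun z => by
    simp only [Pi.mul_apply]
    ring

/-- holomorphic, `h`-periodic functions, meromorphic at `i∞` -/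
def Mer (h : ℕ) : Subalgebra ℂ (ℍ → ℂ) where
  carrier := {f | IsMer h f}
  mul_mem' := by
    rintro f g ⟨hf1, hf2, m, hf3⟩ ⟨hg1, hg2, m', hg3⟩
    refine ⟨hf1.mul hg1, fun z => by simp [hf2 z, hg2 z], m + m', ?_⟩
    refine (hf3.mul hg3).congr' ?_ (EventuallyEq.refl _ _)
    exact Eventually.of_forall fun z => by
      simp only [Pi.mul_apply]
      ring
  add_mem' := by
    rintro f g ⟨hf1, hf2, m, hf3⟩ ⟨hg1, hg2, m', hg3⟩
    refine ⟨hf1.add hg1, fun z => by simp [hf2 z, hg2 z], m + m', ?_⟩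
    have h1 := IsMer.bdd_of_le (Nat.le_add_right m m') hf3
    have h2 := IsMer.bdd_of_le (Nat.le_add_left m' m) hg3
    refine (h1.add h2).congr' ?_ (EventuallyEq.refl _ _)
    exact Eventually.of_forall fun z => by
      simp only [Pi.add_apply]
      ring
  algebraMap_mem' := by
    intro c
    refine ⟨mdifferentiable_const, fun z => rfl, 0, ?_⟩
    simp only [pow_zero, one_mul]
    exact Filter.const_boundedAtFilter _ c

theorem mem_Mer {h : ℕ} {f : ℍ → ℂ} : f ∈ Mer h ↔ IsMer h f := Iff.rfl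

theorem periodic_of_vadd {h : ℕ} {f : ℍ → ℂ} (hf : ∀ z : ℍ, f ((h : ℝ) +ᵥ z) = f z) :
    Periodic (f ∘ ofComplex) (h : ℝ) := by
  intro w
  by_cases! hw : 0 < w.im
  · have hw' : 0 < (w + (h : ℝ)).im := by simp [hw]
    simp only [Function.comp_apply, ofComplex_apply_of_im_pos hw', ofComplex_apply_of_im_pos hw]
    rw [← hf ⟨w, hw⟩]
    congr 1
    ext
    simp [add_comm]
  · have : (w + (h : ℝ)).im ≤ 0 := by simpa using hw
    simp only [Function.comp_apply, ofComplex_apply_of_im_nonpos this,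
      ofComplex_apply_of_im_nonpos hw]

/-- `q_h^m f`. -/
noncomputable def shiftF (h m : ℕ) (f : ℍ → ℂ) : ℍ → ℂ := fun z => qN h z ^ m * f z

theorem shiftF_mdiff {h : ℕ} {f : ℍ → ℂ} (m : ℕ) (hf : MDiff f) : MDiff (shiftF h m f) :=
  ((qN_mdiff h).pow m).mul hf

theorem shiftF_vadd {h : ℕ} {f : ℍ → ℂ} (m : ℕ) (hf : ∀ z : ℍ, f ((h : ℝ) +ᵥ z) = f z) (z : ℍ) :
    shiftF h m f ((h : ℝ) +ᵥ z) = shiftF h m f z := by
  simp [shiftF, qN_vadd, hf z]

theorem analyticAt_of_bdd {h : ℕ} [NeZero h] {f : ℍ → ℂ} (h1 : MDiff f)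
    (h2 : ∀ z : ℍ, f ((h : ℝ) +ᵥ z) = f z) (h3 : IsBoundedAtImInfty f) :
    AnalyticAt ℂ (cuspFunction h f) 0 :=
  analyticAt_cuspFunction_zero (natCast_pos h) (periodic_of_vadd h2) h1 h3

theorem qExpansion_qN_pow (h : ℕ) [NeZero h] (r : ℕ) :
    qExpansion h (fun z => qN h z ^ r) = PowerSeries.X ^ r := by
  have hs : ∀ τ : ℍ, HasSum (fun m : ℕ ↦ (if m = r then (1 : ℂ) else 0) • 𝕢 (h : ℝ) τ ^ m)
      (qN h τ ^ r) := by
    intro τ
    have := hasSum_single (f := fun m : ℕ ↦ (if m = r then (1 : ℂ) else 0) • 𝕢 (h : ℝ) τ ^ m) r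
      (by intro m hm; simp [hm])
    simpa [qN] using this
  rw [S22.qExpansion_of_hasSum (F := fun z => qN h z ^ r) (natCast_pos h) ((qN_mdiff h).pow r) hs]
  ext m
  simp [PowerSeries.coeff_X_pow]

theorem analyticAt_qN_pow (h : ℕ) [NeZero h] (r : ℕ) :
    AnalyticAt ℂ (cuspFunction h (fun z => qN h z ^ r)) 0 :=
  analyticAt_of_bdd ((qN_mdiff h).pow r) (fun z => by simp [qN_vadd]) (qN_pow_bdd h r)

theorem qExpansion_shiftF {h : ℕ} [NeZero h] {f : ℍ → ℂ} (h1 : MDiff f)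
    (h2 : ∀ z : ℍ, f ((h : ℝ) +ᵥ z) = f z) (h3 : IsBoundedAtImInfty f) (r : ℕ) :
    qExpansion h (shiftF h r f) = PowerSeries.X ^ r * qExpansion h f := by
  rw [← qExpansion_qN_pow h r, ← qExpansion_mul (analyticAt_qN_pow h r) (analyticAt_of_bdd h1 h2 h3)]
  rfl

theorem shiftF_add (h m r : ℕ) (f : ℍ → ℂ) : shiftF h (m + r) f = shiftF h r (shiftF h m f) := by
  funext z
  simp only [shiftF]
  ring

/-- the Laurent series attached to the exponent `m`. -/
noncomputable def expAux (h m : ℕ) (f : ℍ → ℂ) : LaurentSeries ℂ :=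
  HahnSeries.single (-(m : ℤ)) 1 * HahnSeries.ofPowerSeries ℤ ℂ (qExpansion h (shiftF h m f))

theorem expAux_add {h : ℕ} [NeZero h] {f : ℍ → ℂ} (h1 : MDiff f)
    (h2 : ∀ z : ℍ, f ((h : ℝ) +ᵥ z) = f z) (m r : ℕ) (h3 : IsBoundedAtImInfty (shiftF h m f)) :
    expAux h (m + r) f = expAux h m f := by
  unfold expAux
  rw [shiftF_add, qExpansion_shiftF (shiftF_mdiff m h1) (shiftF_vadd m h2) h3, map_mul, map_pow,
    HahnSeries.ofPowerSeries_X, HahnSeries.single_pow, ← mul_assoc, HahnSeries.single_mul_single]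
  congr 2
  · push_cast
    simp
  · simp

theorem expAux_eq {h : ℕ} [NeZero h] {f : ℍ → ℂ} (h1 : MDiff f)
    (h2 : ∀ z : ℍ, f ((h : ℝ) +ᵥ z) = f z) (m m' : ℕ) (h3 : IsBoundedAtImInfty (shiftF h m f))
    (h3' : IsBoundedAtImInfty (shiftF h m' f)) : expAux h m f = expAux h m' f := by
  rcases le_total m m' with hle | hle
  · obtain ⟨r, rfl⟩ := Nat.exists_eq_add_of_le hle
    exact (expAux_add h1 h2 m r h3).symm
  · obtain ⟨r, rfl⟩ := Nat.exists_eq_add_of_le hle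
    exact expAux_add h1 h2 m' r h3'

theorem shiftF_zero (h : ℕ) (f : ℍ → ℂ) : shiftF h 0 f = f := by
  funext z
  simp [shiftF]

theorem expAux_zero (h : ℕ) (f : ℍ → ℂ) :
    expAux h 0 f = HahnSeries.ofPowerSeries ℤ ℂ (qExpansion h f) := by
  unfold expAux
  rw [shiftF_zero]
  simp

/-- underlying function of `expInf`. -/
noncomputable def expFun (h : ℕ) (f : Mer h) : LaurentSeries ℂ :=
  expAux h (Classical.choose f.2.2.2) f.1

theorem expFun_eq {h : ℕ} [NeZero h] (f : Mer h) (m : ℕ) (hm : IsBoundedAtImInfty (shiftF h m f.1)) :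
    expFun h f = expAux h m f.1 :=
  expAux_eq f.2.1 f.2.2.1 _ _ (Classical.choose_spec f.2.2.2) hm

theorem exists_shiftF_bdd {h : ℕ} (f : Mer h) : ∃ m, IsBoundedAtImInfty (shiftF h m f.1) := f.2.2.2

theorem shiftF_bdd_of_le {h : ℕ} {f : ℍ → ℂ} {m m' : ℕ} (hmm : m ≤ m')
    (hf : IsBoundedAtImInfty (shiftF h m f)) : IsBoundedAtImInfty (shiftF h m' f) :=
  IsMer.bdd_of_le hmm hf

/-- the `q_h`-expansion at `i∞` -/
noncomputable def expInf (h : ℕ) [NeZero h] : Mer h →ₐ[ℂ] LaurentSeries ℂ where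
  toFun := expFun h
  map_one' := by
    have hb : IsBoundedAtImInfty (shiftF h 0 (1 : Mer h).1) := by
      rw [shiftF_zero]
      exact Filter.const_boundedAtFilter _ (1 : ℂ)
    rw [expFun_eq 1 0 hb, expAux_zero]
    show HahnSeries.ofPowerSeries ℤ ℂ (qExpansion h (1 : ℍ → ℂ)) = 1
    rw [qExpansion_one, map_one]
  map_zero' := by
    have hb : IsBoundedAtImInfty (shiftF h 0 (0 : Mer h).1) := by
      rw [shiftF_zero]
      exact Filter.const_boundedAtFilter _ (0 : ℂ)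
    rw [expFun_eq 0 0 hb, expAux_zero]
    show HahnSeries.ofPowerSeries ℤ ℂ (qExpansion h (0 : ℍ → ℂ)) = 0
    rw [qExpansion_zero, map_zero]
  map_mul' f g := by
    obtain ⟨m, hm⟩ := exists_shiftF_bdd f
    obtain ⟨m', hm'⟩ := exists_shiftF_bdd g
    have e : shiftF h (m + m') (f * g).1 = shiftF h m f.1 * shiftF h m' g.1 := by
      funext z
      show qN h z ^ (m + m') * (f.1 z * g.1 z) = (qN h z ^ m * f.1 z) * (qN h z ^ m' * g.1 z)
      ring
    have hb : IsBoundedAtImInfty (shiftF h (m + m') (f * g).1) := by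
      rw [e]; exact hm.mul hm'
    rw [expFun_eq _ _ hb, expFun_eq _ _ hm, expFun_eq _ _ hm']
    unfold expAux
    rw [e, qExpansion_mul (analyticAt_of_bdd (shiftF_mdiff m f.2.1) (shiftF_vadd m f.2.2.1) hm)
      (analyticAt_of_bdd (shiftF_mdiff m' g.2.1) (shiftF_vadd m' g.2.2.1) hm'), map_mul]
    have : (HahnSeries.single (-((m + m' : ℕ) : ℤ)) (1 : ℂ)) =
        HahnSeries.single (-(m : ℤ)) 1 * HahnSeries.single (-(m' : ℤ)) 1 := by
      rw [HahnSeries.single_mul_single]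
      congr 1
      · rw [Nat.cast_add, neg_add]
      · simp
    rw [this]
    ring
  map_add' f g := by
    obtain ⟨m, hm⟩ := exists_shiftF_bdd f
    obtain ⟨m', hm'⟩ := exists_shiftF_bdd g
    have h1 := shiftF_bdd_of_le (Nat.le_add_right m m') hm
    have h2 := shiftF_bdd_of_le (Nat.le_add_left m' m) hm'
    have e : shiftF h (m + m') (f + g).1 = shiftF h (m + m') f.1 + shiftF h (m + m') g.1 := by
      funext z
      show qN h z ^ (m + m') * (f.1 z + g.1 z) =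
        qN h z ^ (m + m') * f.1 z + qN h z ^ (m + m') * g.1 z
      ring
    have hb : IsBoundedAtImInfty (shiftF h (m + m') (f + g).1) := by
      rw [e]; exact h1.add h2
    rw [expFun_eq _ _ hb, expFun_eq _ _ h1, expFun_eq _ _ h2]
    unfold expAux
    rw [e, qExpansion_add (analyticAt_of_bdd (shiftF_mdiff _ f.2.1) (shiftF_vadd _ f.2.2.1) h1)
      (analyticAt_of_bdd (shiftF_mdiff _ g.2.1) (shiftF_vadd _ g.2.2.1) h2), map_add, mul_add]
  commutes' c := by
    have hb : IsBoundedAtImInfty (shiftF h 0 (algebraMap ℂ (Mer h) c).1) := by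
      rw [shiftF_zero]
      exact Filter.const_boundedAtFilter _ c
    rw [expFun_eq _ 0 hb, expAux_zero]
    have e : (algebraMap ℂ (Mer h) c).1 = c • (1 : ℍ → ℂ) := by
      funext z
      show c = c • (1 : ℂ)
      simp
    have h1 : AnalyticAt ℂ (cuspFunction h (1 : ℍ → ℂ)) 0 := by
      rw [S22.cuspFunction_one]; exact analyticAt_const
    rw [e, qExpansion_smul h1, qExpansion_one]
    have h2 : algebraMap ℂ (PowerSeries ℂ) c = PowerSeries.C c := by simp
    rw [HahnSeries.algebraMap_apply', h2]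
    congr 1
    ext n
    simp [PowerSeries.coeff_C, PowerSeries.coeff_one]

theorem expInf_eq {h : ℕ} [NeZero h] (f : Mer h) (m : ℕ) (hm : IsBoundedAtImInfty (shiftF h m f.1)) :
    expInf h f = HahnSeries.single (-(m : ℤ)) 1 *
      HahnSeries.ofPowerSeries ℤ ℂ (qExpansion h (shiftF h m f.1)) :=
  expFun_eq f m hm

theorem expInf_coeff {h : ℕ} [NeZero h] (f : Mer h) (m : ℕ)
    (hm : IsBoundedAtImInfty (shiftF h m f.1)) (n : ℕ) :
    (expInf h f).coeff ((n : ℤ) - m) = (qExpansion h (shiftF h m f.1)).coeff n := by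
  rw [expInf_eq f m hm, HahnSeries.coeff_single_mul, one_mul, sub_neg_eq_add, sub_add_cancel,
    HahnSeries.ofPowerSeries_apply_coeff]

theorem expInf_coeff_of_lt {h : ℕ} [NeZero h] (f : Mer h) (m : ℕ)
    (hm : IsBoundedAtImInfty (shiftF h m f.1)) (n : ℤ) (hn : n < -(m : ℤ)) :
    (expInf h f).coeff n = 0 := by
  rw [expInf_eq f m hm, HahnSeries.coeff_single_mul, one_mul]
  exact ModularCurve.ofPowerSeries_coeff_of_neg _ (by omega)

/-- on functions bounded at `i∞` it is Mathlib's `qExpansion` -/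
theorem expInf_of_bounded (h : ℕ) [NeZero h] (f : Mer h) (hf : IsBoundedAtImInfty f.1) :
    expInf h f = HahnSeries.ofPowerSeries ℤ ℂ (qExpansion h f.1) := by
  have := expFun_eq f 0 (by rw [shiftF_zero]; exact hf)
  rw [expAux_zero] at this
  exact this

theorem qN_mem_Mer (h : ℕ) [NeZero h] : qN h ∈ Mer h :=
  ⟨qN_mdiff h, qN_vadd h, 0, by simpa using qN_bdd h⟩

theorem expInf_qN (h : ℕ) [NeZero h] :
    expInf h ⟨qN h, qN_mem_Mer h⟩ = HahnSeries.single 1 1 := by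
  rw [expInf_of_bounded h _ (qN_bdd h)]
  have := qExpansion_qN_pow h 1
  simp only [pow_one] at this
  show HahnSeries.ofPowerSeries ℤ ℂ (qExpansion h (fun z => qN h z)) = _
  rw [this, HahnSeries.ofPowerSeries_X]

theorem expInf_injective (h : ℕ) [NeZero h] : Function.Injective (expInf h) := by
  rw [injective_iff_map_eq_zero]
  intro f hf
  obtain ⟨m, hm⟩ := exists_shiftF_bdd f
  rw [expInf_eq f m hm] at hf
  have h1 : HahnSeries.single (-(m : ℤ)) (1 : ℂ) ≠ 0 := HahnSeries.single_ne_zero one_ne_zero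
  have h2 := (mul_eq_zero.mp hf).resolve_left h1
  have h3 : qExpansion h (shiftF h m f.1) = 0 := by
    apply HahnSeries.ofPowerSeries_injective (Γ := ℤ)
    rw [h2, map_zero]
  rw [qExpansion_eq_zero_iff (natCast_pos h) (periodic_of_vadd (shiftF_vadd m f.2.2.1))
    (shiftF_mdiff m f.2.1) hm] at h3
  apply Subtype.ext
  funext z
  have h4 := congrFun h3 z
  simp only [shiftF, Pi.zero_apply, mul_eq_zero] at h4
  exact h4.resolve_left (pow_ne_zero _ (qN_ne_zero h z))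

theorem hasSum_shiftF {h : ℕ} [NeZero h] (f : Mer h) (m : ℕ)
    (hm : IsBoundedAtImInfty (shiftF h m f.1)) (τ : ℍ) :
    HasSum (fun i : ℕ ↦ (qExpansion h (shiftF h m f.1)).coeff i • 𝕢 (h : ℝ) τ ^ i)
      (shiftF h m f.1 τ) :=
  hasSum_qExpansion (natCast_pos h) (periodic_of_vadd (shiftF_vadd m f.2.2.1))
    (shiftF_mdiff m f.2.1) hm τ

theorem isBoundedAtImInfty_of_order_nonneg (h : ℕ) [NeZero h] (f : Mer h)
    (hf : 0 ≤ (expInf h f).order) : IsBoundedAtImInfty f.1 := by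
  obtain ⟨m, hm⟩ := exists_shiftF_bdd f
  have hc : ∀ i < m, (qExpansion h (shiftF h m f.1)).coeff i = 0 := by
    intro i hi
    rw [← expInf_coeff f m hm i]
    apply HahnSeries.coeff_eq_zero_of_lt_order
    have : (i : ℤ) < m := by exact_mod_cast hi
    omega
  obtain ⟨u, hu, hfu⟩ := S20.exists_bdd_of_hasSum (natCast_pos h) (hasSum_shiftF f m hm) m hc
  have : f.1 = u := by
    funext z
    have h1 := hfu z
    simp only [shiftF] at h1
    exact mul_left_cancel₀ (pow_ne_zero m (qN_ne_zero h z)) h1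
  rw [this]
  exact hu

theorem qN_int_vadd (h : ℕ) (t : ℤ) (z : ℍ) :
    qN h ((t : ℝ) +ᵥ z) = Complex.exp (2 * Real.pi * Complex.I * t / h) * qN h z := by
  unfold qN Periodic.qParam
  rw [← Complex.exp_add, coe_vadd]
  congr 1
  push_cast
  ring

theorem bdd_comp_vadd {F : ℍ → ℂ} (hF : IsBoundedAtImInfty F) (t : ℝ) :
    IsBoundedAtImInfty (fun z : ℍ => F (t +ᵥ z)) := by
  rw [UpperHalfPlane.isBoundedAtImInfty_iff] at hF ⊢
  obtain ⟨M, A, hMA⟩ := hF
  exact ⟨M, A, fun z hz => hMA _ (by simpa using hz)⟩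

theorem mdiff_comp_vadd {F : ℍ → ℂ} (hF : MDiff F) (t : ℤ) :
    MDiff (fun z : ℍ => F ((t : ℝ) +ᵥ z)) := by
  have h1 : MDiff (F ∣[(0 : ℤ)] (ModularGroup.T ^ t : SL(2, ℤ))) := hF.slash 0 _
  have h2 : (F ∣[(0 : ℤ)] (ModularGroup.T ^ t : SL(2, ℤ))) = fun z : ℍ => F ((t : ℝ) +ᵥ z) := by
    funext z
    rw [ModularForm.SL_slash_apply]
    simp only [neg_zero, zpow_zero, mul_one]
    congr 1
    ext
    rw [ModularGroup.coe_T_zpow_smul_eq]
    simp [add_comm]
  rw [← h2]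
  exact h1

theorem shiftF_comp_vadd (h m : ℕ) (f : ℍ → ℂ) (t : ℤ) (z : ℍ) :
    shiftF h m (fun z : ℍ => f ((t : ℝ) +ᵥ z)) z =
      (Complex.exp (2 * Real.pi * Complex.I * t / h) ^ m)⁻¹ * shiftF h m f ((t : ℝ) +ᵥ z) := by
  simp only [shiftF, qN_int_vadd, mul_pow]
  have : Complex.exp (2 * Real.pi * Complex.I * t / h) ^ m ≠ 0 :=
    pow_ne_zero _ (Complex.exp_ne_zero _)
  field_simp

theorem vadd_mem_Mer (h : ℕ) [NeZero h] (f : Mer h) (t : ℤ) :
    (fun z : ℍ => f.1 ((t : ℝ) +ᵥ z)) ∈ Mer h := by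
  obtain ⟨m, hm⟩ := exists_shiftF_bdd f
  refine ⟨mdiff_comp_vadd f.2.1 t, fun z => ?_, m, ?_⟩
  · show f.1 ((t : ℝ) +ᵥ ((h : ℝ) +ᵥ z)) = f.1 ((t : ℝ) +ᵥ z)
    rw [vadd_comm, f.2.2.1]
  · have h1 := (bdd_comp_vadd hm (t : ℝ)).const_mul_left
      (Complex.exp (2 * Real.pi * Complex.I * t / h) ^ m)⁻¹
    refine h1.congr' ?_ (EventuallyEq.refl _ _)
    exact Eventually.of_forall fun z => (shiftF_comp_vadd h m f.1 t z).symm

/-- translation by `t` rotates the expansion by `exp (2πi t / h)` -/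
theorem expInf_vadd_coeff (h : ℕ) [NeZero h] (f : Mer h) (t n : ℤ) :
    (expInf h ⟨_, vadd_mem_Mer h f t⟩).coeff n =
      Complex.exp (2 * Real.pi * Complex.I * t / h) ^ n * (expInf h f).coeff n := by
  set ω := Complex.exp (2 * Real.pi * Complex.I * t / h) with hω
  have hω0 : ω ≠ 0 := Complex.exp_ne_zero _
  obtain ⟨m, hm⟩ := exists_shiftF_bdd f
  set g : Mer h := ⟨_, vadd_mem_Mer h f t⟩ with hg
  have hfun : shiftF h m g.1 = fun z => (ω ^ m)⁻¹ * shiftF h m f.1 ((t : ℝ) +ᵥ z) := by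
    funext z
    exact shiftF_comp_vadd h m f.1 t z
  have hmg : IsBoundedAtImInfty (shiftF h m g.1) := by
    rw [hfun]
    exact (bdd_comp_vadd hm (t : ℝ)).const_mul_left _
  rcases lt_or_ge n (-(m : ℤ)) with hn | hn
  · rw [expInf_coeff_of_lt g m hmg n hn, expInf_coeff_of_lt f m hm n hn, mul_zero]
  · obtain ⟨i, hi⟩ : ∃ i : ℕ, n = (i : ℤ) - m := ⟨(n + m).toNat, by omega⟩
    rw [hi, expInf_coeff g m hmg i, expInf_coeff f m hm i]
    have hs : ∀ τ : ℍ, HasSum (fun j : ℕ ↦ ((ω ^ m)⁻¹ * ((qExpansion h (shiftF h m f.1)).coeff j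
        * ω ^ j)) • 𝕢 (h : ℝ) τ ^ j) (shiftF h m g.1 τ) := by
      intro τ
      have h0 := (hasSum_shiftF f m hm ((t : ℝ) +ᵥ τ)).mul_left (ω ^ m)⁻¹
      rw [hfun]
      have he : (fun j : ℕ ↦ ((ω ^ m)⁻¹ * ((qExpansion h (shiftF h m f.1)).coeff j
          * ω ^ j)) • 𝕢 (h : ℝ) τ ^ j) = fun j : ℕ ↦ (ω ^ m)⁻¹ *
          ((qExpansion h (shiftF h m f.1)).coeff j • 𝕢 (h : ℝ) (((t : ℝ) +ᵥ τ : ℍ) : ℂ) ^ j) := by
        funext j
        have hq : 𝕢 (h : ℝ) (((t : ℝ) +ᵥ τ : ℍ) : ℂ) = ω * 𝕢 (h : ℝ) τ := qN_int_vadd h t τ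
        rw [hq, mul_pow, smul_eq_mul, smul_eq_mul]
        ring
      rw [he]
      exact h0
    have hq := S22.qExpansion_of_hasSum (natCast_pos h) (shiftF_mdiff m g.2.1) hs
    rw [hq, PowerSeries.coeff_mk, zpow_sub₀ hω0, zpow_natCast, zpow_natCast]
    field_simp

end Fermat.Agent.S24
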