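import Mathlib
import Fermat.Agent.S24.Mer
import Fermat.Agent.S24.EtaSeries
import Fermat.Agent.S20.CuspAux
import Fermat.Agent.S20.DivDelta
import Fermat.Prelude.Def_ModularCurve_JqCoeff

set_option autoImplicit false

/-! # S24 (M3): the formal `jq` is the `q`-expansion of the analytic `j` -/

namespace Fermat.Agent.S24

open UpperHalfPlane ModularForm EisensteinSeries Matrix.SpecialLinearGroup Filter
open scoped MatrixGroups ModularForm Manifold Topology

local notation "𝕢" => Function.Periodic.qParam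

/-- the Euler product as a function on `ℍ`. -/
noncomputable def etaFun (z : ℍ) : ℂ := eulerG (qN 1 z)

theorem norm_qN_lt_one (h : ℕ) [NeZero h] (z : ℍ) : ‖qN h z‖ < 1 :=
  Function.Periodic.norm_qParam_lt_one (natCast_pos h) z.im_pos

theorem hasSum_etaFun (z : ℍ) :
    HasSum (fun m : ℕ => (PowerSeries.pentagonalSeries ℂ).coeff m • 𝕢 (1 : ℕ) z ^ m) (etaFun z) :=
  hasSum_eulerG (norm_qN_lt_one 1 z)

theorem etaFun_mdiff : MDiff etaFun := by
  rw [UpperHalfPlane.mdifferentiable_iff]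
  have h1 : DifferentiableOn ℂ (eulerG ∘ 𝕢 (1 : ℕ)) {z : ℂ | 0 < z.im} := by
    refine DifferentiableOn.comp (t := Metric.ball (0 : ℂ) 1)
      ModularForm.differentiableOn_tprod_one_sub_pow ?_ ?_
    · exact (Function.Periodic.differentiable_qParam).differentiableOn
    · intro z hz
      simpa using Function.Periodic.norm_qParam_lt_one (natCast_pos 1) hz
  refine h1.congr fun z hz => ?_
  simp only [Function.comp_apply, ofComplex_apply_of_im_pos hz]
  rfl

theorem etaFun_bdd : IsBoundedAtImInfty etaFun :=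
  isBoundedAtImInfty_of_hasSum_qExpansion (natCast_pos 1) hasSum_etaFun

theorem etaFun_mem_Mer : etaFun ∈ Mer 1 := by
  refine ⟨etaFun_mdiff, fun z => ?_, 0, ?_⟩
  · show eulerG (qN 1 (((1 : ℕ) : ℝ) +ᵥ z)) = eulerG (qN 1 z)
    rw [qN_vadd]
  · simpa using etaFun_bdd

theorem qExpansion_etaFun : qExpansion (1 : ℕ) etaFun = PowerSeries.pentagonalSeries ℂ := by
  ext m
  exact S20.coeff_unique_of_hasSum (natCast_pos 1)
    (fun τ => hasSum_qExpansion (natCast_pos 1) (periodic_of_vadd etaFun_mem_Mer.2.1) etaFun_mdiff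
      etaFun_bdd τ) hasSum_etaFun m

theorem expInf_etaFun : expInf 1 ⟨etaFun, etaFun_mem_Mer⟩ =
    HahnSeries.ofPowerSeries ℤ ℂ (PowerSeries.pentagonalSeries ℂ) := by
  rw [expInf_of_bounded 1 _ etaFun_bdd]
  show HahnSeries.ofPowerSeries ℤ ℂ (qExpansion (1 : ℕ) etaFun) = _
  rw [qExpansion_etaFun]

theorem discriminant_eq_qN_mul (z : ℍ) :
    ModularForm.discriminant z = qN 1 z * etaFun z ^ 24 := by
  rw [discriminant_eq_q_prod]
  have h1 : 𝕢 1 (z : ℂ) = qN 1 z := by
    simp [qN]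
  have h2 : ∀ n : ℕ, eta_q n z = qN 1 z ^ (n + 1) := by
    intro n
    rw [eta_q_eq_pow, ← h1]
    simp [Function.Periodic.qParam]
  simp only [h1, h2]
  rw [(multipliable_one_sub_pow (norm_qN_lt_one 1 z)).tprod_pow 24]
  rfl

/-- the discriminant as an element of `Mer 1`. -/
noncomputable def discMer : Mer 1 := ⟨qN 1, qN_mem_Mer 1⟩ * ⟨etaFun, etaFun_mem_Mer⟩ ^ 24

theorem discMer_apply (z : ℍ) : discMer.1 z = ModularForm.discriminant z := by
  rw [discriminant_eq_qN_mul]
  rfl

theorem expInf_discMer : expInf 1 discMer = HahnSeries.single 1 1 *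
    HahnSeries.ofPowerSeries ℤ ℂ (PowerSeries.pentagonalSeries ℂ) ^ 24 := by
  rw [discMer, map_mul, map_pow, expInf_qN, expInf_etaFun]

theorem vadd_one_eq_T_smul (z : ℍ) : (((1 : ℕ) : ℝ) +ᵥ z) = ModularGroup.T • z := by
  rw [modular_T_smul]
  simp

theorem levelOne_mem_Mer {k : ℤ} (f : ModularForm 𝒮ℒ k) : ⇑f ∈ Mer 1 := by
  refine ⟨ModularFormClass.holo f, fun z => ?_, 0, ?_⟩
  · rw [vadd_one_eq_T_smul]
    have hmem : mapGL ℝ ModularGroup.T ∈ 𝒮ℒ := ⟨ModularGroup.T, rfl⟩
    have h1 : (⇑f ∣[k] ModularGroup.T) = f := SlashInvariantFormClass.slash_action_eq f _ hmem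
    have h2 := congrFun h1 z
    rw [SL_slash_apply] at h2
    have h3 : denom (ModularGroup.T : SL(2, ℤ)) z = 1 := by
      simp [denom]
    rw [h3] at h2
    simpa using h2
  · simpa using ModularFormClass.bdd_at_infty f

theorem qExpansion_E4 :
    qExpansion (1 : ℕ) E₄ = ModularCurve.eisenstein4.map (Int.castRingHom ℂ) := by
  ext m
  have h1 := E_qExpansion_coeff (k := 4) (by norm_num) ⟨2, rfl⟩ m
  rw [show bernoulli 4 = -1 / 30 by decide +kernel] at h1
  simp only [Nat.cast_one]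
  rw [h1, PowerSeries.coeff_map, ModularCurve.eisenstein4, PowerSeries.coeff_mk]
  by_cases hm : m = 0
  · simp [hm]
  · simp only [hm, if_false]
    rw [ArithmeticFunction.sigma_apply]
    push_cast
    norm_num

theorem etaProd_eq_pentagonal : ModularCurve.etaProd = PowerSeries.pentagonalSeries ℤ := by
  rw [ModularCurve.etaProd]
  exact PowerSeries.WithPiTopology.tprod_one_sub_X_pow ℤ

theorem pentagonal_map : (PowerSeries.pentagonalSeries ℤ).map (Int.castRingHom ℂ) =
    PowerSeries.pentagonalSeries ℂ := by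
  ext m
  rw [PowerSeries.coeff_map]
  by_cases hm : m ∈ Set.range pentagonal
  · obtain ⟨k, rfl⟩ := hm
    rw [PowerSeries.coeff_pentagonalSeries_pentagonal, PowerSeries.coeff_pentagonalSeries_pentagonal]
    simp
  · rw [PowerSeries.coeff_pentagonalSeries_eq_zero _ hm,
      PowerSeries.coeff_pentagonalSeries_eq_zero _ hm, map_zero]

theorem discriminant_vadd (z : ℍ) :
    ModularForm.discriminant (((1 : ℕ) : ℝ) +ᵥ z) = ModularForm.discriminant z := by
  rw [← discMer_apply, ← discMer_apply]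
  exact discMer.2.2.1 z

theorem jfun_mem_Mer : jfun ∈ Mer 1 := by
  refine ⟨?_, fun z => ?_, 1, ?_⟩
  · have h1 : MDiff (fun z : ℍ => E₄ z ^ 3) := (levelOne_mem_Mer E₄).1.pow 3
    have h2 : MDiff (fun z : ℍ => ModularForm.discriminant z) := by
      have := discMer.2.1
      have e : discMer.1 = fun z : ℍ => ModularForm.discriminant z := funext discMer_apply
      rwa [e] at this
    rw [UpperHalfPlane.mdifferentiable_iff] at h1 h2 ⊢
    exact (h1.div h2 fun z _ => discriminant_ne_zero _)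
  · unfold jfun
    rw [discriminant_vadd, (levelOne_mem_Mer E₄).2.1 z]
  · have h0 : IsBoundedAtImInfty (⇑E₄) := ModularFormClass.bdd_at_infty E₄
    have h1 : IsBoundedAtImInfty (⇑E₄ * (⇑E₄ * ⇑E₄)) := h0.mul (h0.mul h0)
    have h2 := S20.qParam_isBigO_discriminant
    have h3 : IsBoundedAtImInfty (fun z : ℍ => qN 1 z / ModularForm.discriminant z) := by
      obtain ⟨C, hC⟩ := h2.bound
      refine Asymptotics.IsBigO.of_bound C ?_
      filter_upwards [hC] with z hz
      rw [norm_div, div_le_iff₀ (norm_pos_iff.mpr (discriminant_ne_zero z))]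
      simpa [qN] using hz
    have h4 := h3.mul h1
    refine h4.congr' (Eventually.of_forall fun z => ?_) (EventuallyEq.refl _ _)
    simp only [Pi.mul_apply, jfun]
    ring

theorem jfun_mul_discMer :
    (⟨jfun, jfun_mem_Mer⟩ : Mer 1) * discMer = ⟨⇑E₄, levelOne_mem_Mer E₄⟩ ^ 3 := by
  apply Subtype.ext
  funext z
  show jfun z * discMer.1 z = E₄ z ^ 3
  rw [discMer_apply, jfun, div_mul_cancel₀ _ (discriminant_ne_zero z)]

theorem expInf_E4 : expInf 1 ⟨⇑E₄, levelOne_mem_Mer E₄⟩ =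
    HahnSeries.ofPowerSeries ℤ ℂ (ModularCurve.eisenstein4.map (Int.castRingHom ℂ)) := by
  rw [expInf_of_bounded 1 _ (ModularFormClass.bdd_at_infty E₄)]
  show HahnSeries.ofPowerSeries ℤ ℂ (qExpansion (1 : ℕ) E₄) = _
  rw [qExpansion_E4]

theorem expInf_discMer_ne_zero : expInf 1 discMer ≠ 0 := by
  intro h
  have h0 : discMer = 0 := expInf_injective 1 (by rw [h, map_zero])
  have h1 := discMer_apply UpperHalfPlane.I
  rw [h0] at h1
  exact discriminant_ne_zero _ h1.symm

theorem jqModC_mul : ModularCurve.jqModC ℂ * (HahnSeries.single 1 1 *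
    HahnSeries.ofPowerSeries ℤ ℂ (PowerSeries.pentagonalSeries ℂ) ^ 24) =
    HahnSeries.ofPowerSeries ℤ ℂ (ModularCurve.eisenstein4.map (Int.castRingHom ℂ)) ^ 3 := by
  have h1 : (HahnSeries.single (-1 : ℤ) (1 : ℂ)) * HahnSeries.single (1 : ℤ) (1 : ℂ) = 1 := by
    rw [HahnSeries.single_mul_single]
    simp
  have h2 := congrArg (PowerSeries.map (Int.castRingHom ℂ)) ModularCurve.dedekindEtaUnit_mul_inv
  rw [map_mul, map_one, ModularCurve.dedekindEtaUnit, map_pow, etaProd_eq_pentagonal,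
    pentagonal_map] at h2
  have h3 := congrArg (HahnSeries.ofPowerSeries ℤ ℂ) h2
  rw [map_mul, map_one, map_pow] at h3
  rw [ModularCurve.jqModC, ModularCurve.jNum, map_mul, map_mul, map_pow, map_pow]
  linear_combination
    (HahnSeries.ofPowerSeries ℤ ℂ (ModularCurve.eisenstein4.map (Int.castRingHom ℂ)) ^ 3 *
      HahnSeries.ofPowerSeries ℤ ℂ (ModularCurve.dedekindEtaUnitInv.map (Int.castRingHom ℂ)) *
      HahnSeries.ofPowerSeries ℤ ℂ (PowerSeries.pentagonalSeries ℂ) ^ 24) * h1 +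
    HahnSeries.ofPowerSeries ℤ ℂ (ModularCurve.eisenstein4.map (Int.castRingHom ℂ)) ^ 3 * h3

theorem expInf_jfun :
    expInf 1 ⟨jfun, jfun_mem_Mer⟩ = ModularCurve.coeffEmb ℂ ModularCurve.jq := by
  have h1 : ModularCurve.coeffEmb ℂ ModularCurve.jq = ModularCurve.jqModC ℂ :=
    ModularCurve.map_jqModC (algebraMap ℚ ℂ)
  rw [h1]
  apply mul_right_cancel₀ expInf_discMer_ne_zero
  rw [← map_mul, jfun_mul_discMer, map_pow, expInf_E4, expInf_discMer, jqModC_mul]

end Fermat.Agent.S24
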