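import Mathlib
import Fermat.Agent.S24.Mer

set_option autoImplicit false

/-! # S24 M2: expansions of `f((a z + b)/d)` -/

namespace Fermat.Agent.S24

open UpperHalfPlane ModularForm Function Filter
open scoped MatrixGroups ModularForm Manifold Topology

local notation "𝕢" => Periodic.qParam

theorem cast_div_of_dvd {N d : ℕ} (hd : d ≠ 0) (hdN : d ∣ N) : ((N / d : ℕ) : ℂ) = (N : ℂ) / d :=
  Nat.cast_div hdN (by exact_mod_cast hd)

theorem qN_one_tri (N a d : ℕ) (b : ℤ) (ha : a ≠ 0) (hd : d ≠ 0) [NeZero N] (hdN : d ∣ N) (z : ℍ) :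
    qN 1 (S22.tri a d b ha hd • z) =
      Complex.exp (2 * Real.pi * Complex.I * b / d) * qN N z ^ (a * (N / d)) := by
  have hd' : (d : ℂ) ≠ 0 := by exact_mod_cast hd
  have hN' : (N : ℂ) ≠ 0 := by exact_mod_cast NeZero.ne N
  unfold qN Periodic.qParam
  rw [S22.coe_tri_smul, ← Complex.exp_nat_mul, ← Complex.exp_add]
  congr 1
  push_cast
  rw [cast_div_of_dvd hd hdN]
  field_simp
  ring

theorem mer_one_vadd_nat (f : Mer 1) (s : ℕ) (z : ℍ) : f.1 ((s : ℝ) +ᵥ z) = f.1 z := by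
  induction s with
  | zero => simp
  | succ s ih =>
    have h1 := f.2.2.1 ((s : ℝ) +ᵥ z)
    rw [← ih, ← h1, ← add_vadd]
    have : ((s + 1 : ℕ) : ℝ) = ((1 : ℕ) : ℝ) + (s : ℝ) := by push_cast; ring
    rw [this]

theorem tri_smul_vadd (N a d : ℕ) (b : ℤ) (ha : a ≠ 0) (hd : d ≠ 0) (hdN : d ∣ N) (z : ℍ) :
    S22.tri a d b ha hd • ((N : ℝ) +ᵥ z) = ((a * (N / d) : ℕ) : ℝ) +ᵥ (S22.tri a d b ha hd • z) := by
  have hd' : (d : ℂ) ≠ 0 := by exact_mod_cast hd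
  ext
  rw [S22.coe_tri_smul, coe_vadd, coe_vadd, S22.coe_tri_smul]
  push_cast
  rw [cast_div_of_dvd hd hdN]
  field_simp
  ring

theorem mdiff_comp_tri {F : ℍ → ℂ} (hF : MDiff F) (a d : ℕ) (b : ℤ) (ha : a ≠ 0) (hd : d ≠ 0) :
    MDiff (fun z : ℍ => F (S22.tri a d b ha hd • z)) := by
  have h1 : MDiff (F ∣[(0 : ℤ)] S22.tri a d b ha hd) := hF.slash 0 _
  have hd' : (d : ℂ) ≠ 0 := by exact_mod_cast hd
  have ha' : (a : ℂ) ≠ 0 := by exact_mod_cast ha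
  have h2 : (fun z : ℍ => F (S22.tri a d b ha hd • z)) =
      ((a : ℂ) * d) • (F ∣[(0 : ℤ)] S22.tri a d b ha hd) := by
    funext z
    rw [Pi.smul_apply, S22.slash_tri_apply]
    simp only [zero_sub, neg_zero, zpow_zero, mul_one, smul_eq_mul, zpow_neg, zpow_one]
    field_simp
  rw [h2]
  exact h1.const_smul _

theorem im_tri_smul (a d : ℕ) (b : ℤ) (ha : a ≠ 0) (hd : d ≠ 0) (z : ℍ) :
    (S22.tri a d b ha hd • z).im = a * z.im / d := by
  have h := congrArg Complex.im (S22.coe_tri_smul a d b ha hd z)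
  rw [coe_im] at h
  rw [h]
  have : ((a : ℂ) * z + b) / d = (((a : ℝ) * z.re + b) / d : ℝ) + ((a * z.im / d : ℝ)) * Complex.I := by
    have hd' : (d : ℂ) ≠ 0 := by exact_mod_cast hd
    apply Complex.ext <;> simp [Complex.div_natCast_re, Complex.div_natCast_im]
  rw [this]
  simp

theorem bdd_comp_tri {F : ℍ → ℂ} (hF : IsBoundedAtImInfty F) (a d : ℕ) (b : ℤ) (ha : a ≠ 0)
    (hd : d ≠ 0) : IsBoundedAtImInfty (fun z : ℍ => F (S22.tri a d b ha hd • z)) := by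
  rw [UpperHalfPlane.isBoundedAtImInfty_iff] at hF ⊢
  obtain ⟨M, A, hMA⟩ := hF
  have ha' : (0 : ℝ) < a := by exact_mod_cast Nat.pos_of_ne_zero ha
  have hd' : (0 : ℝ) < d := by exact_mod_cast Nat.pos_of_ne_zero hd
  refine ⟨M, A * d / a, fun z hz => hMA _ ?_⟩
  rw [im_tri_smul, le_div_iff₀ hd']
  rw [div_le_iff₀ ha'] at hz
  linarith

theorem shiftF_comp_tri (N a d : ℕ) (b : ℤ) (ha : a ≠ 0) (hd : d ≠ 0) [NeZero N] (hdN : d ∣ N)
    (f : ℍ → ℂ) (m : ℕ) (z : ℍ) :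
    shiftF N (a * (N / d) * m) (fun z : ℍ => f (S22.tri a d b ha hd • z)) z =
      (Complex.exp (2 * Real.pi * Complex.I * b / d) ^ m)⁻¹ *
        shiftF 1 m f (S22.tri a d b ha hd • z) := by
  simp only [shiftF, qN_one_tri N a d b ha hd hdN, mul_pow, ← pow_mul]
  have : Complex.exp (2 * Real.pi * Complex.I * b / d) ^ m ≠ 0 :=
    pow_ne_zero _ (Complex.exp_ne_zero _)
  field_simp

theorem comp_tri_mem_Mer (N a d : ℕ) (b : ℤ) (ha : a ≠ 0) (hd : d ≠ 0) [NeZero N] (hdN : d ∣ N)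
    (f : Mer 1) : (fun z : ℍ => f.1 (S22.tri a d b ha hd • z)) ∈ Mer N := by
  obtain ⟨m, hm⟩ := exists_shiftF_bdd f
  refine ⟨mdiff_comp_tri f.2.1 a d b ha hd, fun z => ?_, a * (N / d) * m, ?_⟩
  · show f.1 (S22.tri a d b ha hd • ((N : ℝ) +ᵥ z)) = f.1 (S22.tri a d b ha hd • z)
    rw [tri_smul_vadd N a d b ha hd hdN, mer_one_vadd_nat]
  · have h1 := (bdd_comp_tri hm a d b ha hd).const_mul_left
      (Complex.exp (2 * Real.pi * Complex.I * b / d) ^ m)⁻¹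
    refine h1.congr' ?_ (EventuallyEq.refl _ _)
    exact Eventually.of_forall fun z => (shiftF_comp_tri N a d b ha hd hdN f.1 m z).symm

/-- coefficients of the `q_N`-expansion of `q_N^(s m) f(tri z)`. -/
noncomputable def triC (s m : ℕ) (ω : ℂ) (c : ℕ → ℂ) (k : ℕ) : ℂ :=
  if s ∣ k then (ω ^ m)⁻¹ * (c (k / s) * ω ^ (k / s)) else 0

theorem hasSum_comp_tri (N a d : ℕ) (b : ℤ) (ha : a ≠ 0) (hd : d ≠ 0) [NeZero N] (hdN : d ∣ N)
    (f : Mer 1) (m : ℕ) (hm : IsBoundedAtImInfty (shiftF 1 m f.1)) (τ : ℍ) :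
    HasSum (fun k : ℕ ↦ triC (a * (N / d)) m (Complex.exp (2 * Real.pi * Complex.I * b / d))
        (fun i => (qExpansion (1 : ℕ) (shiftF 1 m f.1)).coeff i) k • 𝕢 (N : ℝ) τ ^ k)
      (shiftF N (a * (N / d) * m) (fun z : ℍ => f.1 (S22.tri a d b ha hd • z)) τ) := by
  set ω := Complex.exp (2 * Real.pi * Complex.I * b / d) with hω
  set s := a * (N / d) with hs
  have hs0 : 0 < s := Nat.mul_pos (Nat.pos_of_ne_zero ha)
    (Nat.div_pos (Nat.le_of_dvd (Nat.pos_of_ne_zero (NeZero.ne N)) hdN) (Nat.pos_of_ne_zero hd))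
  have h1 := (hasSum_shiftF f m hm (S22.tri a d b ha hd • τ)).mul_left (ω ^ m)⁻¹
  rw [shiftF_comp_tri N a d b ha hd hdN]
  have hinj : Function.Injective (fun n : ℕ => s * n) := fun x y hxy =>
    Nat.eq_of_mul_eq_mul_left hs0 hxy
  rw [← hinj.hasSum_iff]
  · have hfun : ((fun k : ℕ ↦ triC s m ω
        (fun i => (qExpansion (1 : ℕ) (shiftF 1 m f.1)).coeff i) k • 𝕢 (N : ℝ) τ ^ k) ∘
          fun n : ℕ => s * n) =
        fun i => (ω ^ m)⁻¹ * ((qExpansion (1 : ℕ) (shiftF 1 m f.1)).coeff i •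
          𝕢 ((1 : ℕ) : ℝ) ((S22.tri a d b ha hd • τ : ℍ) : ℂ) ^ i) := by
      funext n
      have h3 : 𝕢 ((1 : ℕ) : ℝ) ((S22.tri a d b ha hd • τ : ℍ) : ℂ) = ω * 𝕢 (N : ℝ) τ ^ s :=
        qN_one_tri N a d b ha hd hdN τ
      simp only [Function.comp_apply, triC, if_pos (Dvd.intro n rfl),
        Nat.mul_div_cancel_left n hs0, smul_eq_mul]
      rw [h3, mul_pow, ← pow_mul]
      ring
    rw [hfun]
    exact h1
  · intro k hk
    have : ¬ s ∣ k := by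
      rintro ⟨n, rfl⟩
      exact hk ⟨n, rfl⟩
    simp [triC, if_neg this]

theorem qExpansion_comp_tri (N a d : ℕ) (b : ℤ) (ha : a ≠ 0) (hd : d ≠ 0) [NeZero N] (hdN : d ∣ N)
    (f : Mer 1) (m : ℕ) (hm : IsBoundedAtImInfty (shiftF 1 m f.1)) :
    qExpansion N (shiftF N (a * (N / d) * m) (fun z : ℍ => f.1 (S22.tri a d b ha hd • z))) =
      PowerSeries.mk (triC (a * (N / d)) m (Complex.exp (2 * Real.pi * Complex.I * b / d))
        (fun i => (qExpansion (1 : ℕ) (shiftF 1 m f.1)).coeff i)) :=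
  S22.qExpansion_of_hasSum (natCast_pos N) (shiftF_mdiff _ (mdiff_comp_tri f.2.1 a d b ha hd))
    (hasSum_comp_tri N a d b ha hd hdN f m hm)

theorem bdd_shiftF_comp_tri (N a d : ℕ) (b : ℤ) (ha : a ≠ 0) (hd : d ≠ 0) [NeZero N] (hdN : d ∣ N)
    (f : Mer 1) (m : ℕ) (hm : IsBoundedAtImInfty (shiftF 1 m f.1)) :
    IsBoundedAtImInfty
      (shiftF N (a * (N / d) * m) (fun z : ℍ => f.1 (S22.tri a d b ha hd • z))) := by
  have h1 := (bdd_comp_tri hm a d b ha hd).const_mul_left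
    (Complex.exp (2 * Real.pi * Complex.I * b / d) ^ m)⁻¹
  refine h1.congr' ?_ (EventuallyEq.refl _ _)
  exact Eventually.of_forall fun z => (shiftF_comp_tri N a d b ha hd hdN f.1 m z).symm

/-- `f((a z + b)/d) = Σ c_n ω^n q_N^(n a N / d)`, `ω = exp(2πi b/d)` -/
theorem expInf_comp_tri_coeff_mul (N a d : ℕ) (b : ℤ) (ha : a ≠ 0) (hd : d ≠ 0) [NeZero N]
    (hdN : d ∣ N) (f : Mer 1) (n : ℤ) :
    (expInf N ⟨_, comp_tri_mem_Mer N a d b ha hd hdN f⟩).coeff ((a * (N / d) : ℕ) * n) =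
      Complex.exp (2 * Real.pi * Complex.I * b / d) ^ n * (expInf 1 f).coeff n := by
  set ω := Complex.exp (2 * Real.pi * Complex.I * b / d) with hω
  have hω0 : ω ≠ 0 := Complex.exp_ne_zero _
  set s := a * (N / d) with hs
  have hs0 : 0 < s := Nat.mul_pos (Nat.pos_of_ne_zero ha)
    (Nat.div_pos (Nat.le_of_dvd (Nat.pos_of_ne_zero (NeZero.ne N)) hdN) (Nat.pos_of_ne_zero hd))
  obtain ⟨m, hm⟩ := exists_shiftF_bdd f
  set g : Mer N := ⟨_, comp_tri_mem_Mer N a d b ha hd hdN f⟩ with hg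
  have hmg : IsBoundedAtImInfty (shiftF N (s * m) g.1) :=
    bdd_shiftF_comp_tri N a d b ha hd hdN f m hm
  have hs0' : (0 : ℤ) < (s : ℤ) := by exact_mod_cast hs0
  rcases lt_or_ge n (-(m : ℤ)) with hn | hn
  · rw [expInf_coeff_of_lt f m hm n hn, mul_zero]
    apply expInf_coeff_of_lt g (s * m) hmg
    push_cast
    nlinarith
  · obtain ⟨i, hi⟩ : ∃ i : ℕ, n = (i : ℤ) - m := ⟨(n + m).toNat, by omega⟩
    have e : ((s : ℕ) : ℤ) * n = ((s * i : ℕ) : ℤ) - ((s * m : ℕ) : ℤ) := by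
      rw [hi]; push_cast; ring
    rw [e, expInf_coeff g (s * m) hmg (s * i), hi, expInf_coeff f m hm i]
    have := qExpansion_comp_tri N a d b ha hd hdN f m hm
    rw [show g.1 = (fun z : ℍ => f.1 (S22.tri a d b ha hd • z)) from rfl, this,
      PowerSeries.coeff_mk, triC, if_pos (Dvd.intro i rfl), Nat.mul_div_cancel_left i hs0,
      zpow_sub₀ hω0, zpow_natCast, zpow_natCast, ← hω]
    field_simp

theorem expInf_comp_tri_coeff_of_not_dvd (N a d : ℕ) (b : ℤ) (ha : a ≠ 0) (hd : d ≠ 0) [NeZero N]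
    (hdN : d ∣ N) (f : Mer 1) (m : ℤ) (hm : ¬ ((a * (N / d) : ℕ) : ℤ) ∣ m) :
    (expInf N ⟨_, comp_tri_mem_Mer N a d b ha hd hdN f⟩).coeff m = 0 := by
  set s := a * (N / d) with hs
  obtain ⟨r, hr⟩ := exists_shiftF_bdd f
  set g : Mer N := ⟨_, comp_tri_mem_Mer N a d b ha hd hdN f⟩ with hg
  have hmg : IsBoundedAtImInfty (shiftF N (s * r) g.1) :=
    bdd_shiftF_comp_tri N a d b ha hd hdN f r hr
  rcases lt_or_ge m (-((s * r : ℕ) : ℤ)) with hn | hn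
  · exact expInf_coeff_of_lt g (s * r) hmg m hn
  · obtain ⟨i, hi⟩ : ∃ i : ℕ, m = (i : ℤ) - ((s * r : ℕ) : ℤ) := ⟨(m + (s * r : ℕ)).toNat, by omega⟩
    rw [hi, expInf_coeff g (s * r) hmg i]
    have := qExpansion_comp_tri N a d b ha hd hdN f r hr
    rw [show g.1 = (fun z : ℍ => f.1 (S22.tri a d b ha hd • z)) from rfl, this,
      PowerSeries.coeff_mk, triC, if_neg]
    intro hdvd
    apply hm
    rw [hi]
    apply dvd_sub
    · exact_mod_cast hdvd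
    · push_cast
      exact Dvd.intro _ rfl

end Fermat.Agent.S24
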