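import Mathlib
import Fermat.Agent.S20.LvlOrder
import Fermat.Agent.S20.Serre
import Fermat.Agent.S20.ODE
import Fermat.Agent.S20.Traces

set_option autoImplicit false
set_option maxHeartbeats 400000

/-! # S24 (M7, part 1): simple zeros of level one forms via the Serre derivative -/

namespace Fermat.Agent.S24

open UpperHalfPlane ModularForm EisensteinSeries Matrix.SpecialLinearGroup Filter
open scoped MatrixGroups ModularForm Manifold Topology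
open Fermat.Agent.S20

local notation "Δ" => (ModularForm.discriminant : ℍ → ℂ)
local notation "D" => Derivative.normalizedDerivOfComplex

theorem Ls_mdiff {w : ℤ} {a : ℍ → ℂ} (ha : a ∈ Ls w) : MDiff a := by
  obtain ⟨A, rfl⟩ := ha
  exact ModularFormClass.holo A

theorem Ls_bdd {w : ℤ} {a : ℍ → ℂ} (ha : a ∈ Ls w) : IsBoundedAtImInfty a := by
  obtain ⟨A, rfl⟩ := ha
  exact ModularFormClass.bdd_at_infty A

theorem serre_mem_Ls {w : ℤ} {a : ℍ → ℂ} (ha : a ∈ Ls w) :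
    Derivative.serreDerivative w a ∈ Ls (w + 2) :=
  mem_Ls_of (Derivative.serreDerivative_mdifferentiable _ (Ls_mdiff ha))
    (fun γ => Derivative.serreDerivative_slash_invariant (Ls_mdiff ha) (Ls_slash ha γ))
    (isBoundedAtImInfty_serreDerivative _ (Ls_mdiff ha) (Ls_bdd ha))

/-- a zero of `g` at which the generator of the next space does not vanish is simple. -/
theorem D_ne_zero_of_span {w : ℤ} {g h₀ : ℍ → ℂ} (hg : g ∈ Ls w) (hg0 : g ≠ 0)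
    (hspan : ∀ x ∈ Ls (w + 2), ∃ c : ℂ, x = c • h₀) {τ₀ : ℍ} (hz : g τ₀ = 0) (hh : h₀ τ₀ ≠ 0) :
    D g τ₀ ≠ 0 := by
  intro hD
  obtain ⟨c, hc⟩ := hspan _ (serre_mem_Ls hg)
  have h1 := congrFun hc τ₀
  rw [Derivative.serreDerivative_apply, hD, hz] at h1
  simp only [mul_zero, sub_zero, Pi.smul_apply, smul_eq_mul] at h1
  have hc0 : c = 0 := by
    rcases mul_eq_zero.mp h1.symm with h | h
    · exact h
    · exact absurd h hh
  rw [hc0, zero_smul] at hc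
  apply hg0
  have hode : D g = g * (fun z => (w : ℂ) * 12⁻¹ * E2 z) := by
    funext z
    have := congrFun hc z
    rw [Derivative.serreDerivative_apply, Pi.zero_apply, sub_eq_zero] at this
    rw [this, Pi.mul_apply]
    ring
  have := eq_zero_of_linear_ode (ι := Unit) (fun _ => g) (fun _ _ z => (w : ℂ) * 12⁻¹ * E2 z)
    (fun _ => Ls_mdiff hg)
    (fun _ _ => (mdifferentiable_const (c := (w : ℂ) * 12⁻¹)).mul E2_mdifferentiable)
    (fun _ => by simpa using hode) τ₀ (fun _ => hz)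
  exact this ()

theorem Ls_four {a : ℍ → ℂ} (ha : a ∈ Ls 4) : ∃ c : ℂ, a = c • ⇑E₄ := by
  obtain ⟨a', ha', a'', ha'', rfl⟩ := Ls_decomp (by norm_num) ha
  rw [Ls_eq_bot_of_neg (by norm_num)] at ha''
  obtain ⟨c, rfl⟩ := exists_const_of_mem_Ls_zero ha'
  rw [(Submodule.mem_bot ℂ).mp ha'']
  refine ⟨c, ?_⟩
  ext z
  simp [mul_comm]

theorem Ls_six {a : ℍ → ℂ} (ha : a ∈ Ls 6) : ∃ c : ℂ, a = c • ⇑E₆ := by
  obtain ⟨a', ha', a'', ha'', rfl⟩ := Ls_decomp (by norm_num) ha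
  rw [show (6 : ℤ) - 4 = 2 by norm_num, Ls_two] at ha'
  obtain ⟨c, rfl⟩ := exists_const_of_mem_Ls_zero ha''
  rw [(Submodule.mem_bot ℂ).mp ha']
  refine ⟨c, ?_⟩
  ext z
  simp [mul_comm]

theorem Ls_eight {a : ℍ → ℂ} (ha : a ∈ Ls 8) : ∃ c : ℂ, a = c • (⇑E₄ * ⇑E₄) := by
  obtain ⟨a', ha', a'', ha'', rfl⟩ := Ls_decomp (by norm_num) ha
  rw [show (8 : ℤ) - 6 = 2 by norm_num, Ls_two] at ha''
  obtain ⟨c, rfl⟩ := Ls_four ha'
  rw [(Submodule.mem_bot ℂ).mp ha'']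
  refine ⟨c, ?_⟩
  ext z
  simp only [Pi.add_apply, Pi.mul_apply, Pi.smul_apply, smul_eq_mul, Pi.zero_apply]
  ring

theorem Ls_ten {a : ℍ → ℂ} (ha : a ∈ Ls 10) : ∃ c : ℂ, a = c • (⇑E₄ * ⇑E₆) := by
  obtain ⟨a', ha', a'', ha'', rfl⟩ := Ls_decomp (by norm_num) ha
  obtain ⟨c, rfl⟩ := Ls_six ha'
  obtain ⟨c', rfl⟩ := Ls_four ha''
  refine ⟨c + c', ?_⟩
  ext z
  simp
  ring

theorem Ls_fourteen {a : ℍ → ℂ} (ha : a ∈ Ls 14) : ∃ c : ℂ, a = c • (⇑E₄ * ⇑E₄ * ⇑E₆) := by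
  obtain ⟨a', ha', a'', ha'', rfl⟩ := Ls_decomp (by norm_num) ha
  obtain ⟨c, rfl⟩ := Ls_ten ha'
  obtain ⟨c', rfl⟩ := Ls_eight ha''
  refine ⟨c + c', ?_⟩
  ext z
  simp
  ring

theorem Ls_apply_smul {w : ℤ} {a : ℍ → ℂ} (ha : a ∈ Ls w) (γ : SL(2, ℤ)) (z : ℍ) :
    a (γ • z) = denom γ z ^ w * a z := by
  have h := congrFun (Ls_slash ha γ) z
  rw [ModularForm.SL_slash_apply] at h
  rw [← h, mul_comm (a (γ • z)), ← mul_assoc, ← zpow_add₀ (denom_ne_zero _ _)]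
  simp

theorem E6_I : E₆ I = 0 := by
  have h := Ls_apply_smul E6_mem ModularGroup.S I
  rw [S_smul_I, denom_S_I] at h
  have h6 : (Complex.I : ℂ) ^ (6 : ℤ) = -1 := by
    have : (Complex.I : ℂ) ^ (6 : ℤ) = (Complex.I ^ 2) ^ 3 := by
      rw [← pow_mul]; norm_cast
    rw [this, Complex.I_sq]; norm_num
  rw [h6] at h
  have h2 : (2 : ℂ) * E₆ I = 0 := by linear_combination h
  simpa using h2

theorem E4_rho : E₄ rho = 0 := by
  have h := Ls_apply_smul E4_mem (ModularGroup.S * ModularGroup.T) rho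
  rw [ST_smul_rho, denom_ST_rho] at h
  have hr := rho_sq
  have h4 : ((rho : ℂ) + 1) ^ (4 : ℤ) = -(rho : ℂ) - 1 := by
    have : ((rho : ℂ) + 1) ^ (4 : ℤ) = ((rho : ℂ) + 1) ^ 4 := by norm_cast
    rw [this]
    linear_combination ((rho : ℂ) ^ 2 + 3 * rho + 2) * hr
  rw [h4] at h
  have h1 : ((rho : ℂ) + 2) * E₄ rho = 0 := by linear_combination h
  rcases mul_eq_zero.mp h1 with h2 | h2
  · exfalso
    have h3 : (rho : ℂ) = -2 := by linear_combination h2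
    rw [h3] at hr
    norm_num at hr
  · exact h2

theorem disc_eq_apply (z : ℍ) : 1728 * Δ z = E₄ z ^ 3 - E₆ z ^ 2 := by
  have := discriminant_eq_E₄_cube_sub_E₆_sq z
  rw [this]
  ring

theorem E4_I_ne : E₄ I ≠ 0 := by
  intro h
  have := disc_eq_apply I
  rw [h, E6_I] at this
  have h2 := discriminant_ne_zero I
  apply h2
  simpa using this

theorem E6_rho_ne : E₆ rho ≠ 0 := by
  intro h
  have := disc_eq_apply rho
  rw [h, E4_rho] at this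
  have h2 := discriminant_ne_zero rho
  apply h2
  simpa using this

theorem D_E4_rho_ne : D ⇑E₄ rho ≠ 0 :=
  D_ne_zero_of_span E4_mem (fun h => E4_I_ne (congrFun h I)) (fun _ hx => Ls_six hx) E4_rho
    E6_rho_ne

theorem D_E6_I_ne : D ⇑E₆ I ≠ 0 :=
  D_ne_zero_of_span E6_mem (fun h => E6_rho_ne (congrFun h rho)) (fun _ hx => Ls_eight hx) E6_I
    (mul_ne_zero E4_I_ne E4_I_ne)

theorem cube_sub_mem (a : ℂ) : ⇑E₄ * ⇑E₄ * ⇑E₄ - a • Δ ∈ Ls 12 :=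
  Submodule.sub_mem _ (mul_mem_Ls (w := 8) (by norm_num) (mul_mem_Ls (by norm_num) E4_mem E4_mem)
    E4_mem) (Submodule.smul_mem _ _ disc_mem)

theorem cube_sub_ne_zero (a : ℂ) : ⇑E₄ * ⇑E₄ * ⇑E₄ - a • Δ ≠ 0 := by
  intro h
  have h1 := congrFun h rho
  simp only [Pi.sub_apply, Pi.mul_apply, Pi.smul_apply, smul_eq_mul, Pi.zero_apply, E4_rho] at h1
  have ha : a = 0 := by
    have : a * Δ rho = 0 := by linear_combination -h1
    rcases mul_eq_zero.mp this with h2 | h2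
    · exact h2
    · exact absurd h2 (discriminant_ne_zero rho)
  have h2 := congrFun h I
  simp only [Pi.sub_apply, Pi.mul_apply, Pi.smul_apply, smul_eq_mul, Pi.zero_apply, ha] at h2
  have : E₄ I * E₄ I * E₄ I = 0 := by linear_combination h2
  simp [E4_I_ne] at this

theorem D_cube_sub_ne (a : ℂ) {τ₀ : ℍ} (hz : (⇑E₄ * ⇑E₄ * ⇑E₄ - a • Δ) τ₀ = 0) (h4 : E₄ τ₀ ≠ 0)
    (h6 : E₆ τ₀ ≠ 0) : D (⇑E₄ * ⇑E₄ * ⇑E₄ - a • Δ) τ₀ ≠ 0 :=
  D_ne_zero_of_span (cube_sub_mem a) (cube_sub_ne_zero a) (fun _ hx => Ls_fourteen hx) hz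
    (mul_ne_zero (mul_ne_zero h4 h4) h6)

/-- `E₄³ - a Δ` has a zero. -/
theorem exists_cube_sub_eq_zero (a : ℂ) : ∃ τ : ℍ, (⇑E₄ * ⇑E₄ * ⇑E₄ - a • Δ) τ = 0 := by
  by_contra hne
  push Not at hne
  have hmem := cube_sub_mem a
  have hlim : Tendsto (⇑E₄ * ⇑E₄ * ⇑E₄ - a • Δ) atImInfty (𝓝 (1 * 1 * 1 - a • 0)) := by
    refine ((tendsto_E4.mul tendsto_E4).mul tendsto_E4).sub (Tendsto.const_smul ?_ a)
    exact CuspFormClass.zero_at_infty CuspForm.discriminant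
  have h := weight_eq_of_ne_zero (Ls_mdiff hmem) (Ls_slash hmem) hne 0 (by
    simpa using Ls_bdd hmem) (by
    simp only [pow_zero]
    have h1 : Tendsto (fun z => ((⇑E₄ * ⇑E₄ * ⇑E₄ - a • Δ) z)⁻¹) atImInfty
        (𝓝 (1 * 1 * 1 - a • 0 : ℂ)⁻¹) := hlim.inv₀ (by simp)
    have h2 : (1 / (⇑E₄ * ⇑E₄ * ⇑E₄ - a • Δ) : ℍ → ℂ) =
        fun z => ((⇑E₄ * ⇑E₄ * ⇑E₄ - a • Δ) z)⁻¹ := by
      funext z; simp
    rw [h2]
    exact h1.isBigO_one ℝ)
  norm_num at h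

end Fermat.Agent.S24
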