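import Mathlib
import Fermat.Agent.S24.LevelOne
import Fermat.Agent.S22.Translate

set_option autoImplicit false
set_option maxHeartbeats 400000

/-! # S24 (M5, first part): the conjugates `j(d γ z)` -/

namespace Fermat.Agent.S24

open UpperHalfPlane ModularForm EisensteinSeries Matrix.SpecialLinearGroup Filter
open scoped MatrixGroups ModularForm Manifold Topology

theorem jfun_smul (γ : SL(2, ℤ)) (z : ℍ) : jfun (γ • z) = jfun z := jfun_smul_aux γ z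

theorem jdg_one_dv (N : ℕ) [NeZero N] (γ : SL(2, ℤ)) : jdg N ⟨1, one_dvd N⟩ γ = jfun := by
  funext z
  unfold jdg
  rw [tri_one_smul_L1, jfun_smul]

theorem jdg_mul (N : ℕ) [NeZero N] (d : Dv N) (γ γ' : SL(2, ℤ)) (z : ℍ) :
    jdg N d (γ * γ') z = jdg N d γ (γ' • z) := by
  unfold jdg
  rw [mul_smul]

theorem mapGL_smul_eq (γ : SL(2, ℤ)) (z : ℍ) : mapGL ℝ γ • z = γ • z := rfl

/-- the Hermite normal form, with the extra information on the first coefficient. -/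
theorem jdg_eq_tri_strong (N : ℕ) [NeZero N] (d : Dv N) (γ : SL(2, ℤ)) :
    ∃ (a d' : ℕ) (b : ℤ) (ha : a ≠ 0) (hd' : d' ≠ 0), a * d' = d.1 ∧
      (jdg N d γ = fun z => jfun (S22.tri a d' b ha hd' • z)) ∧
      (a = d.1 → γ ∈ CongruenceSubgroup.Gamma0 d.1) := by
  obtain ⟨γ', a, d', b, ha, hd', had, heq, hmem⟩ := S22.hermite d.1 d.ne_zero γ
  refine ⟨a, d', b, ha, hd', had, ?_, hmem⟩
  funext z
  unfold jdg
  rw [← mapGL_smul_eq γ z, ← mul_smul, heq, mul_smul, mapGL_smul_eq, jfun_smul]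

theorem jdg_eq_tri (N : ℕ) [NeZero N] (d : Dv N) (γ : SL(2, ℤ)) :
    ∃ (a d' : ℕ) (b : ℤ) (ha : a ≠ 0) (hd' : d' ≠ 0), a * d' = d.1 ∧
      jdg N d γ = fun z => jfun (S22.tri a d' b ha hd' • z) := by
  obtain ⟨a, d', b, ha, hd', had, h, -⟩ := jdg_eq_tri_strong N d γ
  exact ⟨a, d', b, ha, hd', had, h⟩

theorem Gamma0_le_of_dvd {d N : ℕ} (h : d ∣ N) :
    CongruenceSubgroup.Gamma0 N ≤ CongruenceSubgroup.Gamma0 d := by
  intro γ hγ
  rw [CongruenceSubgroup.Gamma0_mem, ZMod.intCast_zmod_eq_zero_iff_dvd] at hγ ⊢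
  exact dvd_trans (by exact_mod_cast h) hγ

theorem jdg_Gamma0_mul (N : ℕ) [NeZero N] (d : Dv N) (δ γ : SL(2, ℤ))
    (hδ : δ ∈ CongruenceSubgroup.Gamma0 N) : jdg N d (δ * γ) = jdg N d γ := by
  have h1 : mapGL ℝ δ ∈ (CongruenceSubgroup.Gamma0 d.1 : Subgroup (GL (Fin 2) ℝ)) :=
    Subgroup.mem_map.mpr ⟨δ, Gamma0_le_of_dvd d.2 hδ, rfl⟩
  have h2 := S22.Gamma0_le_conj d.1 d.ne_zero h1
  rw [Subgroup.mem_pointwise_smul_iff_inv_smul_mem, ConjAct.smul_def] at h2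
  simp only [map_inv, inv_inv, ConjAct.ofConjAct_toConjAct] at h2
  obtain ⟨δ', hδ'⟩ := h2
  rw [eq_mul_inv_iff_mul_eq] at hδ'
  funext z
  unfold jdg
  rw [mul_smul, ← mapGL_smul_eq δ, ← mul_smul, ← hδ', mul_smul]
  exact jfun_smul δ' _

theorem jdg_mdiff (N : ℕ) [NeZero N] (d : Dv N) (γ : SL(2, ℤ)) : MDiff (jdg N d γ) := by
  obtain ⟨a, d', b, ha, hd', -, h⟩ := jdg_eq_tri N d γ
  rw [h]
  exact mdiff_comp_tri jfun_mem_Mer.1 a d' b ha hd'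

theorem jdg_mem_Mer (N : ℕ) [NeZero N] (d : Dv N) (γ : SL(2, ℤ)) : jdg N d γ ∈ Mer N := by
  obtain ⟨a, d', b, ha, hd', had, h⟩ := jdg_eq_tri N d γ
  rw [h]
  exact comp_tri_mem_Mer N a d' b ha hd' (dvd_trans (Dvd.intro_left a had) d.2)
    ⟨jfun, jfun_mem_Mer⟩

theorem jdg_one_mem_Mer_one (N : ℕ) [NeZero N] (d : Dv N) : jdg N d 1 ∈ Mer 1 := by
  have h : jdg N d 1 = fun z => jfun (S22.tri d.1 1 0 d.ne_zero one_ne_zero • z) := by
    funext z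
    unfold jdg
    rw [one_smul]
  rw [h]
  exact comp_tri_mem_Mer 1 d.1 1 0 d.ne_zero one_ne_zero (one_dvd 1) ⟨jfun, jfun_mem_Mer⟩

end Fermat.Agent.S24
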