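import Mathlib
import Fermat.Agent.S24.CosetsBase

set_option autoImplicit false
set_option maxHeartbeats 400000

/-! # S24 (M5, third part): distinct cosets give distinct conjugates -/

namespace Fermat.Agent.S24

open UpperHalfPlane ModularForm EisensteinSeries Matrix.SpecialLinearGroup Filter
open scoped MatrixGroups ModularForm Manifold Topology

theorem expInf_jfun_coeff_neg_one : (expInf 1 ⟨jfun, jfun_mem_Mer⟩).coeff (-1) = 1 := by
  rw [expInf_jfun, ModularCurve.coeffEmb_coeff, ModularCurve.coeff_jq_neg_one, map_one]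

theorem expInf_jfun_coeff_of_lt {n : ℤ} (hn : n < -1) :
    (expInf 1 ⟨jfun, jfun_mem_Mer⟩).coeff n = 0 := by
  rw [expInf_jfun, ModularCurve.coeffEmb_coeff, ModularCurve.coeff_jq_of_lt hn, map_zero]

/-- if `j((a z + b)/d') = j(N z)` with `a d' = N` then `a = N`. -/
theorem eq_of_jfun_tri_eq (N : ℕ) [NeZero N] (a d' : ℕ) (b : ℤ) (ha : a ≠ 0) (hd' : d' ≠ 0)
    (had : a * d' = N)
    (h : (fun z : ℍ => jfun (S22.tri a d' b ha hd' • z)) =
      fun z : ℍ => jfun (S22.tri N 1 0 (NeZero.ne N) one_ne_zero • z)) : a = N := by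
  have hdN : d' ∣ N := Dvd.intro_left a had
  have h1 := expInf_comp_tri_coeff_mul N a d' b ha hd' hdN ⟨jfun, jfun_mem_Mer⟩ (-((d' : ℤ) ^ 2))
  have h2 := expInf_comp_tri_coeff_mul N N 1 0 (NeZero.ne N) one_ne_zero (one_dvd N)
    ⟨jfun, jfun_mem_Mer⟩ (-1)
  have hidx : (((a * (N / d') : ℕ) : ℤ)) * (-((d' : ℤ) ^ 2)) = ((N * (N / 1) : ℕ) : ℤ) * (-1) := by
    have h3 : N / d' = a := by
      rw [← had]; exact Nat.mul_div_cancel _ (Nat.pos_of_ne_zero hd')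
    rw [h3, Nat.div_one, ← had]
    push_cast
    ring
  have heq : (⟨_, comp_tri_mem_Mer N a d' b ha hd' hdN ⟨jfun, jfun_mem_Mer⟩⟩ : Mer N) =
      ⟨_, comp_tri_mem_Mer N N 1 0 (NeZero.ne N) one_ne_zero (one_dvd N) ⟨jfun, jfun_mem_Mer⟩⟩ :=
    Subtype.ext h
  rw [heq, hidx, h2, expInf_jfun_coeff_neg_one] at h1
  have hd1 : d' = 1 := by
    by_contra hne
    have hd2 : 2 ≤ d' := by omega
    have hlt : -((d' : ℤ) ^ 2) < -1 := by
      have : (2 : ℤ) ≤ d' := by exact_mod_cast hd2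
      nlinarith
    rw [expInf_jfun_coeff_of_lt hlt, mul_zero, mul_one] at h1
    exact zpow_ne_zero _ (Complex.exp_ne_zero _) h1
  rw [← had, hd1, mul_one]

theorem mem_Gamma0_of_jdg_eq (N : ℕ) [NeZero N] (γ γ' : SL(2, ℤ))
    (h : ∀ d, jdg N d γ = jdg N d γ') : γ * γ'⁻¹ ∈ CongruenceSubgroup.Gamma0 N := by
  have h1 : jdg N ⟨N, dvd_rfl⟩ (γ * γ'⁻¹) = jdg N ⟨N, dvd_rfl⟩ 1 := by
    funext z
    rw [jdg_mul, h, ← jdg_mul, mul_inv_cancel]
  obtain ⟨a, d', b, ha, hd', had, h2, h3⟩ := jdg_eq_tri_strong N ⟨N, dvd_rfl⟩ (γ * γ'⁻¹)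
  apply h3
  apply eq_of_jfun_tri_eq N a d' b ha hd' had
  rw [← h2, h1]
  funext z
  unfold jdg
  rw [one_smul]

end Fermat.Agent.S24
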