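import Mathlib
import Fermat.Agent.S24.CosetsBase

set_option autoImplicit false
set_option maxHeartbeats 400000

/-! # S24 (M5, second part): the expansions of the conjugates `j(d γ z)` are `ℚ̄`-rational -/

namespace Fermat.Agent.S24

open UpperHalfPlane ModularForm EisensteinSeries Matrix.SpecialLinearGroup Filter
open scoped MatrixGroups ModularForm Manifold Topology

/-- a Laurent series all of whose coefficients lie in `iota ℚ̄` comes from `ℚ̄((q))`. -/
theorem exists_coeffMap_iota_eq (x : LaurentSeries ℂ) (h : ∀ n, x.coeff n ∈ iota.range) :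
    ∃ S : LaurentSeries Kb, x = ModularCurve.coeffMap iota S := by
  choose c hc using h
  have hsupp : Function.support c ⊆ x.support := by
    intro n hn
    rw [Function.mem_support] at hn
    rw [HahnSeries.mem_support, ← hc n]
    exact fun h0 => hn (iota.injective (by rw [h0, map_zero]))
  refine ⟨⟨c, x.isPWO_support.mono hsupp⟩, ?_⟩
  ext n
  rw [ModularCurve.coeffMap_coeff]
  exact (hc n).symm

/-- roots of unity of `ℂ` lie in `iota ℚ̄`. -/
theorem mem_range_iota_of_pow_eq_one (ω : ℂ) (n : ℕ) (hn : n ≠ 0) (h : ω ^ n = 1) :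
    ω ∈ iota.range := by
  have hs : (Polynomial.X ^ n - 1 : Polynomial Kb).Splits := IsAlgClosed.splits _
  have h0 : (Polynomial.X ^ n - 1 : Polynomial Kb) ≠ 0 :=
    Polynomial.X_pow_sub_C_ne_zero (Nat.pos_of_ne_zero hn) 1
  refine hs.mem_range_of_isRoot h0 (i := iota) ?_
  simp [Polynomial.IsRoot, h]

theorem exp_tri_pow_eq_one (b : ℤ) (d : ℕ) (hd : d ≠ 0) :
    Complex.exp (2 * Real.pi * Complex.I * b / d) ^ d = 1 := by
  rw [← Complex.exp_nat_mul, Complex.exp_eq_one_iff]
  refine ⟨b, ?_⟩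
  have : (d : ℂ) ≠ 0 := by exact_mod_cast hd
  field_simp

theorem ratCast_mem_range_iota (r : ℚ) : (algebraMap ℚ ℂ r) ∈ iota.range :=
  ⟨algebraMap ℚ Kb r, by simp⟩

/-- the expansions of all conjugates have coefficients in `ℚ̄` -/
theorem expInf_jdg_rational (N : ℕ) [NeZero N] (d : Dv N) (γ : SL(2, ℤ)) :
    ∃ S : LaurentSeries Kb,
      expInf N ⟨jdg N d γ, jdg_mem_Mer N d γ⟩ = ModularCurve.coeffMap iota S := by
  obtain ⟨a, d', b, ha, hd', had, h⟩ := jdg_eq_tri N d γ
  have hdN : d' ∣ N := dvd_trans (Dvd.intro_left a had) d.2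
  have he : (⟨jdg N d γ, jdg_mem_Mer N d γ⟩ : Mer N) =
      ⟨_, comp_tri_mem_Mer N a d' b ha hd' hdN ⟨jfun, jfun_mem_Mer⟩⟩ := Subtype.ext h
  rw [he]
  apply exists_coeffMap_iota_eq
  intro m
  by_cases hm : ((a * (N / d') : ℕ) : ℤ) ∣ m
  · obtain ⟨n, rfl⟩ := hm
    rw [expInf_comp_tri_coeff_mul N a d' b ha hd' hdN, expInf_jfun]
    refine mul_mem (zpow_mem (K := iota.fieldRange) ?_ n) ?_
    · exact mem_range_iota_of_pow_eq_one _ d' hd' (exp_tri_pow_eq_one b d' hd')
    · exact ratCast_mem_range_iota _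
  · rw [expInf_comp_tri_coeff_of_not_dvd N a d' b ha hd' hdN _ m hm]
    exact zero_mem _

end Fermat.Agent.S24
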