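import Fermat.Agent.S24.CosetsBase
import Fermat.Agent.S24.CosetsRat
import Fermat.Agent.S24.CosetsPole

/-! # S24 (M5): the conjugates `j(d γ z)`; see `CosetsBase`, `CosetsRat`, `CosetsPole`. -/
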