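import Mathlib

set_option autoImplicit false

/-! # S24: the Euler derivation `u d/du` on Laurent series -/

namespace Fermat.Agent.S24

open HahnSeries

variable {k : Type} [Field k]

/-- `u d/du` coefficientwise. -/
def eulerFun (f : LaurentSeries k) : LaurentSeries k where
  coeff n := (n : k) * f.coeff n
  isPWO_support' := f.isPWO_support.mono (by
    intro n hn
    simp only [Function.mem_support, ne_eq, mul_eq_zero, not_or] at hn
    exact hn.2)

@[simp] theorem eulerFun_coeff (f : LaurentSeries k) (n : ℤ) :
    (eulerFun f).coeff n = (n : k) * f.coeff n := rfl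

theorem support_eulerFun_subset (f : LaurentSeries k) : (eulerFun f).support ⊆ f.support := by
  intro n hn
  simp only [HahnSeries.mem_support, eulerFun_coeff, ne_eq, mul_eq_zero, not_or] at hn
  exact hn.2

theorem eulerFun_mul (f g : LaurentSeries k) :
    eulerFun (f * g) = f * eulerFun g + g * eulerFun f := by
  ext n
  rw [eulerFun_coeff, HahnSeries.coeff_add, mul_comm g (eulerFun f),
    HahnSeries.coeff_mul_right' g.isPWO_support (support_eulerFun_subset g),
    HahnSeries.coeff_mul_left' f.isPWO_support (support_eulerFun_subset f),
    HahnSeries.coeff_mul, Finset.mul_sum, ← Finset.sum_add_distrib]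
  apply Finset.sum_congr rfl
  intro ij hij
  have h : ij.1 + ij.2 = n := (Finset.mem_antidiagonal.mp hij).2.2
  simp only [eulerFun_coeff]
  rw [← h]
  push_cast
  ring

theorem algebraMap_laurent_eq_C {K : Type} [Field K] [Algebra K k] (c : K) :
    algebraMap K (LaurentSeries k) c = HahnSeries.C (algebraMap K k c) := by
  rw [HahnSeries.algebraMap_apply']
  simp [PowerSeries.algebraMap_apply]

/-- The Euler derivation. -/
def euler (K k : Type) [Field K] [Field k] [Algebra K k] :
    Derivation K (LaurentSeries k) (LaurentSeries k) where
  toFun := eulerFun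
  map_add' f g := by
    ext n
    simp [mul_add]
  map_smul' c f := by
    rw [Algebra.smul_def, algebraMap_laurent_eq_C, HahnSeries.C_mul_eq_smul]
    ext n
    rw [RingHom.id_apply, eulerFun_coeff, HahnSeries.coeff_smul, HahnSeries.coeff_smul,
      eulerFun_coeff, smul_eq_mul, Algebra.smul_def]
    ring
  map_one_eq_zero' := by
    ext n
    change (eulerFun 1).coeff n = 0
    rw [eulerFun_coeff, HahnSeries.coeff_one]
    split_ifs with h
    · simp [h]
    · simp
  leibniz' f g := by
    change eulerFun (f * g) = f • eulerFun g + g • eulerFun f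
    rw [eulerFun_mul, smul_eq_mul, smul_eq_mul]

variable {K : Type} [Field K] [Algebra K k]

@[simp] theorem euler_coeff (f : LaurentSeries k) (n : ℤ) :
    (euler K k f).coeff n = (n : k) * f.coeff n := rfl

theorem order_euler [CharZero k] {f : LaurentSeries k} (hf : f.order ≠ 0) :
    (euler K k f).order = f.order := by
  have hf0 : f ≠ 0 := by
    rintro rfl
    simp at hf
  have hc : (euler K k f).coeff f.order ≠ 0 := by
    rw [euler_coeff]
    exact mul_ne_zero (Int.cast_ne_zero.mpr hf) (fun h => hf0 (HahnSeries.coeff_order_eq_zero.mp h))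
  apply le_antisymm
  · exact HahnSeries.order_le_of_coeff_ne_zero hc
  · have h0 : euler K k f ≠ 0 := by
      intro h
      rw [h] at hc
      simp at hc
    rw [HahnSeries.le_order_iff_forall h0]
    intro j hj
    rw [euler_coeff, HahnSeries.coeff_eq_zero_of_lt_order hj, mul_zero]

end Fermat.Agent.S24
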