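import Mathlib
import Fermat.Prelude.Thm_ModularCurve_coeffMap_qExpand
import Fermat.Agent.S24.EngineAlg
import Fermat.Agent.S24.Euler
import Fermat.Agent.S24.MerTri
import Fermat.Agent.S24.JqExp
import Fermat.Agent.S24.Cosets

set_option autoImplicit false
set_option synthInstance.maxHeartbeats 400000

/-! # S24 (M4): from analytic expansions to embeddings of the function field -/

namespace Fermat.Agent.S24

open UpperHalfPlane ModularForm Matrix.SpecialLinearGroup IntermediateField ModularCurve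
open scoped MatrixGroups ModularForm Manifold

theorem aeval_fun_apply {ι : Type} (g : ι → ℍ → ℂ) (P : MvPolynomial ι Kb) (z : ℍ) :
    (MvPolynomial.aeval g P) z = MvPolynomial.aeval (fun d => g d z) P :=
  MvPolynomial.comp_aeval_apply g (Pi.evalAlgHom Kb (fun _ : ℍ => ℂ) z) P

theorem algebraMap_Kb_fun (c : Kb) :
    algebraMap Kb (ℍ → ℂ) c = algebraMap ℂ (ℍ → ℂ) (iota c) := rfl

/-- an algebra homomorphism on a subalgebra of functions commutes with polynomial expressions. -/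
theorem exists_mem_aeval {ι : Type} (A : Subalgebra ℂ (ℍ → ℂ)) (E : A →ₐ[ℂ] LaurentSeries ℂ)
    (g : ι → ℍ → ℂ) (hA : ∀ d, g d ∈ A) (P : MvPolynomial ι Kb) :
    ∃ h : MvPolynomial.aeval g P ∈ A,
      E ⟨MvPolynomial.aeval g P, h⟩ = MvPolynomial.aeval (fun d => E ⟨g d, hA d⟩) P := by
  induction P using MvPolynomial.induction_on with
  | C c =>
    have h1 : MvPolynomial.aeval g (MvPolynomial.C c : MvPolynomial ι Kb) =
        algebraMap ℂ (ℍ → ℂ) (iota c) := by
      rw [MvPolynomial.aeval_C, algebraMap_Kb_fun]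
    have h2 : MvPolynomial.aeval g (MvPolynomial.C c : MvPolynomial ι Kb) ∈ A := by
      rw [h1]; exact A.algebraMap_mem _
    refine ⟨h2, ?_⟩
    have h3 : (⟨MvPolynomial.aeval g (MvPolynomial.C c : MvPolynomial ι Kb), h2⟩ : A) =
        algebraMap ℂ A (iota c) := Subtype.ext h1
    rw [h3, E.commutes, MvPolynomial.aeval_C, algebraMap_laurent_eq_C, algebraMap_laurent_eq_C]
    rfl
  | add p q hp hq =>
    obtain ⟨hp1, hp2⟩ := hp
    obtain ⟨hq1, hq2⟩ := hq
    have h2 : MvPolynomial.aeval g (p + q) ∈ A := by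
      rw [map_add]; exact A.add_mem hp1 hq1
    refine ⟨h2, ?_⟩
    have h3 : (⟨MvPolynomial.aeval g (p + q), h2⟩ : A) =
        ⟨MvPolynomial.aeval g p, hp1⟩ + ⟨MvPolynomial.aeval g q, hq1⟩ :=
      Subtype.ext (map_add _ p q)
    rw [h3, map_add, hp2, hq2, map_add]
  | mul_X p i hp =>
    obtain ⟨hp1, hp2⟩ := hp
    have h2 : MvPolynomial.aeval g (p * MvPolynomial.X i) ∈ A := by
      rw [map_mul, MvPolynomial.aeval_X]; exact A.mul_mem hp1 (hA i)
    refine ⟨h2, ?_⟩
    have h3 : (⟨MvPolynomial.aeval g (p * MvPolynomial.X i), h2⟩ : A) =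
        ⟨MvPolynomial.aeval g p, hp1⟩ * ⟨g i, hA i⟩ :=
      Subtype.ext (by
        change MvPolynomial.aeval g (p * MvPolynomial.X i) = MvPolynomial.aeval g p * g i
        rw [map_mul, MvPolynomial.aeval_X])
    rw [h3, map_mul, hp2, map_mul, MvPolynomial.aeval_X]

theorem coeffMap_injective {R S : Type*} [CommRing R] [CommRing S] (f : R →+* S)
    (hf : Function.Injective f) : Function.Injective (coeffMap f) := by
  intro x y hxy
  ext k
  apply hf
  have := congrArg (fun s : LaurentSeries S => s.coeff k) hxy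
  simpa using this

/-- the expansion of `j(d z)`. -/
theorem expInf_jdg_one (N : ℕ) [NeZero N] (d : Dv N) :
    expInf 1 ⟨jdg N d 1, jdg_one_mem_Mer_one N d⟩ =
      coeffMap iota ((Jd N d : FN N) : LaurentSeries Kb) := by
  have : NeZero d.1 := ⟨d.ne_zero⟩
  have h1 : (⟨jdg N d 1, jdg_one_mem_Mer_one N d⟩ : Mer 1) =
      ⟨_, comp_tri_mem_Mer 1 d.1 1 0 d.ne_zero one_ne_zero (one_dvd 1) ⟨jfun, jfun_mem_Mer⟩⟩ := by
    apply Subtype.ext
    funext z
    change jfun (S22.tri d.1 1 0 d.ne_zero one_ne_zero • ((1 : SL(2, ℤ)) • z)) = _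
    rw [one_smul]
  have h2 : coeffMap iota ((Jd N d : FN N) : LaurentSeries Kb) =
      qExpand ℂ d.1 (coeffEmb ℂ jq) := by
    rw [coe_Jd, coeffEmb, coeffMap_coeffMap, coeffMap_qExpand, coeffEmb]
    congr 1
    exact coeffMap_congr (Subsingleton.elim _ _) _
  rw [h1, h2]
  ext m
  by_cases hm : (d.1 : ℤ) ∣ m
  · obtain ⟨n, rfl⟩ := hm
    have h3 := expInf_comp_tri_coeff_mul 1 d.1 1 0 d.ne_zero one_ne_zero (one_dvd 1)
      ⟨jfun, jfun_mem_Mer⟩ n
    rw [expInf_jfun] at h3
    simp only [Nat.div_self, mul_one, Int.cast_zero, mul_zero, zero_div, Complex.exp_zero,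
      one_zpow, one_mul, Nat.lt_one_iff, pos_of_gt] at h3
    rw [qExpand_coeff_mul]
    exact h3
  · rw [qExpand_coeff_of_not_dvd _ _ hm]
    exact expInf_comp_tri_coeff_of_not_dvd 1 d.1 1 0 d.ne_zero one_ne_zero (one_dvd 1)
      ⟨jfun, jfun_mem_Mer⟩ m (by simpa using hm)

/-- the embedding of the function field into `ℂ((q))`. -/
noncomputable def thetaHom (N : ℕ) : FN N →ₐ[Kb] LaurentSeries ℂ where
  toRingHom := (coeffMap iota).comp (modularFunctionFieldBar N).val.toRingHom
  commutes' c := by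
    change coeffMap iota (algebraMap Kb (LaurentSeries Kb) c) = _
    rw [algebraMap_laurentSeries_eq_single, coeffMap_single, algebraMap_laurent_eq_C]
    rfl

theorem thetaHom_apply (N : ℕ) (y : FN N) :
    thetaHom N y = coeffMap iota (y : LaurentSeries Kb) := rfl

theorem expInf_aeval_one (N : ℕ) [NeZero N] (P : MvPolynomial (Dv N) Kb) :
    ∃ h : MvPolynomial.aeval (fun d => jdg N d 1) P ∈ Mer 1,
      expInf 1 ⟨MvPolynomial.aeval (fun d => jdg N d 1) P, h⟩ =
        thetaHom N (MvPolynomial.aeval (Jd N) P) := by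
  obtain ⟨h, hE⟩ := exists_mem_aeval (Mer 1) (expInf 1) (fun d => jdg N d 1)
    (jdg_one_mem_Mer_one N) P
  refine ⟨h, ?_⟩
  have h' : (fun d => expInf 1 ⟨jdg N d 1, jdg_one_mem_Mer_one N d⟩) =
      (fun d => thetaHom N (Jd N d)) := by
    funext d
    rw [expInf_jdg_one, thetaHom_apply]
  rw [hE, MvPolynomial.comp_aeval_apply (Jd N) (thetaHom N) P, h']

theorem aeval_jdg_apply (N : ℕ) [NeZero N] (γ : SL(2, ℤ)) (P : MvPolynomial (Dv N) Kb) (z : ℍ) :
    (MvPolynomial.aeval (fun d => jdg N d γ) P) z =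
      (MvPolynomial.aeval (fun d => jdg N d 1) P) (γ • z) := by
  have h : (fun d => jdg N d γ z) = (fun d => jdg N d 1 (γ • z)) := by
    funext d
    rw [← jdg_mul, one_mul]
  rw [aeval_fun_apply, aeval_fun_apply, h]

/-- formal relations = analytic relations -/
theorem aeval_Jd_eq_zero_iff (N : ℕ) [NeZero N] (γ : SL(2, ℤ)) (P : MvPolynomial (Dv N) Kb) :
    MvPolynomial.aeval (Jd N) P = 0 ↔ MvPolynomial.aeval (fun d => jdg N d γ) P = 0 := by
  obtain ⟨h, hE⟩ := expInf_aeval_one N P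
  have h1 : MvPolynomial.aeval (Jd N) P = 0 ↔ MvPolynomial.aeval (fun d => jdg N d 1) P = 0 := by
    rw [← map_eq_zero (thetaHom N), ← hE, map_eq_zero_iff _ (expInf_injective 1)]
    constructor
    · intro h0
      exact congrArg Subtype.val h0
    · intro h0
      exact Subtype.ext h0
  rw [h1]
  constructor
  · intro h0
    funext z
    rw [aeval_jdg_apply, h0]
    rfl
  · intro h0
    funext z
    have := aeval_jdg_apply N γ P (γ⁻¹ • z)
    rw [smul_inv_smul, h0] at this
    exact this.symm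

theorem exists_sigma (N : ℕ) [NeZero N] (γ : SL(2, ℤ)) (A : Subalgebra ℂ (ℍ → ℂ))
    (hA : ∀ d, jdg N d γ ∈ A) (E : A →ₐ[ℂ] LaurentSeries ℂ) (hE : Function.Injective E) :
    ∃ σ : FN N →ₐ[Kb] LaurentSeries ℂ, ∀ d, σ (Jd N d) = E ⟨jdg N d γ, hA d⟩ := by
  apply exists_algHom_of_ker (Jd N) (exists_aeval_div N)
  intro P
  obtain ⟨h, hP⟩ := exists_mem_aeval A E (fun d => jdg N d γ) hA P
  rw [aeval_Jd_eq_zero_iff N γ P, ← hP, map_eq_zero_iff _ hE]
  constructor
  · intro h0
    exact Subtype.ext h0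
  · intro h0
    exact congrArg Subtype.val h0

end Fermat.Agent.S24
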