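import Mathlib

set_option autoImplicit false

/-! # S24 (M8c): a bound for the degree of a function field extension -/

namespace Fermat.Agent.S24

open IntermediateField

theorem finrank_le_of_monic {K F ι : Type} [Field K] [CharZero K] [Field F] [Algebra K F]
    [Finite ι] (x : F) (g : ι → F) (hgen : IntermediateField.adjoin K (Set.range g) = ⊤) (μ : ℕ)
    (h : ∀ P : MvPolynomial ι K, ∃ χ : Polynomial (Polynomial K), χ.Monic ∧ χ.natDegree = μ ∧
      Polynomial.eval₂ (Polynomial.aeval x).toRingHom (MvPolynomial.aeval g P) χ = 0) :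
    FiniteDimensional K⟮x⟯ F ∧ Module.finrank K⟮x⟯ F ≤ μ := by
  classical
  let φ : Polynomial K →+* K⟮x⟯ := (Polynomial.aeval (AdjoinSimple.gen K x)).toRingHom
  have hφ : (algebraMap K⟮x⟯ F).comp φ = (Polynomial.aeval x).toRingHom := by
    apply Polynomial.ringHom_ext
    · intro a
      simp only [φ, RingHom.comp_apply, AlgHom.toRingHom_eq_coe, RingHom.coe_coe,
        Polynomial.aeval_C]
      rfl
    · simp only [φ, RingHom.comp_apply, AlgHom.toRingHom_eq_coe, RingHom.coe_coe,
        Polynomial.aeval_X]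
      rfl
  have hint : ∀ P : MvPolynomial ι K, IsIntegral K⟮x⟯ (MvPolynomial.aeval g P) ∧
      (minpoly K⟮x⟯ (MvPolynomial.aeval g P)).natDegree ≤ μ := by
    intro P
    obtain ⟨χ, hm, hd, he⟩ := h P
    have hroot : Polynomial.aeval (MvPolynomial.aeval g P) (χ.map φ) = 0 := by
      rw [Polynomial.aeval_def, Polynomial.eval₂_map, hφ]; exact he
    have hmon : (χ.map φ).Monic := hm.map φ
    refine ⟨⟨χ.map φ, hmon, hroot⟩, ?_⟩
    calc _ ≤ (χ.map φ).natDegree :=
          Polynomial.natDegree_le_of_dvd (minpoly.dvd K⟮x⟯ _ hroot) hmon.ne_zero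
      _ = μ := by rw [hm.natDegree_map, hd]
  have hgi : ∀ i, IsIntegral K⟮x⟯ (g i) := fun i => by
    simpa using (hint (MvPolynomial.X i)).1
  have htop : IntermediateField.adjoin K⟮x⟯ (Set.range g) = ⊤ := by
    have h1 : IntermediateField.adjoin K (Set.range g) ≤
        (IntermediateField.adjoin K⟮x⟯ (Set.range g)).restrictScalars K :=
      IntermediateField.adjoin_le_iff.mpr (IntermediateField.subset_adjoin K⟮x⟯ _)
    rw [hgen] at h1
    rw [eq_top_iff]
    intro y _
    exact h1 (IntermediateField.mem_top (F := K) (E := F) (x := y))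
  have hfd : FiniteDimensional K⟮x⟯ F := by
    have h1 : FiniteDimensional K⟮x⟯ (IntermediateField.adjoin K⟮x⟯ (Set.range g)) :=
      IntermediateField.finiteDimensional_adjoin (by rintro _ ⟨i, rfl⟩; exact hgi i)
    rw [htop] at h1
    exact (IntermediateField.topEquiv (F := K⟮x⟯) (E := F)).toLinearEquiv.finiteDimensional
  refine ⟨hfd, ?_⟩
  have hchar : CharZero K⟮x⟯ := charZero_of_injective_algebraMap (algebraMap K K⟮x⟯).injective
  let Ω := AlgebraicClosure F
  have hA : ∀ y : F, ((minpoly K⟮x⟯ y).map (algebraMap K⟮x⟯ Ω)).Splits :=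
    fun y => IsAlgClosed.splits _
  -- the bad subspaces
  let V : {p : (F →ₐ[K⟮x⟯] Ω) × (F →ₐ[K⟮x⟯] Ω) // p.1 ≠ p.2} → Subspace K (MvPolynomial ι K) :=
    fun p => LinearMap.ker
      (((p.1.1.restrictScalars K).toLinearMap - (p.1.2.restrictScalars K).toLinearMap).comp
        (MvPolynomial.aeval g : MvPolynomial ι K →ₐ[K] F).toLinearMap)
  have hV : ∀ p, V p ≠ ⊤ := by
    rintro ⟨⟨σ, τ⟩, hne⟩ htopV
    apply hne
    have hg : ∀ i, σ (g i) = τ (g i) := by
      intro i
      have : MvPolynomial.X i ∈ V ⟨⟨σ, τ⟩, hne⟩ := by rw [htopV]; trivial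
      simp only [V, LinearMap.mem_ker, LinearMap.comp_apply, LinearMap.sub_apply,
        AlgHom.toLinearMap_apply, MvPolynomial.aeval_X, AlgHom.restrictScalars_apply] at this
      exact sub_eq_zero.mp this
    ext y
    have hy : y ∈ IntermediateField.adjoin K⟮x⟯ (Set.range g) := by rw [htop]; trivial
    induction hy using IntermediateField.adjoin_induction with
    | mem y hy =>
      obtain ⟨i, rfl⟩ := hy
      exact hg i
    | algebraMap a => rw [σ.commutes, τ.commutes]
    | add a b _ _ ha hb => rw [map_add, map_add, ha, hb]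
    | inv a _ ha => rw [map_inv₀, map_inv₀, ha]
    | mul a b _ _ ha hb => rw [map_mul, map_mul, ha, hb]
  have hne : (⋃ p, (V p : Set (MvPolynomial ι K))) ≠ Set.univ := by
    intro hcov
    obtain ⟨p, hp⟩ := Subspace.exists_eq_top_of_iUnion_eq_univ hcov
    exact hV p hp
  obtain ⟨P, hP⟩ := (Set.ne_univ_iff_exists_notMem _).mp hne
  rw [Set.mem_iUnion, not_exists] at hP
  have hinj : Function.Injective fun ψ : F →ₐ[K⟮x⟯] Ω => ψ (MvPolynomial.aeval g P) := by
    intro σ τ hστ
    by_contra hne'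
    apply hP ⟨⟨σ, τ⟩, hne'⟩
    simp only [V, SetLike.mem_coe, LinearMap.mem_ker, LinearMap.comp_apply, LinearMap.sub_apply,
      AlgHom.toLinearMap_apply, AlgHom.restrictScalars_apply]
    exact sub_eq_zero.mpr hστ
  have hprim := (Field.primitive_element_iff_algHom_eq_of_eval' K⟮x⟯ Ω hA _).mpr hinj
  rw [Field.primitive_element_iff_minpoly_natDegree_eq] at hprim
  rw [← hprim]
  exact (hint P).2

end Fermat.Agent.S24
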