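import Mathlib
import Fermat.Agent.S24.Mer
import Fermat.Agent.S24.Cosets
import Fermat.Agent.S24.Engine
import Fermat.Agent.S24.LevelOne
import Fermat.Agent.S24.FinrankLe
import Fermat.Agent.S20.LamDefs

set_option autoImplicit false
set_option linter.style.haveILetI false

namespace Fermat.Agent.S24

open UpperHalfPlane ModularForm EisensteinSeries Matrix.SpecialLinearGroup AlgebraicCurve
open IntermediateField
open scoped MatrixGroups ModularForm Manifold
open Fermat.Agent.S20 (Quo sl rho)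

/-! # S24 M8b: every element of the ring generated by the `j(d z)` satisfies a monic equation of
degree `[SL₂(ℤ) : Γ₀(N)]` over `ℚ̄[j]`. -/

namespace Intg

/-- functions in `Mer N` whose expansion has coefficients in `ℚ̄`. -/
def RatMer (N : ℕ) [NeZero N] : Subalgebra Kb (ℍ → ℂ) where
  carrier := {s | ∃ hs : s ∈ Mer N, ∃ S : LaurentSeries Kb,
    expInf N ⟨s, hs⟩ = ModularCurve.coeffMap iota S}
  mul_mem' := by
    rintro a b ⟨ha, A, hA⟩ ⟨hb, B, hB⟩
    refine ⟨mul_mem ha hb, A * B, ?_⟩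
    rw [map_mul, ← hA, ← hB, ← map_mul]
    rfl
  add_mem' := by
    rintro a b ⟨ha, A, hA⟩ ⟨hb, B, hB⟩
    refine ⟨add_mem ha hb, A + B, ?_⟩
    rw [map_add, ← hA, ← hB, ← map_add]
    rfl
  algebraMap_mem' := by
    intro c
    refine ⟨(Mer N).algebraMap_mem (iota c), HahnSeries.single 0 c, ?_⟩
    rw [ModularCurve.coeffMap_single, ← ModularCurve.algebraMap_laurentSeries_eq_single,
      ← (expInf N).commutes]
    rfl

/-- the conjugates of `P(j(d z))`. -/
noncomputable def gP (N : ℕ) [NeZero N] (P : MvPolynomial (Dv N) Kb) (γ : SL(2, ℤ)) : ℍ → ℂ :=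
  MvPolynomial.aeval (fun d => jdg N d γ) P

theorem gP_apply (N : ℕ) [NeZero N] (P : MvPolynomial (Dv N) Kb) (γ : SL(2, ℤ)) (z : ℍ) :
    gP N P γ z = MvPolynomial.aeval (fun d => jdg N d γ z) P :=
  MvPolynomial.comp_aeval_apply (fun d => jdg N d γ) (Pi.evalAlgHom Kb (fun _ : ℍ => ℂ) z) P

theorem gP_mem (N : ℕ) [NeZero N] (P : MvPolynomial (Dv N) Kb) (γ : SL(2, ℤ)) :
    gP N P γ ∈ RatMer N := by
  have h := (RatMer N).mvPolynomial_aeval_coe
    (fun d => (⟨jdg N d γ, jdg_mem_Mer N d γ, expInf_jdg_rational N d γ⟩ : RatMer N)) P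
  unfold gP
  rw [h]
  exact SetLike.coe_mem _

theorem gP_mul (N : ℕ) [NeZero N] (P : MvPolynomial (Dv N) Kb) (γ γ' : SL(2, ℤ)) (z : ℍ) :
    gP N P (γ * γ') z = gP N P γ (γ' • z) := by
  rw [gP_apply, gP_apply]
  simp only [jdg_mul]

theorem gP_Gamma0_mul (N : ℕ) [NeZero N] (P : MvPolynomial (Dv N) Kb) (δ γ : SL(2, ℤ))
    (hδ : δ ∈ CongruenceSubgroup.Gamma0 N) : gP N P (δ * γ) = gP N P γ := by
  unfold gP
  simp only [jdg_Gamma0_mul N _ δ γ hδ]

/-- the conjugates indexed by the coset space. -/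
noncomputable def GP (N : ℕ) [NeZero N] (P : MvPolynomial (Dv N) Kb) (q : Quo N) : ℍ → ℂ :=
  gP N P (S20.exists_mk q).choose⁻¹

theorem GP_mk (N : ℕ) [NeZero N] (P : MvPolynomial (Dv N) Kb) (γ : SL(2, ℤ)) :
    GP N P (QuotientGroup.mk (sl γ) : Quo N) = gP N P γ⁻¹ := by
  unfold GP
  set δ := (S20.exists_mk (QuotientGroup.mk (sl γ) : Quo N)).choose with hδ
  have h1 : (QuotientGroup.mk (sl γ) : Quo N) = QuotientGroup.mk (sl δ) :=
    (S20.exists_mk (QuotientGroup.mk (sl γ) : Quo N)).choose_spec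
  rw [S20.mk_eq_mk_iff] at h1
  have h2 : δ⁻¹ = (γ⁻¹ * δ)⁻¹ * γ⁻¹ := by group
  rw [h2, gP_Gamma0_mul N P _ _ (inv_mem h1)]

theorem GP_mem (N : ℕ) [NeZero N] (P : MvPolynomial (Dv N) Kb) (q : Quo N) :
    GP N P q ∈ RatMer N := gP_mem N P _

theorem GP_smul (N : ℕ) [NeZero N] (P : MvPolynomial (Dv N) Kb) (q : Quo N) (γ : SL(2, ℤ))
    (z : ℍ) : GP N P q (γ • z) = GP N P (sl γ⁻¹ • q) z := by
  obtain ⟨δ, rfl⟩ := S20.exists_mk q
  rw [S20.sl_smul_mk, GP_mk, GP_mk, ← gP_mul]
  congr 1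
  group

open Polynomial in
/-- the characteristic polynomial of `P(j(d z))` over the level one functions. -/
noncomputable def chiAn (N : ℕ) [NeZero N] (P : MvPolynomial (Dv N) Kb) : Polynomial (ℍ → ℂ) :=
  ∏ q : Quo N, (X - C (GP N P q))

open Polynomial in
theorem chiAn_coeff_mem (N : ℕ) [NeZero N] (P : MvPolynomial (Dv N) Kb) (i : ℕ) :
    (chiAn N P).coeff i ∈ RatMer N := by
  have h : chiAn N P = (∏ q : Quo N, (X - C (⟨GP N P q, GP_mem N P q⟩ : RatMer N))).map
      (RatMer N).val.toRingHom := by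
    rw [Polynomial.map_prod]
    unfold chiAn
    refine Finset.prod_congr rfl fun q _ => ?_
    simp
  rw [h, Polynomial.coeff_map]
  exact SetLike.coe_mem _

theorem chiAn_monic (N : ℕ) [NeZero N] (P : MvPolynomial (Dv N) Kb) : (chiAn N P).Monic :=
  Polynomial.monic_prod_of_monic _ _ fun _ _ => Polynomial.monic_X_sub_C _

theorem chiAn_natDegree (N : ℕ) [NeZero N] (P : MvPolynomial (Dv N) Kb) :
    (chiAn N P).natDegree = Nat.card (Quo N) := by
  unfold chiAn
  rw [Polynomial.natDegree_prod_of_monic _ _ fun q _ => Polynomial.monic_X_sub_C _]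
  simp

/-- precomposition with `γ`. -/
noncomputable def compHom (γ : SL(2, ℤ)) : (ℍ → ℂ) →+* (ℍ → ℂ) :=
  RingHom.pi fun z => Pi.evalRingHom (fun _ : ℍ => ℂ) (γ • z)

theorem compHom_apply (γ : SL(2, ℤ)) (f : ℍ → ℂ) (z : ℍ) : compHom γ f z = f (γ • z) := rfl

theorem chiAn_map (N : ℕ) [NeZero N] (P : MvPolynomial (Dv N) Kb) (γ : SL(2, ℤ)) :
    (chiAn N P).map (compHom γ) = chiAn N P := by
  unfold chiAn
  rw [Polynomial.map_prod]
  have h : ∀ q : Quo N, (Polynomial.X - Polynomial.C (GP N P q)).map (compHom γ) =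
      Polynomial.X - Polynomial.C (GP N P (sl γ⁻¹ • q)) := by
    intro q
    have h1 : compHom γ (GP N P q) = GP N P (sl γ⁻¹ • q) := by
      funext z
      rw [compHom_apply, GP_smul]
    rw [Polynomial.map_sub, Polynomial.map_X, Polynomial.map_C, h1]
  rw [Finset.prod_congr rfl fun q _ => h q]
  exact Equiv.prod_comp (MulAction.toPerm (sl γ⁻¹ : 𝒮ℒ) : Equiv.Perm (Quo N))
    (fun q => Polynomial.X - Polynomial.C (GP N P q))

theorem chiAn_coeff_smul (N : ℕ) [NeZero N] (P : MvPolynomial (Dv N) Kb) (i : ℕ) (γ : SL(2, ℤ))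
    (z : ℍ) : (chiAn N P).coeff i (γ • z) = (chiAn N P).coeff i z := by
  conv_rhs => rw [← chiAn_map N P γ, Polynomial.coeff_map]
  rfl

theorem exists_coeff_poly (N : ℕ) [NeZero N] (P : MvPolynomial (Dv N) Kb) (i : ℕ) :
    ∃ p : Polynomial Kb, ∀ z, (chiAn N P).coeff i z = Polynomial.aeval (jfun z) p := by
  obtain ⟨hs, S, hS⟩ := chiAn_coeff_mem N P i
  exact levelOne_polynomial N _ hs (chiAn_coeff_smul N P i) S hS

theorem chiAn_eval (N : ℕ) [NeZero N] (P : MvPolynomial (Dv N) Kb) :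
    (chiAn N P).eval (gP N P 1) = 0 := by
  unfold chiAn
  rw [Polynomial.eval_prod]
  refine Finset.prod_eq_zero (Finset.mem_univ (QuotientGroup.mk (sl 1) : Quo N)) ?_
  rw [GP_mk]
  simp

theorem aeval_eval₂_transport {ι B : Type} [CommRing B] [Algebra Kb B] (f : ι → B) (i₀ : ι)
    (χ : Polynomial (Polynomial Kb)) (P : MvPolynomial ι Kb) :
    MvPolynomial.aeval f
      (χ.eval₂ (Polynomial.aeval (MvPolynomial.X i₀ : MvPolynomial ι Kb)).toRingHom P) =
    χ.eval₂ (Polynomial.aeval (f i₀)).toRingHom (MvPolynomial.aeval f P) := by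
  have h1 : ((MvPolynomial.aeval f : MvPolynomial ι Kb →ₐ[Kb] B).comp
      (Polynomial.aeval (MvPolynomial.X i₀ : MvPolynomial ι Kb))) = Polynomial.aeval (f i₀) := by
    apply Polynomial.algHom_ext
    simp
  have h2 := Polynomial.hom_eval₂ χ
    (Polynomial.aeval (MvPolynomial.X i₀ : MvPolynomial ι Kb)).toRingHom
    (MvPolynomial.aeval f : MvPolynomial ι Kb →ₐ[Kb] B).toRingHom P
  rw [← h1]
  exact h2

theorem aeval_jfun_apply (p : Polynomial Kb) (z : ℍ) :
    (Polynomial.aeval jfun p : ℍ → ℂ) z = Polynomial.aeval (jfun z) p :=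
  (Polynomial.aeval_algHom_apply (Pi.evalAlgHom Kb (fun _ : ℍ => ℂ) z) jfun p).symm

end Intg

open Intg

theorem exists_monic_relation (N : ℕ) [NeZero N] (P : MvPolynomial (Dv N) Kb) :
    ∃ χ : Polynomial (Polynomial Kb), χ.Monic ∧ χ.natDegree = Nat.card (Quo N) ∧
      Polynomial.eval₂ (Polynomial.aeval (jF N)).toRingHom (MvPolynomial.aeval (Jd N) P) χ = 0 := by
  classical
  set μ := Nat.card (Quo N) with hμ
  choose p hp using exists_coeff_poly N P
  let c : ℕ → Polynomial Kb := fun i => if i = μ then 1 else p i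
  let χ : Polynomial (Polynomial Kb) := ∑ i ∈ Finset.range (μ + 1), Polynomial.monomial i (c i)
  have hcoeff : ∀ i, χ.coeff i = if i < μ + 1 then c i else 0 := by
    intro i
    simp only [χ, Polynomial.finsetSum_coeff, Polynomial.coeff_monomial]
    rw [Finset.sum_ite_eq' (Finset.range (μ + 1)) i]
    simp
  have hle : χ.natDegree ≤ μ := by
    rw [Polynomial.natDegree_le_iff_coeff_eq_zero]
    intro i hi
    rw [hcoeff, if_neg (by omega)]
  have hμ1 : χ.coeff μ = 1 := by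
    rw [hcoeff, if_pos (by omega)]
    simp [c]
  have hmonic : χ.Monic := Polynomial.monic_of_natDegree_le_of_coeff_eq_one μ hle hμ1
  have hnat : χ.natDegree = μ :=
    Polynomial.natDegree_eq_of_le_of_coeff_ne_zero hle (by rw [hμ1]; exact one_ne_zero)
  refine ⟨χ, hmonic, hnat, ?_⟩
  have hmap : χ.map (Polynomial.aeval jfun : Polynomial Kb →ₐ[Kb] (ℍ → ℂ)).toRingHom
      = chiAn N P := by
    ext i : 1
    rw [Polynomial.coeff_map, hcoeff]
    rcases lt_trichotomy i μ with hi | hi | hi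
    · rw [if_pos (by omega)]
      simp only [c, if_neg hi.ne]
      funext z
      rw [hp i z]
      exact aeval_jfun_apply (p i) z
    · subst hi
      rw [if_pos (by omega)]
      simp only [c, if_true]
      rw [map_one]
      have := (chiAn_monic N P).coeff_natDegree
      rw [chiAn_natDegree] at this
      exact this.symm
    · rw [if_neg (by omega), map_zero]
      symm
      apply Polynomial.coeff_eq_zero_of_natDegree_lt
      rw [chiAn_natDegree]
      exact hi
  have key := aeval_eval₂_transport (Jd N) ⟨1, one_dvd N⟩ χ P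
  have key' := aeval_eval₂_transport (fun d => jdg N d 1) ⟨1, one_dvd N⟩ χ P
  show Polynomial.eval₂ (Polynomial.aeval (Jd N ⟨1, one_dvd N⟩)).toRingHom
    (MvPolynomial.aeval (Jd N) P) χ = 0
  rw [← key, aeval_Jd_eq_zero_iff N 1, key']
  simp only [jdg_one_dv]
  rw [Polynomial.eval₂_eq_eval_map, hmap]
  exact chiAn_eval N P

theorem finrank_FN_le (N : ℕ) [NeZero N] :
    FiniteDimensional Kb⟮jF N⟯ (FN N) ∧ Module.finrank Kb⟮jF N⟯ (FN N) ≤ Nat.card (Quo N) := by
  haveI : Finite (Dv N) :=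
    (Set.Finite.subset (Set.finite_Iic N) (fun d (hd : d ∣ N) =>
      Nat.le_of_dvd (Nat.pos_of_ne_zero (NeZero.ne N)) hd)).to_subtype
  exact finrank_le_of_monic (jF N) (Jd N) (adjoin_range_Jd N) _ (exists_monic_relation N)

end Fermat.Agent.S24
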