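import Mathlib
import Fermat.Agent.S24.ModDefs

set_option autoImplicit false

/-! # S24 M6: Taylor expansion of holomorphic functions on `ℍ` in the disc coordinate -/

namespace Fermat.Agent.S24

open UpperHalfPlane ModularForm Matrix.SpecialLinearGroup
open scoped MatrixGroups ModularForm Manifold Topology

/-- holomorphic functions on `ℍ` -/
def Hol : Subalgebra ℂ (ℍ → ℂ) where
  carrier := {f | MDiff f}
  mul_mem' := fun hf hg => MDifferentiable.mul hf hg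
  add_mem' := fun hf hg => MDifferentiable.add hf hg
  algebraMap_mem' := fun _ => mdifferentiable_const

theorem mem_Hol {f : ℍ → ℂ} : f ∈ Hol ↔ MDiff f := Iff.rfl

/-- `f` read in the disc coordinate. -/
noncomputable def tayFun (τ₀ : ℍ) (f : ℍ → ℂ) (u : ℂ) : ℂ := f (ofComplex (cay τ₀ u))

lemma cay_zero (τ₀ : ℍ) : cay τ₀ 0 = τ₀ := by simp [cay]

lemma analyticAt_cay (τ₀ : ℍ) : AnalyticAt ℂ (cay τ₀) 0 := by
  unfold cay
  refine AnalyticAt.div ?_ ?_ (by simp)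
  · exact analyticAt_const.sub (analyticAt_const.mul analyticAt_id)
  · exact analyticAt_const.sub analyticAt_id

lemma analyticAt_comp_ofComplex {f : ℍ → ℂ} (hf : MDiff f) (τ : ℍ) :
    AnalyticAt ℂ (f ∘ ofComplex) τ :=
  (UpperHalfPlane.mdifferentiable_iff.mp hf).analyticAt (isOpen_upperHalfPlaneSet.mem_nhds τ.im_pos)

lemma analyticAt_tayFun (τ₀ : ℍ) {f : ℍ → ℂ} (hf : MDiff f) : AnalyticAt ℂ (tayFun τ₀ f) 0 := by
  have h1 : AnalyticAt ℂ (f ∘ ofComplex) (cay τ₀ 0) := by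
    rw [cay_zero]; exact analyticAt_comp_ofComplex hf τ₀
  exact h1.comp (analyticAt_cay τ₀)

/-- Taylor expansion at `τ₀` in the disc coordinate `u`, `z = cay τ₀ u` -/
noncomputable def tayAt (τ₀ : ℍ) : Hol →ₐ[ℂ] PowerSeries ℂ where
  toFun f := PowerSeries.mk fun n => (n.factorial : ℂ)⁻¹ * iteratedDeriv n (tayFun τ₀ f.1) 0
  map_one' := by
    ext n
    have : tayFun τ₀ (1 : Hol).1 = fun _ => (1 : ℂ) := rfl
    rw [PowerSeries.coeff_mk, this, iteratedDeriv_const, PowerSeries.coeff_one]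
    split_ifs with h <;> simp [h]
  map_mul' f g := by
    ext n
    have : tayFun τ₀ (f * g).1 = tayFun τ₀ f.1 * tayFun τ₀ g.1 := rfl
    simp only [PowerSeries.coeff_mk, this,
      iteratedDeriv_mul (analyticAt_tayFun τ₀ f.2).contDiffAt (analyticAt_tayFun τ₀ g.2).contDiffAt,
      Finset.mul_sum, PowerSeries.coeff_mul,
      Finset.Nat.sum_antidiagonal_eq_sum_range_succ_mk, Nat.succ_eq_add_one]
    refine Finset.sum_congr rfl fun i hi ↦ ?_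
    rw [Nat.cast_choose _ (by grind)]
    field_simp [Nat.factorial_ne_zero]
  map_zero' := by
    ext n
    have : tayFun τ₀ (0 : Hol).1 = fun _ => (0 : ℂ) := rfl
    rw [PowerSeries.coeff_mk, this, iteratedDeriv_const]
    simp
  map_add' f g := by
    ext n
    have : tayFun τ₀ (f + g).1 = tayFun τ₀ f.1 + tayFun τ₀ g.1 := rfl
    simp only [PowerSeries.coeff_mk, this, map_add,
      iteratedDeriv_add (analyticAt_tayFun τ₀ f.2).contDiffAt (analyticAt_tayFun τ₀ g.2).contDiffAt,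
      mul_add]
  commutes' c := by
    ext n
    have : tayFun τ₀ (algebraMap ℂ Hol c).1 = fun _ => c := rfl
    rw [PowerSeries.coeff_mk, this, iteratedDeriv_const, PowerSeries.algebraMap_apply,
      Algebra.algebraMap_self, RingHom.id_apply, PowerSeries.coeff_C]
    split_ifs with h <;> simp [h]

theorem tayAt_coeff (τ₀ : ℍ) (f : Hol) (n : ℕ) : (tayAt τ₀ f).coeff n =
    (n.factorial : ℂ)⁻¹ * iteratedDeriv n (fun u => f.1 (ofComplex (cay τ₀ u))) 0 := by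
  change (PowerSeries.mk fun n => (n.factorial : ℂ)⁻¹ * iteratedDeriv n (tayFun τ₀ f.1) 0).coeff n = _
  rw [PowerSeries.coeff_mk]
  rfl

theorem tayAt_coeff_zero (τ₀ : ℍ) (f : Hol) : (tayAt τ₀ f).coeff 0 = f.1 τ₀ := by
  rw [tayAt_coeff]
  simp [cay_zero]

lemma hasDerivAt_cay (τ₀ : ℍ) :
    HasDerivAt (cay τ₀) ((τ₀ : ℂ) - (starRingEnd ℂ) (τ₀ : ℂ)) 0 := by
  have h1 : HasDerivAt (fun u : ℂ => (τ₀ : ℂ) - (starRingEnd ℂ) (τ₀ : ℂ) * u)
      (-((starRingEnd ℂ) (τ₀ : ℂ))) 0 := by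
    simpa using ((hasDerivAt_id (0 : ℂ)).const_mul ((starRingEnd ℂ) (τ₀ : ℂ))).const_sub (τ₀ : ℂ)
  have h2 : HasDerivAt (fun u : ℂ => 1 - u) (-1) 0 := by
    simpa using (hasDerivAt_id (0 : ℂ)).const_sub (1 : ℂ)
  have h3 := h1.div h2 (by simp)
  have e : ((τ₀ : ℂ) - (starRingEnd ℂ) (τ₀ : ℂ)) = (-(starRingEnd ℂ) (τ₀ : ℂ) * (1 - 0) -
      ((τ₀ : ℂ) - (starRingEnd ℂ) (τ₀ : ℂ) * 0) * -1) / (1 - 0) ^ 2 := by
    ring
  rw [e]
  exact h3

theorem tayAt_coeff_one (τ₀ : ℍ) (f : Hol) : (tayAt τ₀ f).coeff 1 =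
    ((τ₀ : ℂ) - (starRingEnd ℂ) (τ₀ : ℂ)) * deriv (f.1 ∘ ofComplex) τ₀ := by
  rw [tayAt_coeff]
  simp only [Nat.factorial_one, Nat.cast_one, inv_one, one_mul, iteratedDeriv_one]
  have h1 : HasDerivAt (f.1 ∘ ofComplex) (deriv (f.1 ∘ ofComplex) τ₀) (cay τ₀ 0) := by
    rw [cay_zero]
    exact (analyticAt_comp_ofComplex f.2 τ₀).differentiableAt.hasDerivAt
  have h2 := h1.comp 0 (hasDerivAt_cay τ₀)
  rw [mul_comm]
  exact h2.deriv

/-- the inverse of `cay`. -/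
noncomputable def cayInv (τ₀ : ℍ) (w : ℂ) : ℂ :=
  (w - (τ₀ : ℂ)) / (w - (starRingEnd ℂ) (τ₀ : ℂ))

lemma sub_conj_ne_zero (τ₀ : ℍ) : (τ₀ : ℂ) - (starRingEnd ℂ) (τ₀ : ℂ) ≠ 0 := by
  intro h
  have := congrArg Complex.im h
  simp only [Complex.sub_im, Complex.conj_im, Complex.zero_im, coe_im] at this
  have := τ₀.im_pos
  linarith

lemma coe_sub_conj_ne_zero (τ₀ z : ℍ) : (z : ℂ) - (starRingEnd ℂ) (τ₀ : ℂ) ≠ 0 := by
  intro h
  have := congrArg Complex.im h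
  simp only [Complex.sub_im, Complex.conj_im, Complex.zero_im, coe_im] at this
  have := τ₀.im_pos
  have := z.im_pos
  linarith

lemma cay_cayInv (τ₀ : ℍ) {w : ℂ} (hw : w - (starRingEnd ℂ) (τ₀ : ℂ) ≠ 0) :
    cay τ₀ (cayInv τ₀ w) = w := by
  have h0 := sub_conj_ne_zero τ₀
  have h1 : 1 - cayInv τ₀ w = ((τ₀ : ℂ) - (starRingEnd ℂ) (τ₀ : ℂ)) / (w - (starRingEnd ℂ) (τ₀ : ℂ)) := by
    unfold cayInv; field_simp; ring
  unfold cay
  rw [h1]
  unfold cayInv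
  field_simp
  ring

lemma cayInv_cay (τ₀ : ℍ) {u : ℂ} (hu : 1 - u ≠ 0) : cayInv τ₀ (cay τ₀ u) = u := by
  have h0 := sub_conj_ne_zero τ₀
  have h1 : cay τ₀ u - (starRingEnd ℂ) (τ₀ : ℂ) = ((τ₀ : ℂ) - (starRingEnd ℂ) (τ₀ : ℂ)) / (1 - u) := by
    unfold cay; field_simp; ring
  have h2 : cay τ₀ u - (τ₀ : ℂ) = u * ((τ₀ : ℂ) - (starRingEnd ℂ) (τ₀ : ℂ)) / (1 - u) := by
    unfold cay; field_simp; ring
  unfold cayInv
  rw [h1, h2]
  field_simp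

lemma cayInv_self (τ₀ : ℍ) : cayInv τ₀ τ₀ = 0 := by simp [cayInv]

lemma continuousAt_cayInv (τ₀ : ℍ) : ContinuousAt (cayInv τ₀) τ₀ := by
  unfold cayInv
  exact (continuousAt_id.sub continuousAt_const).div (continuousAt_id.sub continuousAt_const)
    (sub_conj_ne_zero τ₀)

lemma eventually_im_cay_pos (τ₀ : ℍ) : ∀ᶠ u in 𝓝 (0 : ℂ), 0 < (cay τ₀ u).im := by
  have h1 : ContinuousAt (cay τ₀) 0 := (analyticAt_cay τ₀).continuousAt
  have h2 : {z : ℂ | 0 < z.im} ∈ 𝓝 (cay τ₀ 0) := by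
    rw [cay_zero]; exact isOpen_upperHalfPlaneSet.mem_nhds τ₀.im_pos
  exact h1.eventually h2

theorem tayAt_injective (τ₀ : ℍ) : Function.Injective (tayAt τ₀) := by
  rw [injective_iff_map_eq_zero]
  intro f hf
  have han := analyticAt_tayFun τ₀ f.2
  have hder : ∀ n, iteratedDeriv n (tayFun τ₀ f.1) 0 = 0 := by
    intro n
    have := congrArg (PowerSeries.coeff n) hf
    rw [tayAt_coeff, map_zero] at this
    rcases mul_eq_zero.mp this with h | h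
    · exact absurd h (inv_ne_zero (Nat.cast_ne_zero.mpr n.factorial_ne_zero))
    · exact h
  have hps := han.hasFPowerSeriesAt
  have hz : FormalMultilinearSeries.ofScalars ℂ
      (fun n => iteratedDeriv n (tayFun τ₀ f.1) 0 / (n.factorial : ℂ)) = 0 := by
    have : (fun n => iteratedDeriv n (tayFun τ₀ f.1) 0 / (n.factorial : ℂ)) = 0 := by
      funext n; simp [hder n]
    rw [this]
    exact FormalMultilinearSeries.ofScalars_series_eq_zero_of_scalar_zero ℂ ℂ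
  rw [hz] at hps
  have h0 : ∀ᶠ u in 𝓝 (0 : ℂ), tayFun τ₀ f.1 u = 0 := hps.eventually_eq_zero
  -- transport to a neighbourhood of `τ₀`
  have h1 : ∀ᶠ z in 𝓝 (τ₀ : ℂ), tayFun τ₀ f.1 (cayInv τ₀ z) = 0 := by
    have hc := continuousAt_cayInv τ₀
    rw [ContinuousAt, cayInv_self] at hc
    exact hc.eventually h0
  have h2 : ∀ᶠ z in 𝓝 (τ₀ : ℂ), z - (starRingEnd ℂ) (τ₀ : ℂ) ≠ 0 :=
    (continuousAt_id.sub continuousAt_const).eventually_ne (sub_conj_ne_zero τ₀)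
  have h3 : (f.1 ∘ ofComplex) =ᶠ[𝓝 (τ₀ : ℂ)] 0 := by
    filter_upwards [h1, h2] with z hz1 hz2
    rw [tayFun, cay_cayInv τ₀ hz2] at hz1
    exact hz1
  have hanal : AnalyticOnNhd ℂ (f.1 ∘ ofComplex) {z : ℂ | 0 < z.im} :=
    (UpperHalfPlane.mdifferentiable_iff.mp f.2).analyticOnNhd isOpen_upperHalfPlaneSet
  have hpre : IsPreconnected {z : ℂ | 0 < z.im} := (convex_halfSpace_im_gt 0).isPreconnected
  have h4 := hanal.eqOn_zero_of_preconnected_of_eventuallyEq_zero hpre τ₀.im_pos h3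
  apply Subtype.ext
  funext z
  have := h4 z.im_pos
  simpa using this

theorem comp_smul_mem_Hol (f : Hol) (g : SL(2, ℤ)) : (fun z : ℍ => f.1 (g • z)) ∈ Hol := by
  have hg : 0 < ((g : GL (Fin 2) ℝ)).det.val := by simp
  exact f.2.comp (mdifferentiable_smul hg)

lemma iteratedDeriv_comp_mul_of_analyticAt {G : ℂ → ℂ} (hG : AnalyticAt ℂ G 0) (c : ℂ)
    (hc : ‖c‖ ≤ 1) (n : ℕ) :
    iteratedDeriv n (fun u => G (c * u)) 0 = c ^ n * iteratedDeriv n G 0 := by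
  obtain ⟨r, hr, hball⟩ := hG.exists_ball_analyticOnNhd
  have hopen : IsOpen (Metric.ball (0 : ℂ) r) := Metric.isOpen_ball
  have h0 : (0 : ℂ) ∈ Metric.ball (0 : ℂ) r := Metric.mem_ball_self hr
  have hmaps : Set.MapsTo (c * ·) (Metric.ball (0 : ℂ) r) (Metric.ball (0 : ℂ) r) := by
    intro u hu
    rw [mem_ball_zero_iff] at hu ⊢
    calc ‖c * u‖ = ‖c‖ * ‖u‖ := norm_mul _ _
      _ ≤ 1 * ‖u‖ := by gcongr
      _ < r := by rwa [one_mul]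
  have h := iteratedDerivWithin_comp_const_smul (n := n) h0 hopen.uniqueDiffOn
    (hball.contDiffOn (n := n) hopen.uniqueDiffOn) c hmaps
  rw [iteratedDerivWithin_of_isOpen hopen h0, mul_zero, iteratedDerivWithin_of_isOpen hopen h0,
    smul_eq_mul] at h
  exact h

section rot

variable (τ₀ : ℍ) (g : SL(2, ℤ))

lemma denom_mul_conj_eq_one (hg : g • τ₀ = τ₀) :
    denom g τ₀ * (starRingEnd ℂ) (denom g τ₀) = 1 := by
  have h := ModularGroup.im_smul_eq_div_normSq g τ₀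
  rw [hg] at h
  have hpos := τ₀.im_pos
  have hn : Complex.normSq (denom g τ₀) ≠ 0 := normSq_denom_ne_zero g τ₀.im_pos.ne'
  have h1 : Complex.normSq (denom g τ₀) = 1 := by
    field_simp at h
    exact h
  rw [Complex.mul_conj, h1]; simp

lemma norm_denom_zpow (hg : g • τ₀ = τ₀) : ‖(denom g τ₀) ^ (-2 : ℤ)‖ = 1 := by
  have h := denom_mul_conj_eq_one τ₀ g hg
  have h1 : ‖denom g τ₀‖ * ‖denom g τ₀‖ = 1 := by
    have := congrArg norm h
    rwa [norm_mul, Complex.norm_conj, norm_one] at this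
  have h2 : ‖denom g τ₀‖ = 1 := by
    have h3 : 0 ≤ ‖denom g τ₀‖ := norm_nonneg _
    nlinarith
  rw [norm_zpow, h2, one_zpow]

lemma cayInv_smul (hg : g • τ₀ = τ₀) (z : ℍ) :
    cayInv τ₀ ((g • z : ℍ) : ℂ) = (denom g τ₀) ^ (-2 : ℤ) * cayInv τ₀ z := by
  have hDD := denom_mul_conj_eq_one τ₀ g hg
  have hD0 : denom g τ₀ ≠ 0 := denom_ne_zero g τ₀
  have hz0 : denom g z ≠ 0 := denom_ne_zero g z
  have hdet : ((g 0 0 : ℤ) : ℂ) * (g 1 1 : ℤ) - ((g 0 1 : ℤ) : ℂ) * (g 1 0 : ℤ) = 1 := by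
    have := g.det_coe
    rw [Matrix.det_fin_two] at this
    exact_mod_cast congrArg (Int.cast : ℤ → ℂ) this
  have hgz : ((g • z : ℍ) : ℂ) = (((g 0 0 : ℤ) : ℂ) * z + ((g 0 1 : ℤ) : ℂ)) / denom g z := by
    rw [coe_specialLinearGroup_apply, ModularGroup.denom_apply]
    simp
  have hgτ : (τ₀ : ℂ) * denom g τ₀ = ((g 0 0 : ℤ) : ℂ) * τ₀ + ((g 0 1 : ℤ) : ℂ) := by
    have h1 : ((g • τ₀ : ℍ) : ℂ) = (((g 0 0 : ℤ) : ℂ) * τ₀ + ((g 0 1 : ℤ) : ℂ)) / denom g τ₀ := by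
      rw [coe_specialLinearGroup_apply, ModularGroup.denom_apply]
      simp
    rw [hg] at h1
    field_simp at h1
    rw [h1]; ring
  have hDz : denom g z = ((g 1 0 : ℤ) : ℂ) * z + ((g 1 1 : ℤ) : ℂ) := ModularGroup.denom_apply g z
  have hDτ : denom g τ₀ = ((g 1 0 : ℤ) : ℂ) * τ₀ + ((g 1 1 : ℤ) : ℂ) := ModularGroup.denom_apply g τ₀
  have hDc : (starRingEnd ℂ) (denom g τ₀) =
      ((g 1 0 : ℤ) : ℂ) * (starRingEnd ℂ) (τ₀ : ℂ) + ((g 1 1 : ℤ) : ℂ) := by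
    rw [hDτ]; simp
  have hgτc : (starRingEnd ℂ) (τ₀ : ℂ) * (starRingEnd ℂ) (denom g τ₀) =
      ((g 0 0 : ℤ) : ℂ) * (starRingEnd ℂ) (τ₀ : ℂ) + ((g 0 1 : ℤ) : ℂ) := by
    have := congrArg (starRingEnd ℂ) hgτ
    simpa using this
  set D := denom g τ₀ with hD
  set Dc := (starRingEnd ℂ) D with hDcdef
  set τc := (starRingEnd ℂ) (τ₀ : ℂ) with hτc
  have I1 : (((g • z : ℍ) : ℂ) - τ₀) * (denom g z * D) = (z : ℂ) - τ₀ := by
    rw [hgz]
    field_simp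
    rw [hDz]
    linear_combination ((z : ℂ) - τ₀) * hdet - (((g 1 0 : ℤ) : ℂ) * z + ((g 1 1 : ℤ) : ℂ)) * hgτ
      + (((g 0 0 : ℤ) : ℂ) * z + ((g 0 1 : ℤ) : ℂ)) * hDτ
  have I2 : (((g • z : ℍ) : ℂ) - τc) * (denom g z * Dc) = (z : ℂ) - τc := by
    rw [hgz]
    field_simp
    rw [hDz]
    linear_combination ((z : ℂ) - τc) * hdet - (((g 1 0 : ℤ) : ℂ) * z + ((g 1 1 : ℤ) : ℂ)) * hgτc
      + (((g 0 0 : ℤ) : ℂ) * z + ((g 0 1 : ℤ) : ℂ)) * hDc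
  have hne1 : ((g • z : ℍ) : ℂ) - τc ≠ 0 := coe_sub_conj_ne_zero τ₀ (g • z)
  have hne2 : (z : ℂ) - τc ≠ 0 := coe_sub_conj_ne_zero τ₀ z
  have hDc0 : Dc ≠ 0 := right_ne_zero_of_mul_eq_one hDD
  unfold cayInv
  rw [← hτc, ← I1, ← I2, zpow_neg, div_eq_iff hne1]
  have : (D ^ (2 : ℤ)) = D ^ 2 := by norm_cast
  rw [this]
  field_simp
  linear_combination (((g • z : ℍ) : ℂ) - τ₀) * hDD

lemma tayFun_comp_smul_eventuallyEq (hg : g • τ₀ = τ₀) (f : ℍ → ℂ) :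
    tayFun τ₀ (fun z => f (g • z)) =ᶠ[𝓝 (0 : ℂ)]
      fun u => tayFun τ₀ f ((denom g τ₀) ^ (-2 : ℤ) * u) := by
  have h1 : ∀ᶠ u in 𝓝 (0 : ℂ), 1 - u ≠ 0 :=
    (continuousAt_const.sub continuousAt_id).eventually_ne (by simp)
  filter_upwards [eventually_im_cay_pos τ₀, h1] with u hu hu1
  have e1 : ofComplex (cay τ₀ u) = ⟨cay τ₀ u, hu⟩ := ofComplex_apply_of_im_pos hu
  have e2 : cay τ₀ ((denom g τ₀) ^ (-2 : ℤ) * u) = ((g • (⟨cay τ₀ u, hu⟩ : ℍ) : ℍ) : ℂ) := by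
    have h2 := cayInv_smul τ₀ g hg ⟨cay τ₀ u, hu⟩
    have h3 : cayInv τ₀ ((⟨cay τ₀ u, hu⟩ : ℍ) : ℂ) = u := cayInv_cay τ₀ hu1
    rw [h3] at h2
    rw [← h2, cay_cayInv τ₀ (coe_sub_conj_ne_zero τ₀ _)]
  simp only [tayFun]
  rw [e1, e2, ofComplex_apply]

end rot

/-- an elliptic element fixing `τ₀` acts by the rotation `u ↦ (denom g τ₀)⁻² u` -/
theorem tayAt_comp_smul_coeff (τ₀ : ℍ) (g : SL(2, ℤ)) (hg : g • τ₀ = τ₀) (f : Hol) (n : ℕ) :
    (tayAt τ₀ ⟨_, comp_smul_mem_Hol f g⟩).coeff n =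
      ((denom g τ₀) ^ (-2 : ℤ)) ^ n * (tayAt τ₀ f).coeff n := by
  rw [tayAt_coeff, tayAt_coeff]
  have h1 := (tayFun_comp_smul_eventuallyEq τ₀ g hg f.1).iteratedDeriv_eq n
  have h2 := iteratedDeriv_comp_mul_of_analyticAt (analyticAt_tayFun τ₀ f.2)
    ((denom g τ₀) ^ (-2 : ℤ)) (norm_denom_zpow τ₀ g hg).le n
  have h3 : iteratedDeriv n (fun u => f.1 (g • ofComplex (cay τ₀ u))) 0 =
      ((denom g τ₀) ^ (-2 : ℤ)) ^ n * iteratedDeriv n (tayFun τ₀ f.1) 0 := by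
    rw [← h2, ← h1]; rfl
  rw [h3]
  change _ = _ * (_ * iteratedDeriv n (tayFun τ₀ f.1) 0)
  ring

end Fermat.Agent.S24
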