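import Mathlib
import Fermat.Agent.S24.Ramanujan
import Fermat.Agent.S24.Tay

set_option autoImplicit false
set_option maxHeartbeats 400000

/-! # S24 (M7): the orders of `j - a` -/

namespace Fermat.Agent.S24

open UpperHalfPlane ModularForm EisensteinSeries Matrix.SpecialLinearGroup Filter
open scoped MatrixGroups ModularForm Manifold Topology
open Fermat.Agent.S20

local notation "Δ" => (ModularForm.discriminant : ℍ → ℂ)
local notation "D" => Derivative.normalizedDerivOfComplex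

theorem jfun_eq : jfun = (⇑E₄ * ⇑E₄ * ⇑E₄) / Δ := by
  funext z
  simp only [jfun, Pi.div_apply, Pi.mul_apply]
  ring

theorem jfun_mdiff : MDiff jfun := by
  rw [jfun_eq]
  exact (((Ls_mdiff E4_mem).mul (Ls_mdiff E4_mem)).mul (Ls_mdiff E4_mem)).div
    (Ls_mdiff disc_mem) discriminant_ne_zero

theorem jfun_mul_disc (z : ℍ) : jfun z * Δ z = E₄ z ^ 3 := by
  rw [jfun, div_mul_cancel₀ _ (discriminant_ne_zero z)]

theorem exists_jfun_eq (a : ℂ) : ∃ τ : ℍ, jfun τ = a := by
  obtain ⟨τ, hτ⟩ := exists_cube_sub_eq_zero a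
  refine ⟨τ, ?_⟩
  simp only [Pi.sub_apply, Pi.mul_apply, Pi.smul_apply, smul_eq_mul] at hτ
  rw [jfun, div_eq_iff (discriminant_ne_zero τ)]
  linear_combination hτ

theorem jfun_I : jfun I = 1728 := by
  rw [jfun, div_eq_iff (discriminant_ne_zero I)]
  have := disc_eq_apply I
  rw [E6_I] at this
  linear_combination -this

theorem jfun_rho : jfun rho = 0 := by
  rw [jfun, E4_rho]
  simp

theorem jfun_sub_mem_Hol (a : ℂ) : (fun z => jfun z - a) ∈ Hol :=
  mem_Hol.mpr (jfun_mdiff.sub mdifferentiable_const)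

theorem order_tayAt_eq_zero (τ₀ : ℍ) (g : Hol) (h : g.1 τ₀ ≠ 0) : (tayAt τ₀ g).order = 0 := by
  rw [PowerSeries.order_zero_of_unit]
  rw [PowerSeries.isUnit_iff_constantCoeff, ← PowerSeries.coeff_zero_eq_constantCoeff_apply,
    tayAt_coeff_zero]
  exact isUnit_iff_ne_zero.mpr h

theorem order_tayAt_eq_one (τ₀ : ℍ) (g : Hol) (h0 : g.1 τ₀ = 0) (h1 : D g.1 τ₀ ≠ 0) :
    (tayAt τ₀ g).order = 1 := by
  have : (tayAt τ₀ g).order = ((1 : ℕ) : ℕ∞) := by
    rw [PowerSeries.order_eq_nat]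
    constructor
    · rw [tayAt_coeff_one]
      apply mul_ne_zero
      · intro h
        have h2 := congrArg Complex.im h
        simp only [Complex.sub_im, Complex.conj_im, Complex.zero_im] at h2
        have := τ₀.im_pos
        have h3 : (τ₀ : ℂ).im = τ₀.im := rfl
        rw [h3] at h2
        linarith
      · intro h
        apply h1
        rw [Derivative.normalizedDerivOfComplex, h, mul_zero]
    · intro i hi
      have : i = 0 := by omega
      subst this
      rw [tayAt_coeff_zero, h0]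
  simpa using this

/-- `Δ` as an element of `Hol`. -/
noncomputable def holDisc : Hol := ⟨Δ, mem_Hol.mpr (Ls_mdiff disc_mem)⟩
/-- `E₄` as an element of `Hol`. -/
noncomputable def holE4 : Hol := ⟨⇑E₄, mem_Hol.mpr (Ls_mdiff E4_mem)⟩
/-- `E₆` as an element of `Hol`. -/
noncomputable def holE6 : Hol := ⟨⇑E₆, mem_Hol.mpr (Ls_mdiff E6_mem)⟩

theorem order_tayAt_holDisc (τ₀ : ℍ) : (tayAt τ₀ holDisc).order = 0 :=
  order_tayAt_eq_zero τ₀ holDisc (discriminant_ne_zero τ₀)

theorem order_tayAt_generic (τ₀ : ℍ) (h0 : jfun τ₀ ≠ 0) (h1 : jfun τ₀ ≠ 1728) :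
    (tayAt τ₀ ⟨_, jfun_sub_mem_Hol (jfun τ₀)⟩).order = 1 := by
  set a := jfun τ₀ with ha
  have h4 : E₄ τ₀ ≠ 0 := by
    intro h
    apply h0
    rw [ha, jfun, h]
    simp
  have h6 : E₆ τ₀ ≠ 0 := by
    intro h
    apply h1
    rw [ha, jfun, div_eq_iff (discriminant_ne_zero τ₀)]
    have := disc_eq_apply τ₀
    rw [h] at this
    linear_combination -this
  let g : Hol := ⟨⇑E₄ * ⇑E₄ * ⇑E₄ - a • Δ, mem_Hol.mpr (Ls_mdiff (cube_sub_mem a))⟩
  have hprod : (⟨_, jfun_sub_mem_Hol a⟩ : Hol) * holDisc = g := by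
    apply Subtype.ext
    funext z
    show (jfun z - a) * Δ z = E₄ z * E₄ z * E₄ z - a * Δ z
    rw [sub_mul, jfun_mul_disc]
    ring
  have hz : g.1 τ₀ = 0 := by
    show E₄ τ₀ * E₄ τ₀ * E₄ τ₀ - a * Δ τ₀ = 0
    rw [ha, jfun_mul_disc]
    ring
  have hg := order_tayAt_eq_one τ₀ g hz (D_cube_sub_ne a hz h4 h6)
  rw [← hprod, map_mul, PowerSeries.order_mul, order_tayAt_holDisc, add_zero] at hg
  exact hg

theorem order_tayAt_I : (tayAt I ⟨_, jfun_sub_mem_Hol 1728⟩).order = 2 := by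
  have hprod : (⟨_, jfun_sub_mem_Hol 1728⟩ : Hol) * holDisc = holE6 * holE6 := by
    apply Subtype.ext
    funext z
    show (jfun z - 1728) * Δ z = E₆ z * E₆ z
    rw [sub_mul, jfun_mul_disc]
    linear_combination -disc_eq_apply z
  have h6 := order_tayAt_eq_one I holE6 E6_I D_E6_I_ne
  have := congrArg (fun x => (tayAt I x).order) hprod
  simp only [map_mul, PowerSeries.order_mul, order_tayAt_holDisc, add_zero, h6] at this
  rw [this]
  rfl

theorem order_tayAt_rho : (tayAt rho ⟨_, jfun_sub_mem_Hol 0⟩).order = 3 := by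
  have hprod : (⟨_, jfun_sub_mem_Hol 0⟩ : Hol) * holDisc = holE4 * holE4 * holE4 := by
    apply Subtype.ext
    funext z
    show (jfun z - 0) * Δ z = E₄ z * E₄ z * E₄ z
    rw [sub_zero, jfun_mul_disc]
    ring
  have h4 := order_tayAt_eq_one rho holE4 E4_rho D_E4_rho_ne
  have := congrArg (fun x => (tayAt rho x).order) hprod
  simp only [map_mul, PowerSeries.order_mul, order_tayAt_holDisc, add_zero, h4] at this
  rw [this]
  rfl

end Fermat.Agent.S24
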