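import Mathlib
import Fermat.Agent.S24.Defs

set_option autoImplicit false

/-! # S24 (A0): basic API of `AlgebraicCurve.Place.ord` -/

namespace Fermat.Agent.S24

open AlgebraicCurve IntermediateField KaehlerDifferential

variable {K F : Type} [Field K] [Field F] [Algebra K F]

theorem adicValuation_eq_exp (v : Place K F) {f : F} (hf : f ≠ 0) :
    v.adicValuation f = WithZero.exp (-(v.ord f)) := by
  rw [Place.ord, neg_neg, WithZero.exp_log (v.adicValuation_ne_zero hf)]

theorem adicValuation_le_iff (v : Place K F) {f g : F} (hf : f ≠ 0) (hg : g ≠ 0) :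
    v.adicValuation f ≤ v.adicValuation g ↔ v.ord g ≤ v.ord f := by
  rw [adicValuation_eq_exp v hf, adicValuation_eq_exp v hg, WithZero.exp_le_exp]
  omega

theorem mem_valuationSubring_iff (v : Place K F) (f : F) :
    f ∈ v.toValuationSubring ↔ f = 0 ∨ 0 ≤ v.ord f := by
  by_cases hf : f = 0
  · simp [hf, v.toValuationSubring.zero_mem]
  simp only [hf, false_or]
  obtain ⟨π, hπ⟩ := IsDiscreteValuationRing.exists_irreducible v.toValuationSubring
  constructor
  · intro h
    have h1 : v.adicValuation f ≤ 1 := by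
      have := v.adicValuation_coe ⟨f, h⟩
      rw [show ((⟨f, h⟩ : v.toValuationSubring) : F) = f from rfl] at this
      rw [this]
      exact IsDedekindDomain.HeightOneSpectrum.intValuation_le_one _ _
    have h2 := (adicValuation_le_iff v hf one_ne_zero).mp (by rwa [map_one])
    rwa [v.ord_one] at h2
  · intro h
    obtain ⟨u, hu⟩ := v.exists_unit_mul_zpow hf hπ
    rw [hu]
    obtain ⟨n, hn⟩ := Int.eq_ofNat_of_zero_le h
    rw [hn, zpow_natCast]
    exact v.toValuationSubring.mul_mem _ _ (u : v.toValuationSubring).2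
      (v.toValuationSubring.pow_mem π.2 n)

theorem ord_algebraMap (v : Place K F) (a : K) : v.ord (algebraMap K F a) = 0 := by
  by_cases ha : a = 0
  · simp [ha]
  have h1 : algebraMap K F a ≠ 0 := by simpa using ha
  have h2 := (mem_valuationSubring_iff v _).mp (v.algebraMap_mem' a)
  have h3 := (mem_valuationSubring_iff v _).mp (v.algebraMap_mem' a⁻¹)
  rw [map_inv₀, v.ord_inv] at h3
  have h2' := h2.resolve_left h1
  have h3' := h3.resolve_left (inv_ne_zero h1)
  omega

theorem ord_add_ge (v : Place K F) {f g : F} (hfg : f + g ≠ 0) :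
    min (v.ord f) (v.ord g) ≤ v.ord (f + g) := by
  by_cases hf : f = 0
  · simp [hf]
  by_cases hg : g = 0
  · simp [hg]
  have h1 := v.adicValuation.map_add f g
  rcases le_max_iff.mp h1 with h | h
  · exact (min_le_left _ _).trans ((adicValuation_le_iff v hfg hf).mp h)
  · exact (min_le_right _ _).trans ((adicValuation_le_iff v hfg hg).mp h)

theorem ord_neg (v : Place K F) (f : F) : v.ord (-f) = v.ord f := by
  simp [Place.ord, Valuation.map_neg]

theorem ord_add_eq_of_lt (v : Place K F) {f g : F} (hf : f ≠ 0) (h : v.ord f < v.ord g) :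
    v.ord (f + g) = v.ord f := by
  by_cases hg : g = 0
  · simp [hg]
  have hlt : v.adicValuation g < v.adicValuation f := by
    rw [← not_le, adicValuation_le_iff v hf hg]
    omega
  have := v.adicValuation.map_add_eq_of_lt_left hlt
  simp only [Place.ord, this]

theorem ord_pow (v : Place K F) (f : F) (n : ℕ) : v.ord (f ^ n) = n * v.ord f := by
  have := v.ord_zpow f n
  rwa [zpow_natCast] at this

theorem exists_ord_eq_one (v : Place K F) : ∃ π : F, v.ord π = 1 := by
  obtain ⟨π, hπ⟩ := IsDiscreteValuationRing.exists_irreducible v.toValuationSubring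
  exact ⟨π, v.ord_coe_irreducible hπ⟩

/-- the (private) uniformizer used by the prelude -/
theorem exists_dCoord_eq (v : Place K F) : ∃ π : F, v.ord π = 1 ∧ v.dCoord = D K F π := by
  refine ⟨_, ?_, rfl⟩
  show v.ord ((IsDiscreteValuationRing.exists_irreducible v.toValuationSubring).choose : F) = 1
  exact v.ord_coe_irreducible
    (IsDiscreteValuationRing.exists_irreducible v.toValuationSubring).choose_spec

theorem place_ext_of_ord {v v' : Place K F} (c c' : ℕ) (hc : 0 < c) (hc' : 0 < c')
    (h : ∀ f : F, f ≠ 0 → (c : ℤ) * v.ord f = c' * v'.ord f) : v = v' := by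
  apply Place.ext
  ext f
  rw [mem_valuationSubring_iff, mem_valuationSubring_iff]
  by_cases hf : f = 0
  · simp [hf]
  simp only [hf, false_or]
  have h1 := h f hf
  have hc1 : (0 : ℤ) < c := by exact_mod_cast hc
  have hc2 : (0 : ℤ) < c' := by exact_mod_cast hc'
  constructor
  · intro h0
    have : 0 ≤ (c' : ℤ) * v'.ord f := by rw [← h1]; positivity
    exact nonneg_of_mul_nonneg_right this hc2
  · intro h0
    have : 0 ≤ (c : ℤ) * v.ord f := by rw [h1]; positivity
    exact nonneg_of_mul_nonneg_right this hc1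

theorem adjoin_sub_algebraMap (x : F) (a : K) : K⟮x - algebraMap K F a⟯ = K⟮x⟯ := by
  apply le_antisymm
  · rw [adjoin_simple_le_iff]
    exact sub_mem (mem_adjoin_simple_self K x) (IntermediateField.algebraMap_mem _ a)
  · rw [adjoin_simple_le_iff]
    have h1 : (x - algebraMap K F a) + algebraMap K F a ∈ K⟮x - algebraMap K F a⟯ :=
      add_mem (mem_adjoin_simple_self K _) (IntermediateField.algebraMap_mem _ a)
    rwa [sub_add_cancel] at h1

theorem adjoin_inv' (x : F) : K⟮x⁻¹⟯ = K⟮x⟯ := by
  apply le_antisymm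
  · rw [adjoin_simple_le_iff]
    exact inv_mem (mem_adjoin_simple_self K x)
  · rw [adjoin_simple_le_iff]
    have h1 : (x⁻¹)⁻¹ ∈ K⟮x⁻¹⟯ := inv_mem (mem_adjoin_simple_self K _)
    rwa [inv_inv] at h1

end Fermat.Agent.S24
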