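import Mathlib
import Fermat.Agent.S24.PlaceBasic
import Fermat.Prelude.Def_AlgebraicCurve_IsCurveOver

set_option autoImplicit false

/-! # S24 (A1'): the centre of a place, residue degree one -/

namespace Fermat.Agent.S24

open AlgebraicCurve IntermediateField

variable {K F : Type} [Field K] [Field F] [Algebra K F]

section
variable [IsAlgClosed K]

/-- if all `x - a` are units at `v` then all nonzero polynomials in `x` are units at `v`. -/
theorem ord_aeval_eq_zero (x : F) (v : Place K F)
    (h : ∀ a : K, v.ord (x - algebraMap K F a) = 0) (hx : Transcendental K x) :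
    ∀ (n : ℕ) (r : Polynomial K), r ≠ 0 → r.natDegree = n → v.ord (Polynomial.aeval x r) = 0 := by
  intro n
  induction n with
  | zero =>
    intro r _ hn
    rw [Polynomial.eq_C_of_natDegree_eq_zero hn, Polynomial.aeval_C]
    exact ord_algebraMap v _
  | succ n ih =>
    intro r hr hn
    have hdeg : r.degree ≠ 0 := by
      intro h0
      have h00 : r.natDegree = 0 := Polynomial.natDegree_eq_of_degree_eq_some h0
      omega
    obtain ⟨a, ha⟩ := IsAlgClosed.exists_root r hdeg
    obtain ⟨q, hq⟩ := Polynomial.dvd_iff_isRoot.mpr ha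
    have hq0 : q ≠ 0 := by
      rintro rfl
      simp at hq
      exact hr hq
    have hqn : q.natDegree = n := by
      have := congrArg Polynomial.natDegree hq
      rw [Polynomial.natDegree_mul (Polynomial.X_sub_C_ne_zero a) hq0,
        Polynomial.natDegree_X_sub_C] at this
      omega
    have h1 : Polynomial.aeval x r = (x - algebraMap K F a) * Polynomial.aeval x q := by
      rw [hq, map_mul]
      simp
    have h2 : x - algebraMap K F a ≠ 0 := by
      intro h0
      apply hx
      rw [sub_eq_zero.mp h0]
      exact isAlgebraic_algebraMap a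
    have h3 : Polynomial.aeval x q ≠ 0 := fun h0 => hq0 ((transcendental_iff.mp hx) q h0)
    rw [h1, v.ord_mul h2 h3, h a, ih q hq0 hqn, add_zero]

theorem exists_center (x : F) (hx : Transcendental K x) [FiniteDimensional K⟮x⟯ F]
    (v : Place K F) :
    v ∈ zeroSet K x⁻¹ ∨ ∃ a : K, v ∈ zeroSet K (x - algebraMap K F a) := by
  by_contra hcon
  rw [not_or, not_exists] at hcon
  obtain ⟨h1, h2⟩ := hcon
  have hx0 : x ≠ 0 := by
    rintro rfl
    exact hx isAlgebraic_zero
  have hordx : 0 ≤ v.ord x := by
    have : ¬ (0 < v.ord x⁻¹) := h1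
    rw [v.ord_inv] at this
    omega
  have hne : ∀ a : K, x - algebraMap K F a ≠ 0 := by
    intro a h0
    apply hx
    rw [sub_eq_zero.mp h0]
    exact isAlgebraic_algebraMap a
  have hz : ∀ a : K, v.ord (x - algebraMap K F a) = 0 := by
    intro a
    have h3 : ¬ (0 < v.ord (x - algebraMap K F a)) := h2 a
    have h4 := ord_add_ge v (f := x) (g := -algebraMap K F a) (by rw [← sub_eq_add_neg]; exact hne a)
    rw [ord_neg, ord_algebraMap, ← sub_eq_add_neg] at h4
    have h5 : 0 ≤ min (v.ord x) 0 := le_min hordx le_rfl
    omega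
  have hpoly : ∀ r : Polynomial K, r ≠ 0 → v.ord (Polynomial.aeval x r) = 0 :=
    fun r hr => ord_aeval_eq_zero x v hz hx _ r hr rfl
  -- `K(x)` is contained in the valuation ring
  have hsub : ∀ y ∈ K⟮x⟯, y ∈ v.toValuationSubring := by
    intro y hy
    obtain ⟨r, s, rfl⟩ := (mem_adjoin_simple_iff K y).mp hy
    rw [mem_valuationSubring_iff]
    by_cases hr : r = 0
    · left; simp [hr]
    by_cases hs : s = 0
    · left; simp [hs]
    right
    have hr' : Polynomial.aeval x r ≠ 0 := fun h0 => hr ((transcendental_iff.mp hx) r h0)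
    have hs' : Polynomial.aeval x s ≠ 0 := fun h0 => hs ((transcendental_iff.mp hx) s h0)
    rw [div_eq_mul_inv, v.ord_mul hr' (inv_ne_zero hs'), v.ord_inv, hpoly r hr, hpoly s hs]
    simp
  apply v.ne_top'
  rw [eq_top_iff]
  intro f _
  have hint : IsIntegral K⟮x⟯ f := Algebra.IsIntegral.isIntegral f
  obtain ⟨P, hP, hPf⟩ := hint
  let φ : K⟮x⟯ →+* v.toValuationSubring :=
    { toFun := fun y => ⟨y.1, hsub y.1 y.2⟩
      map_one' := rfl
      map_mul' := fun _ _ => rfl
      map_zero' := rfl
      map_add' := fun _ _ => rfl }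
  have hint' : IsIntegral v.toValuationSubring f := by
    refine ⟨P.map φ, hP.map φ, ?_⟩
    rw [Polynomial.eval₂_map]
    exact hPf
  obtain ⟨y, hy⟩ := (IsIntegrallyClosed.isIntegral_iff (R := v.toValuationSubring) (K := F)).mp hint'
  rw [← hy]
  exact y.2

end

open scoped algebraAdjoinAdjoin in
theorem isAlgebraic_adjoin_of_transcendental (x g : F) [FiniteDimensional K⟮x⟯ F]
    (hg : Transcendental K g) : Algebra.IsAlgebraic K⟮g⟯ F := by
  have h1 : Algebra.IsAlgebraic (Algebra.adjoin K {x}) F := by
    have : Algebra.IsAlgebraic K⟮x⟯ F := inferInstance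
    exact (IsFractionRing.comap_isAlgebraic_iff (A := Algebra.adjoin K {x}) (K := K⟮x⟯) (C := F)).mpr this
  have h2 : Algebra.trdeg K F ≤ 1 := by
    have := Algebra.IsAlgebraic.trdeg_le_cardinalMk K ({x} : Set F)
    simpa using this
  have h3 : AlgebraicIndependent K (fun _ : Unit => g) :=
    algebraicIndependent_unique_type_iff.mpr hg
  have h4 : IsTranscendenceBasis K (fun _ : Unit => g) :=
    h3.isTranscendenceBasis_of_trdeg_le_of_finite (by simpa using h2)
  have h5 := h4.isAlgebraic_field
  have h6 : Set.range (fun _ : Unit => g) = {g} := by simp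
  rwa [h6] at h5

theorem finiteDimensional_adjoin_of_transcendental (x g : F) (_hx : Transcendental K x)
    [FiniteDimensional K⟮x⟯ F] (hg : Transcendental K g) : FiniteDimensional K⟮g⟯ F := by
  have h1 : Algebra.IsAlgebraic K⟮g⟯ F := isAlgebraic_adjoin_of_transcendental x g hg
  have h2 : Algebra.EssFiniteType K K⟮x⟯ :=
    essFiniteType_iff.mpr (fg_adjoin_of_finite (Set.finite_singleton x))
  have h3 : Algebra.EssFiniteType K F := Algebra.EssFiniteType.comp K K⟮x⟯ F
  have h4 : Algebra.EssFiniteType K⟮g⟯ F := Algebra.EssFiniteType.of_comp K K⟮g⟯ F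
  exact Algebra.finite_of_essFiniteType_of_isAlgebraic

theorem exists_algebraMap_eq_of_isAlgebraic [IsAlgClosed K] {t : F} (ht : IsAlgebraic K t) :
    ∃ a : K, algebraMap K F a = t := by
  have hint : IsIntegral K t := ht.isIntegral
  have h1 := IsAlgClosed.degree_eq_one_of_irreducible K (minpoly.irreducible hint)
  exact minpoly.mem_range_of_degree_eq_one K t h1

theorem deg_eq_one [IsAlgClosed K] (x : F) (hx : Transcendental K x) [FiniteDimensional K⟮x⟯ F]
    (v : Place K F) : v.deg = 1 := by
  have hsurj : Function.Surjective (algebraMap K v.ResidueField) := by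
    intro t
    obtain ⟨t, rfl⟩ := IsLocalRing.residue_surjective t
    by_cases ht : IsAlgebraic K (t : F)
    · obtain ⟨a, ha⟩ := exists_algebraMap_eq_of_isAlgebraic ht
      refine ⟨a, ?_⟩
      have : algebraMap K v.toValuationSubring a = t := Subtype.ext ha
      rw [← this]
      rfl
    · have hfd := finiteDimensional_adjoin_of_transcendental x (t : F) hx ht
      rcases exists_center (t : F) ht v with h | ⟨a, ha⟩
      · exfalso
        have h1 : 0 < v.ord (t : F)⁻¹ := h
        rw [v.ord_inv] at h1
        have h2 := (mem_valuationSubring_iff v (t : F)).mp t.2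
        rcases h2 with h2 | h2
        · rw [h2] at h1; simp at h1
        · omega
      · refine ⟨a, ?_⟩
        have h1 : 0 < v.ord ((t : F) - algebraMap K F a) := ha
        have h2 : t - algebraMap K v.toValuationSubring a ∈
            IsLocalRing.maximalIdeal v.toValuationSubring := by
          rw [IsLocalRing.mem_maximalIdeal, mem_nonunits_iff]
          intro hu
          have h3 := v.ord_coe_unit hu.unit
          rw [IsUnit.unit_spec] at h3
          have h4 : ((t - algebraMap K v.toValuationSubring a : v.toValuationSubring) : F) =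
              (t : F) - algebraMap K F a := rfl
          rw [h4] at h3
          omega
        have h5 := (IsLocalRing.residue_eq_zero_iff _).mpr h2
        rw [map_sub, sub_eq_zero] at h5
        rw [h5]
        rfl
  have hbij : Function.Bijective (algebraMap K v.ResidueField) :=
    ⟨(algebraMap K v.ResidueField).injective, hsurj⟩
  show Module.finrank K v.ResidueField = 1
  rw [← Module.finrank_self K]
  exact ((AlgEquiv.ofBijective (Algebra.ofId K v.ResidueField) hbij).toLinearEquiv.finrank_eq).symm

end Fermat.Agent.S24
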