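import Mathlib
import Fermat.Agent.S24.PlaceBasic

set_option autoImplicit false
set_option linter.style.haveILetI false
set_option linter.deprecated false

namespace Fermat.Agent.S24

open AlgebraicCurve IntermediateField IsDedekindDomain WithZero

section Dict

variable {K F : Type} [Field K] [Field F] [Algebra K F]

theorem ord_eq_of_valuation (v : Place K F) (ν : Valuation F ℤᵐ⁰)
    (h : ν.valuationSubring = v.toValuationSubring) (π : F) (hπ : ν π = WithZero.exp (-1 : ℤ))
    (f : F) : v.ord f = - WithZero.log (ν f) := by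
  rcases eq_or_ne f 0 with rfl | hf
  · simp
  obtain ⟨ϖ, hϖ⟩ := IsDiscreteValuationRing.exists_irreducible v.toValuationSubring
  have hmem : ∀ x : F, x ∈ v.toValuationSubring ↔ ν x ≤ 1 := by
    intro x; rw [← h, Valuation.mem_valuationSubring_iff]
  have hunit : ∀ u : v.toValuationSubringˣ, ν ((u : v.toValuationSubring) : F) = 1 := by
    intro u
    have h1 : ν ((u : v.toValuationSubring) : F) ≤ 1 := (hmem _).1 (u : v.toValuationSubring).2
    have h2 : ν (((u⁻¹ : v.toValuationSubringˣ) : v.toValuationSubring) : F) ≤ 1 :=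
      (hmem _).1 ((u⁻¹ : v.toValuationSubringˣ) : v.toValuationSubring).2
    have h3 : ν ((u : v.toValuationSubring) : F) *
        ν (((u⁻¹ : v.toValuationSubringˣ) : v.toValuationSubring) : F) = 1 := by
      rw [← map_mul, ← MulMemClass.coe_mul, Units.mul_inv]; simp
    refine le_antisymm h1 ?_
    calc (1 : ℤᵐ⁰) = _ := h3.symm
      _ ≤ ν ((u : v.toValuationSubring) : F) * 1 := by gcongr
      _ = _ := mul_one _
  have hϖ0 : (ϖ : F) ≠ 0 := by
    simpa [ne_eq, ZeroMemClass.coe_eq_zero] using hϖ.ne_zero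
  have hπ0 : π ≠ 0 := by
    rintro rfl
    rw [map_zero] at hπ
    exact WithZero.exp_ne_zero hπ.symm
  have hform : ∀ g : F, g ≠ 0 → ν g = (ν (ϖ : F)) ^ (v.ord g) := by
    intro g hg
    obtain ⟨u, hu⟩ := v.exists_unit_mul_zpow hg hϖ
    conv_lhs => rw [hu]
    rw [map_mul, hunit, one_mul, map_zpow₀]
  have hνϖ0 : ν (ϖ : F) ≠ 0 := (Valuation.ne_zero_iff _).2 hϖ0
  have hlog : ∀ g : F, g ≠ 0 → WithZero.log (ν g) = v.ord g * WithZero.log (ν (ϖ : F)) := by
    intro g hg
    rw [hform g hg, WithZero.log_zpow, smul_eq_mul]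
  have h1 : WithZero.log (ν (ϖ : F)) ≤ 0 := by
    have := (hmem _).1 ϖ.2
    rw [WithZero.log_le_iff_le_exp hνϖ0]
    simpa using this
  have h2 := hlog π hπ0
  rw [hπ, WithZero.log_exp] at h2
  have h3 : WithZero.log (ν (ϖ : F)) = -1 := by
    have : WithZero.log (ν (ϖ : F)) ∣ -1 := ⟨_, by rw [h2, mul_comm]⟩
    have h4 := Int.isUnit_iff.1 (isUnit_of_dvd_unit this (by simp))
    omega
  rw [hlog f hf, h3]; ring

variable {A : Type} [CommRing A] [IsDedekindDomain A] [Algebra A F] [IsFractionRing A F]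
  [Algebra K A] [IsScalarTower K A F]

theorem ord_ofHeightOneSpectrum (w : HeightOneSpectrum A) (f : F) :
    (Place.ofHeightOneSpectrum (K := K) w).ord f = - WithZero.log (w.valuation F f) := by
  obtain ⟨π, hπ⟩ := w.valuation_exists_uniformizer F
  exact ord_eq_of_valuation _ _ rfl π hπ f

theorem ord_ofHeightOneSpectrum_pos_iff (w : HeightOneSpectrum A) (a : A) (ha : a ≠ 0) :
    0 < (Place.ofHeightOneSpectrum (K := K) w).ord (algebraMap A F a) ↔ a ∈ w.asIdeal := by
  rw [ord_ofHeightOneSpectrum, HeightOneSpectrum.valuation_of_algebraMap,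
    ← HeightOneSpectrum.intValuation_lt_one_iff_mem, Left.neg_pos_iff,
    WithZero.log_lt_iff_lt_exp (w.intValuation_ne_zero a ha)]
  simp

theorem ofHeightOneSpectrum_injective :
    Function.Injective (Place.ofHeightOneSpectrum (K := K) (F := F) (R := A)) := by
  intro w w' h
  ext a
  rcases eq_or_ne a 0 with rfl | ha
  · simp
  rw [← ord_ofHeightOneSpectrum_pos_iff (K := K) (F := F) w a ha, h,
    ord_ofHeightOneSpectrum_pos_iff (K := K) (F := F) w' a ha]

theorem exists_eq_ofHeightOneSpectrum (v : Place K F)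
    (hv : ∀ a : A, algebraMap A F a ∈ v.toValuationSubring) :
    ∃ w : HeightOneSpectrum A, v = Place.ofHeightOneSpectrum w := by
  let φ : A →+* v.toValuationSubring :=
    (algebraMap A F).codRestrict v.toValuationSubring.toSubring hv
  let P : Ideal A := (IsLocalRing.maximalIdeal v.toValuationSubring).comap φ
  have hPprime : P.IsPrime := Ideal.comap_isPrime _ _
  have hunit : ∀ a : A, a ∉ P → (algebraMap A F a)⁻¹ ∈ v.toValuationSubring := by
    intro a ha
    have h1 : IsUnit (φ a) := by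
      by_contra hcon
      exact ha ((IsLocalRing.mem_maximalIdeal _).2 hcon)
    obtain ⟨u, hu⟩ := h1
    have h2 : (algebraMap A F a)⁻¹ = ((u⁻¹ : v.toValuationSubringˣ) : v.toValuationSubring) := by
      have h3 : (algebraMap A F a) = ((u : v.toValuationSubring) : F) := by rw [hu]; rfl
      rw [h3, inv_eq_iff_eq_inv, eq_comm]
      apply inv_eq_of_mul_eq_one_left
      rw [← MulMemClass.coe_mul, Units.mul_inv]; rfl
    rw [h2]; exact SetLike.coe_mem _
  have hPbot : P ≠ ⊥ := by
    intro hbot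
    apply v.ne_top'
    rw [eq_top_iff]
    intro x _
    obtain ⟨a, s, hs, rfl⟩ := IsFractionRing.div_surjective (A := A) x
    have hs0 : s ∉ P := by
      rw [hbot, Ideal.mem_bot]; exact nonZeroDivisors.ne_zero hs
    rw [div_eq_mul_inv]
    exact mul_mem (hv a) (hunit s hs0)
  let w : HeightOneSpectrum A := ⟨P, hPprime, hPbot⟩
  refine ⟨w, ?_⟩
  apply Place.ext
  symm
  haveI : Ring.KrullDimLE 1 (Place.ofHeightOneSpectrum (K := K) (F := F) w).toValuationSubring :=
    inferInstance
  refine ValuationSubring.eq_of_le_of_ne_top _ ?_ v.ne_top'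
  intro x hx
  have hx' : w.valuation F x ≤ 1 := hx
  obtain ⟨n, d, hnd⟩ := w.exists_primeCompl_mul_eq_of_integer x hx'
  have hd : (d : A) ∉ P := d.2
  have hd0 : algebraMap A F d ≠ 0 := by
    intro h0
    apply hd
    have : (d : A) = 0 := (IsFractionRing.injective A F) (by rw [h0, map_zero])
    rw [this]; exact P.zero_mem
  have : x = algebraMap A F n * (algebraMap A F d)⁻¹ := by
    rw [← hnd]; field_simp
  rw [this]
  exact mul_mem (hv n) (hunit d hd)

end Dict

section Rel

theorem inertiaDeg_eq_one {K R A : Type} [Field K] [IsAlgClosed K] [CommRing R] [CommRing A]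
    [Algebra R A] [Module.Finite R A] (p : Ideal R) [p.IsMaximal] (e : K ≃+* R ⧸ p)
    (P : Ideal A) [P.IsPrime] [P.LiesOver p] : p.inertiaDeg' P = 1 := by
  rw [Ideal.inertiaDeg'_algebraMap]
  letI := Ideal.Quotient.field p
  haveI : IsAlgClosed (R ⧸ p) := IsAlgClosed.of_ringEquiv K _ e
  haveI : Algebra.IsIntegral (R ⧸ p) (A ⧸ P) := Algebra.IsIntegral.of_finite _ _
  have hbij : Function.Bijective (algebraMap (R ⧸ p) (A ⧸ P)) :=
    IsAlgClosed.algebraMap_bijective_of_isIntegral
  rw [← Module.finrank_self (R ⧸ p)]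
  exact ((AlgEquiv.ofBijective (Algebra.ofId (R ⧸ p) (A ⧸ P)) hbij).toLinearEquiv.finrank_eq).symm

variable {K F : Type} [Field K] [Field F] [Algebra K F]
variable {R L A : Type} [CommRing R] [IsDedekindDomain R] [Field L] [Algebra R L]
  [IsFractionRing R L] [CommRing A] [IsDedekindDomain A] [Algebra R A] [Algebra A F]
  [IsFractionRing A F] [Algebra L F] [Algebra R F] [IsScalarTower R A F] [IsScalarTower R L F]
  [Module.Finite R A] [Algebra K A] [IsScalarTower K A F]

theorem finite_primesAt (y : A) (hy : y ≠ 0) :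
    {w : HeightOneSpectrum A | y ∈ w.asIdeal}.Finite := by
  have h := Ideal.finite_factors (I := Ideal.span {y})
    (by rwa [Ne, Ideal.zero_eq_bot, Ideal.span_singleton_eq_bot])
  refine h.subset ?_
  intro w hw
  simp only [Set.mem_setOf_eq] at hw ⊢
  rw [Ideal.dvd_iff_le, Ideal.span_singleton_le_iff_mem]
  exact hw

theorem sum_ord_primesAt [IsAlgClosed K] (L : Type) [Field L] [Algebra R L]
    [IsFractionRing R L] [Algebra L F] [IsScalarTower R L F]
    (y : R) (hy0 : y ≠ 0) [hmax : (Ideal.span {y}).IsMaximal]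
    (e : K ≃+* R ⧸ Ideal.span {y}) :
    ∑ᶠ w ∈ {w : HeightOneSpectrum A | algebraMap R A y ∈ w.asIdeal},
      (Place.ofHeightOneSpectrum (K := K) w).ord (algebraMap R F y) = (Module.finrank L F : ℤ) := by
  have hp0 : Ideal.span {y} ≠ ⊥ := by rwa [Ne, Ideal.span_singleton_eq_bot]
  haveI : FaithfulSMul R A := FaithfulSMul.of_field_isFractionRing R A L F
  have hmap : Ideal.map (algebraMap R A) (Ideal.span {y}) = Ideal.span {algebraMap R A y} := by
    rw [Ideal.map_span, Set.image_singleton]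
  have hy0' : algebraMap R A y ≠ 0 := by
    rw [Ne, FaithfulSMul.algebraMap_eq_zero_iff]; exact hy0
  have hmap0 : Ideal.map (algebraMap R A) (Ideal.span {y}) ≠ ⊥ := by
    rw [hmap, Ne, Ideal.span_singleton_eq_bot]; exact hy0'
  have hFI := Ideal.sum_ramification_inertia A L F hp0
  rw [← hFI]
  have hinj : Set.InjOn HeightOneSpectrum.asIdeal
      {w : HeightOneSpectrum A | algebraMap R A y ∈ w.asIdeal} :=
    fun _ _ _ _ h => HeightOneSpectrum.ext h
  have hover : ∀ P : Ideal A, P.IsPrime → (P.LiesOver (Ideal.span {y}) ↔ algebraMap R A y ∈ P) := by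
    intro P hP
    rw [Ideal.liesOver_iff_dvd_map hP.ne_top, hmap, Ideal.dvd_iff_le,
      Ideal.span_singleton_le_iff_mem]
  have himg : HeightOneSpectrum.asIdeal '' {w : HeightOneSpectrum A | algebraMap R A y ∈ w.asIdeal}
      = ↑(IsDedekindDomain.primesOverFinset (Ideal.span {y}) A) := by
    ext P
    rw [Finset.mem_coe, IsDedekindDomain.mem_primesOverFinset_iff hp0]
    constructor
    · rintro ⟨w, hw, rfl⟩
      exact ⟨w.isPrime, (hover _ w.isPrime).2 hw⟩
    · rintro ⟨hP, hPo⟩
      have hmem := (hover P hP).1 hPo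
      refine ⟨⟨P, hP, ?_⟩, hmem, rfl⟩
      rintro rfl
      exact hy0' hmem
  push_cast
  rw [← finsum_mem_coe_finset, ← himg, finsum_mem_image hinj]
  refine finsum_mem_congr rfl ?_
  intro w hw
  haveI := w.isPrime
  haveI : w.asIdeal.LiesOver (Ideal.span {y}) := (hover _ w.isPrime).2 hw
  rw [inertiaDeg_eq_one (Ideal.span {y}) e w.asIdeal,
    Ideal.IsDedekindDomain.ramificationIdx'_eq_multiplicity hmap0 w.isPrime, hmap,
    IsScalarTower.algebraMap_apply R A F, ord_ofHeightOneSpectrum,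
    HeightOneSpectrum.valuation_of_algebraMap, w.intValuation_eq_exp_neg_multiplicity hy0']
  simp

theorem algebraMap_mem_of_isIntegral (v : Place K F)
    (hR : ∀ r : R, algebraMap R F r ∈ v.toValuationSubring) (x : F) (hx : IsIntegral R x) :
    x ∈ v.toValuationSubring := by
  let φ : R →+* v.toValuationSubring :=
    (algebraMap R F).codRestrict v.toValuationSubring.toSubring hR
  letI : Algebra R v.toValuationSubring := φ.toAlgebra
  haveI : IsScalarTower R v.toValuationSubring F := IsScalarTower.of_algebraMap_eq (fun _ => rfl)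
  have h1 : IsIntegral v.toValuationSubring x := hx.tower_top
  obtain ⟨z, hz⟩ := IsIntegrallyClosed.isIntegral_iff.1 h1
  rw [← hz]
  exact z.2

theorem zeroSet_eq_image (y : R) (hy0 : algebraMap R A y ≠ 0)
    (hR : ∀ v : Place K F, 0 < v.ord (algebraMap R F y) →
      ∀ r : R, algebraMap R F r ∈ v.toValuationSubring) :
    zeroSet K (algebraMap R F y) = Place.ofHeightOneSpectrum (K := K) ''
      {w : HeightOneSpectrum A | algebraMap R A y ∈ w.asIdeal} := by
  haveI : Algebra.IsIntegral R A := Algebra.IsIntegral.of_finite _ _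
  ext v
  constructor
  · intro hv
    have hA : ∀ a : A, algebraMap A F a ∈ v.toValuationSubring := by
      intro a
      apply algebraMap_mem_of_isIntegral v (hR v hv)
      exact (Algebra.IsIntegral.isIntegral (R := R) a).map (IsScalarTower.toAlgHom R A F)
    obtain ⟨w, rfl⟩ := exists_eq_ofHeightOneSpectrum v hA
    refine ⟨w, ?_, rfl⟩
    have hv' : 0 < (Place.ofHeightOneSpectrum (K := K) w).ord (algebraMap R F y) := hv
    rw [IsScalarTower.algebraMap_apply R A F, ord_ofHeightOneSpectrum_pos_iff w _ hy0] at hv'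
    exact hv'
  · rintro ⟨w, hw, rfl⟩
    show 0 < (Place.ofHeightOneSpectrum (K := K) w).ord (algebraMap R F y)
    rw [IsScalarTower.algebraMap_apply R A F, ord_ofHeightOneSpectrum_pos_iff w _ hy0]
    exact hw

theorem exists_sep_aux (L : Type) [Field L] [Algebra R L]
    [IsFractionRing R L] [Algebra L F] [IsScalarTower R L F] [FiniteDimensional L F]
    [IsIntegralClosure A R F]
    (y : R) (hy0 : y ≠ 0) [hmax : (Ideal.span {y}).IsMaximal]
    (w₀ : HeightOneSpectrum A) (hw₀ : algebraMap R A y ∈ w₀.asIdeal) :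
    ∃ a : A, a ≠ 0 ∧ a ∈ w₀.asIdeal ∧
      (∀ w : HeightOneSpectrum A, algebraMap R A y ∈ w.asIdeal → w ≠ w₀ → a ∉ w.asIdeal) ∧
      ∃ r : R, Algebra.norm L (algebraMap A F a) = algebraMap R L (y * r) := by
  classical
  haveI : FaithfulSMul R A := FaithfulSMul.of_field_isFractionRing R A L F
  haveI : Algebra.IsIntegral R A := Algebra.IsIntegral.of_finite _ _
  have hy0' : algebraMap R A y ≠ 0 := by
    rw [Ne, FaithfulSMul.algebraMap_eq_zero_iff]; exact hy0
  have hfin := finite_primesAt (algebraMap R A y) hy0'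
  let s : Finset (Ideal A) := insert ⊥ ((hfin.toFinset.erase w₀).image HeightOneSpectrum.asIdeal)
  have hs : ∀ i ∈ s, i.IsPrime := by
    intro i hi
    rcases Finset.mem_insert.1 hi with rfl | hi
    · exact Ideal.isPrime_bot
    · obtain ⟨w, -, rfl⟩ := Finset.mem_image.1 hi
      exact w.isPrime
  have hnot : ¬ ((w₀.asIdeal : Set A) ⊆ ⋃ i ∈ (↑s : Set (Ideal A)), (id i : Ideal A)) := by
    rw [Ideal.subset_union_prime (f := id) ⊥ ⊥ (fun i hi _ _ => hs i hi)]
    rintro ⟨i, hi, hle⟩
    rcases Finset.mem_insert.1 hi with rfl | hi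
    · exact w₀.ne_bot (le_bot_iff.1 hle)
    · obtain ⟨w, hw, rfl⟩ := Finset.mem_image.1 hi
      have h1 := (Finset.mem_erase.1 hw).1
      apply h1
      exact (HeightOneSpectrum.ext (w₀.isMaximal.eq_of_le w.isPrime.ne_top hle)).symm
  obtain ⟨a, ha, hna⟩ := Set.not_subset.1 hnot
  simp only [Set.mem_iUnion, not_exists] at hna
  refine ⟨a, ?_, ha, ?_, ?_⟩
  · rintro rfl
    exact hna ⊥ (by simp [s]) (by simp)
  · intro w hw hne hmem
    refine hna w.asIdeal ?_ hmem
    simp only [s, Finset.coe_insert, Finset.coe_image, Set.mem_insert_iff, Set.mem_image]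
    right
    exact ⟨w, by simp [hne, hw], rfl⟩
  · have hdvd := Algebra.dvd_algebraMap_intNorm_self R A a
    have h1 : algebraMap R A (Algebra.intNorm R A a) ∈ w₀.asIdeal :=
      Ideal.mem_of_dvd _ hdvd ha
    have hover : w₀.asIdeal.LiesOver (Ideal.span {y}) := by
      rw [Ideal.liesOver_iff_dvd_map w₀.isPrime.ne_top, Ideal.map_span, Set.image_singleton,
        Ideal.dvd_iff_le, Ideal.span_singleton_le_iff_mem]
      exact hw₀
    have h2 : Algebra.intNorm R A a ∈ Ideal.span {y} := by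
      rw [hover.over]
      exact h1
    obtain ⟨r, hr⟩ := Ideal.mem_span_singleton'.1 h2
    refine ⟨r, ?_⟩
    rw [← Algebra.algebraMap_intNorm (A := R) (K := L) (L := F) (B := A), ← hr, mul_comm]

theorem main_abstract [IsAlgClosed K] (L : Type) [Field L] [Algebra R L]
    [IsFractionRing R L] [Algebra L F] [IsScalarTower R L F] [FiniteDimensional L F]
    [IsIntegralClosure A R F]
    (y : R) (hy0 : y ≠ 0) [hmax : (Ideal.span {y}).IsMaximal]
    (e : K ≃+* R ⧸ Ideal.span {y})
    (hR : ∀ v : Place K F, 0 < v.ord (algebraMap R F y) →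
      ∀ r : R, algebraMap R F r ∈ v.toValuationSubring) :
    (zeroSet K (algebraMap R F y)).Finite ∧
    ∑ᶠ v ∈ zeroSet K (algebraMap R F y), v.ord (algebraMap R F y) = (Module.finrank L F : ℤ) ∧
    ∀ v₀ ∈ zeroSet K (algebraMap R F y), ∃ f : F, f ≠ 0 ∧ 0 < v₀.ord f ∧
      (∀ v ∈ zeroSet K (algebraMap R F y), v ≠ v₀ → v.ord f = 0) ∧
      ∃ r : R, Algebra.norm L f = algebraMap R L (y * r) := by
  haveI : FaithfulSMul R A := FaithfulSMul.of_field_isFractionRing R A L F
  have hy0' : algebraMap R A y ≠ 0 := by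
    rw [Ne, FaithfulSMul.algebraMap_eq_zero_iff]; exact hy0
  have hz := zeroSet_eq_image (K := K) (F := F) (A := A) y hy0' hR
  refine ⟨?_, ?_, ?_⟩
  · rw [hz]
    exact (finite_primesAt _ hy0').image _
  · rw [hz, finsum_mem_image (ofHeightOneSpectrum_injective.injOn)]
    exact sum_ord_primesAt L y hy0 e
  · intro v₀ hv₀
    rw [hz] at hv₀
    obtain ⟨w₀, hw₀, rfl⟩ := hv₀
    obtain ⟨a, ha0, ha, hna, r, hr⟩ := exists_sep_aux (F := F) L y hy0 w₀ hw₀
    refine ⟨algebraMap A F a, ?_, ?_, ?_, r, hr⟩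
    · rw [Ne, FaithfulSMul.algebraMap_eq_zero_iff]; exact ha0
    · rw [ord_ofHeightOneSpectrum_pos_iff w₀ a ha0]; exact ha
    · intro v hv hne
      rw [hz] at hv
      obtain ⟨w, hw, rfl⟩ := hv
      have hne' : w ≠ w₀ := fun h => hne (by rw [h])
      rw [ord_ofHeightOneSpectrum, HeightOneSpectrum.valuation_of_algebraMap,
        HeightOneSpectrum.intValuation_eq_one_iff.2 (hna w hw hne')]
      simp

end Rel

section Inst

open scoped IntermediateField.algebraAdjoinAdjoin

variable {K F : Type} [Field K] [Field F] [Algebra K F] [IsAlgClosed K] [CharZero K]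

theorem main_concrete (y : F) (hy : Transcendental K y) [FiniteDimensional K⟮y⟯ F] :
    (zeroSet K y).Finite ∧
    ∑ᶠ v ∈ zeroSet K y, v.ord y = (Module.finrank K⟮y⟯ F : ℤ) ∧
    ∀ v₀ ∈ zeroSet K y, ∃ f : F, f ≠ 0 ∧ 0 < v₀.ord f ∧
      (∀ v ∈ zeroSet K y, v ≠ v₀ → v.ord f = 0) ∧
      ∃ r : Algebra.adjoin K {y}, Algebra.norm K⟮y⟯ f =
        algebraMap (Algebra.adjoin K {y}) K⟮y⟯ (⟨y, Algebra.self_mem_adjoin_singleton K y⟩ * r) := by
  let e0 := Polynomial.algEquivOfTranscendental K y hy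
  haveI : IsPrincipalIdealRing (Algebra.adjoin K {y}) :=
    IsPrincipalIdealRing.of_surjective e0.toRingEquiv e0.surjective
  haveI : CharZero K⟮y⟯ := charZero_of_injective_algebraMap (algebraMap K K⟮y⟯).injective
  haveI : IsDedekindDomain (integralClosure (Algebra.adjoin K {y}) F) :=
    integralClosure.isDedekindDomain (Algebra.adjoin K {y}) K⟮y⟯ F
  haveI : IsFractionRing (integralClosure (Algebra.adjoin K {y}) F) F :=
    integralClosure.isFractionRing_of_finite_extension K⟮y⟯ F
  haveI : Module.Finite (Algebra.adjoin K {y}) (integralClosure (Algebra.adjoin K {y}) F) :=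
    IsIntegralClosure.finite (Algebra.adjoin K {y}) K⟮y⟯ F _
  let y' : Algebra.adjoin K {y} := ⟨y, Algebra.self_mem_adjoin_singleton K y⟩
  have hy0 : y' ≠ 0 := by
    intro h
    have h1 : y = 0 := congrArg Subtype.val h
    exact hy (h1 ▸ isAlgebraic_zero)
  have hmapX : Ideal.span {y'} = (Ideal.span {(Polynomial.X : Polynomial K)}).map
      (e0.toRingEquiv : Polynomial K →+* Algebra.adjoin K {y}) := by
    rw [Ideal.map_span, Set.image_singleton]
    congr 2
    exact (Polynomial.algEquivOfTranscendental_apply_X K y hy).symm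
  let e1 : (Polynomial K ⧸ Ideal.span {(Polynomial.X : Polynomial K)}) ≃+*
      (Algebra.adjoin K {y} ⧸ Ideal.span {y'}) :=
    Ideal.quotientEquiv _ _ e0.toRingEquiv hmapX
  have hX : Ideal.span {(Polynomial.X : Polynomial K)} =
      Ideal.span {(Polynomial.X - Polynomial.C (0 : K) : Polynomial K)} := by simp
  let e2 : (Polynomial K ⧸ Ideal.span {(Polynomial.X : Polynomial K)}) ≃+* K :=
    (Ideal.quotEquivOfEq hX).trans (Polynomial.quotientSpanXSubCAlgEquiv (0 : K)).toRingEquiv
  let e : K ≃+* (Algebra.adjoin K {y} ⧸ Ideal.span {y'}) := e2.symm.trans e1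
  haveI hmax : (Ideal.span {y'}).IsMaximal :=
    Ideal.Quotient.maximal_of_isField _ (e.symm.toMulEquiv.isField (Field.toIsField K))
  have hR : ∀ v : Place K F, 0 < v.ord (algebraMap (Algebra.adjoin K {y}) F y') →
      ∀ r : Algebra.adjoin K {y}, algebraMap (Algebra.adjoin K {y}) F r ∈ v.toValuationSubring := by
    intro v hv r
    let S : Subalgebra K F :=
      { v.toValuationSubring.toSubring with algebraMap_mem' := v.algebraMap_mem' }
    have hle : Algebra.adjoin K {y} ≤ S := by
      apply Algebra.adjoin_le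
      intro z hz
      rw [Set.mem_singleton_iff] at hz
      rw [hz]
      exact (mem_valuationSubring_iff v y).2 (Or.inr hv.le)
    exact hle r.2
  exact main_abstract (K := K) (F := F) (R := Algebra.adjoin K {y})
    (A := integralClosure (Algebra.adjoin K {y}) F) K⟮y⟯ y' hy0 e hR

theorem finite_zeroSet (y : F) (hy : Transcendental K y) [FiniteDimensional K⟮y⟯ F] :
    (zeroSet K y).Finite := (main_concrete y hy).1

theorem sum_ord_zeroSet (y : F) (hy : Transcendental K y) [FiniteDimensional K⟮y⟯ F] :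
    ∑ᶠ v ∈ zeroSet K y, v.ord y = (Module.finrank K⟮y⟯ F : ℤ) := (main_concrete y hy).2.1

theorem exists_sep (y : F) (hy : Transcendental K y) [FiniteDimensional K⟮y⟯ F]
    (v₀ : Place K F) (hv₀ : v₀ ∈ zeroSet K y) :
    ∃ f : F, f ≠ 0 ∧ 0 < v₀.ord f ∧ (∀ v ∈ zeroSet K y, v ≠ v₀ → v.ord f = 0) ∧
      ∃ r : Polynomial K, algebraMap K⟮y⟯ F (Algebra.norm K⟮y⟯ f) = y * Polynomial.aeval y r := by
  obtain ⟨f, hf0, hf1, hf2, r, hr⟩ := (main_concrete y hy).2.2 v₀ hv₀
  obtain ⟨q, hq⟩ := Algebra.adjoin_mem_exists_aeval _ _ r.2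
  refine ⟨f, hf0, hf1, hf2, q, ?_⟩
  rw [hr, hq]
  rfl

end Inst

end Fermat.Agent.S24
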