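import Mathlib
import Fermat.Agent.S24.Center
import Fermat.Agent.S24.Dedekind

set_option autoImplicit false

/-! # S24 (A2): principal divisors have degree zero -/

namespace Fermat.Agent.S24

open AlgebraicCurve IntermediateField

variable {K F : Type} [Field K] [Field F] [Algebra K F]

theorem support_ord_eq (g : F) :
    {v : Place K F | v.ord g ≠ 0} = zeroSet K g ∪ zeroSet K g⁻¹ := by
  ext v
  simp only [Set.mem_ofPred_eq, Set.mem_union, zeroSet, v.ord_inv]
  omega

theorem transcendental_inv {g : F} (hg : Transcendental K g) : Transcendental K g⁻¹ := by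
  intro h
  apply hg
  have := h.inv
  rwa [inv_inv] at this

variable [IsAlgClosed K] [CharZero K]

theorem finite_support_ord (x : F) (hx : Transcendental K x) [FiniteDimensional K⟮x⟯ F]
    (g : F) (hg : g ≠ 0) : {v : Place K F | v.ord g ≠ 0}.Finite := by
  by_cases ht : IsAlgebraic K g
  · obtain ⟨a, rfl⟩ := exists_algebraMap_eq_of_isAlgebraic ht
    simp [ord_algebraMap]
  · have h1 := finiteDimensional_adjoin_of_transcendental x g hx ht
    have h2 := finiteDimensional_adjoin_of_transcendental x g⁻¹ hx (transcendental_inv ht)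
    rw [support_ord_eq]
    exact (finite_zeroSet g ht).union (finite_zeroSet g⁻¹ (transcendental_inv ht))

theorem finsum_ord_eq_zero (x : F) (hx : Transcendental K x) [FiniteDimensional K⟮x⟯ F]
    (g : F) (hg : g ≠ 0) : ∑ᶠ v : Place K F, v.ord g = 0 := by
  by_cases ht : IsAlgebraic K g
  · obtain ⟨a, rfl⟩ := exists_algebraMap_eq_of_isAlgebraic ht
    simp [ord_algebraMap]
  · have h1 := finiteDimensional_adjoin_of_transcendental x g hx ht
    have h2 := finiteDimensional_adjoin_of_transcendental x g⁻¹ hx (transcendental_inv ht)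
    have hf1 := finite_zeroSet g ht
    have hf2 := finite_zeroSet g⁻¹ (transcendental_inv ht)
    have hdisj : Disjoint (zeroSet K g) (zeroSet K g⁻¹) := by
      rw [Set.disjoint_left]
      intro v hv hv'
      have h3 : 0 < v.ord g := hv
      have h4 : 0 < v.ord g⁻¹ := hv'
      rw [v.ord_inv] at h4
      omega
    have hsupp : Function.support (fun v : Place K F => v.ord g) ⊆ zeroSet K g ∪ zeroSet K g⁻¹ := by
      rw [← support_ord_eq]
      intro v hv
      exact hv
    have hU : ∑ᶠ v : Place K F, v.ord g = ∑ᶠ v ∈ zeroSet K g ∪ zeroSet K g⁻¹, v.ord g := by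
      rw [← finsum_mem_univ]
      apply finsum_mem_inter_support_eq
      rw [Set.univ_inter, Set.inter_eq_right.mpr hsupp]
    rw [hU, finsum_mem_union hdisj hf1 hf2, sum_ord_zeroSet g ht]
    have h5 : ∑ᶠ v ∈ zeroSet K g⁻¹, v.ord g = - ∑ᶠ v ∈ zeroSet K g⁻¹, v.ord g⁻¹ := by
      rw [← finsum_mem_neg_distrib _ hf2]
      refine finsum_mem_congr rfl fun v _ => ?_
      rw [v.ord_inv, neg_neg]
    rw [h5, sum_ord_zeroSet g⁻¹ (transcendental_inv ht)]
    have h6 : Module.finrank K⟮g⁻¹⟯ F = Module.finrank K⟮g⟯ F := by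
      rw [adjoin_inv']
    rw [h6]
    ring

end Fermat.Agent.S24
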