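import Mathlib
import Fermat.Agent.S24.Defs

set_option autoImplicit false
set_option maxHeartbeats 400000

/-! # S24 (A4): the norm is the product over a full set of embeddings -/

namespace Fermat.Agent.S24

open AlgebraicCurve IntermediateField

variable {K F : Type} [Field K] [Field F] [Algebra K F]

theorem embedding_agree {E : Type} [Field E] [Algebra K E] (y : F) (σ σ' : F →ₐ[K] E)
    (hy : σ y = σ' y) (z : K⟮y⟯) : σ (algebraMap K⟮y⟯ F z) = σ' (algebraMap K⟮y⟯ F z) := by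
  have : σ.comp (K⟮y⟯).val = σ'.comp (K⟮y⟯).val := by
    apply IntermediateField.adjoin_algHom_ext
    intro x hx
    rw [Set.mem_singleton_iff] at hx
    subst hx
    exact hy
  exact DFunLike.congr_fun this z

section
variable [CharZero K] {E Q : Type} [Field E] [Algebra K E] [Fintype Q] (y : F)
    [FiniteDimensional K⟮y⟯ F] (σ : Q → (F →ₐ[K] E))

theorem norm_prod_aux (hinj : Function.Injective σ)
    (hy : ∀ γ γ', σ γ y = σ γ' y) (γ₀ : Q) :
    Fintype.card Q ≤ Module.finrank K⟮y⟯ F ∧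
    (Fintype.card Q = Module.finrank K⟮y⟯ F → ∀ f : F,
      σ γ₀ (algebraMap K⟮y⟯ F (Algebra.norm K⟮y⟯ f)) = ∏ γ, σ γ f) := by
  classical
  let Ω := AlgebraicClosure E
  let _ : Algebra K⟮y⟯ Ω :=
    ((algebraMap E Ω).comp ((σ γ₀).toRingHom.comp (algebraMap K⟮y⟯ F))).toAlgebra
  have : CharZero K⟮y⟯ := charZero_of_injective_algebraMap (algebraMap K K⟮y⟯).injective
  let τ : Q → (F →ₐ[K⟮y⟯] Ω) := fun γ =>
    { toRingHom := (algebraMap E Ω).comp (σ γ).toRingHom
      commutes' := fun z => by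
        show algebraMap E Ω (σ γ (algebraMap K⟮y⟯ F z)) = algebraMap E Ω (σ γ₀ (algebraMap K⟮y⟯ F z))
        rw [embedding_agree y (σ γ) (σ γ₀) (hy γ γ₀) z] }
  have hτ : ∀ γ f, τ γ f = algebraMap E Ω (σ γ f) := fun _ _ => rfl
  have hτinj : Function.Injective τ := by
    intro γ γ' h
    apply hinj
    ext f
    apply (algebraMap E Ω).injective
    rw [← hτ, ← hτ, h]
  have hcard := AlgHom.card K⟮y⟯ F Ω
  refine ⟨?_, ?_⟩
  · rw [← hcard]
    exact Fintype.card_le_of_injective τ hτinj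
  · intro hQ f
    have hbij : Function.Bijective τ := by
      rw [Fintype.bijective_iff_injective_and_card]
      exact ⟨hτinj, by rw [hQ, hcard]⟩
    have h1 := Algebra.norm_eq_prod_embeddings K⟮y⟯ Ω f
    rw [← Fintype.prod_bijective τ hbij (fun γ => τ γ f) (fun t => t f) (fun _ => rfl)] at h1
    apply (algebraMap E Ω).injective
    rw [map_prod]
    exact h1

theorem card_le_finrank (hinj : Function.Injective σ)
    (hy : ∀ γ γ', σ γ y = σ γ' y) : Fintype.card Q ≤ Module.finrank K⟮y⟯ F := by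
  rcases isEmpty_or_nonempty Q with h | ⟨⟨γ₀⟩⟩
  · simp
  · exact (norm_prod_aux y σ hinj hy γ₀).1

theorem norm_eq_prod (hinj : Function.Injective σ)
    (hy : ∀ γ γ', σ γ y = σ γ' y) (hcard : Fintype.card Q = Module.finrank K⟮y⟯ F)
    (γ₀ : Q) (f : F) :
    σ γ₀ (algebraMap K⟮y⟯ F (Algebra.norm K⟮y⟯ f)) = ∏ γ, σ γ f :=
  (norm_prod_aux y σ hinj hy γ₀).2 hcard f

end

end Fermat.Agent.S24
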