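import Mathlib
import Fermat.Agent.S24.Defs

set_option autoImplicit false
set_option maxHeartbeats 400000

/-! # S24 (A3): the place attached to an embedding into Laurent series -/

namespace Fermat.Agent.S24

open AlgebraicCurve IntermediateField

variable {K F : Type} [Field K] [Field F] [Algebra K F]

/-- an abstract integer valued valuation on `F`, trivial on `K`. -/
structure IntVal (K F : Type) [Field K] [Field F] [Algebra K F] where
  w : F → ℤ
  w_mul : ∀ f g : F, f ≠ 0 → g ≠ 0 → w (f * g) = w f + w g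
  w_add : ∀ f g : F, f ≠ 0 → g ≠ 0 → f + g ≠ 0 → min (w f) (w g) ≤ w (f + g)
  w_const : ∀ a : K, w (algebraMap K F a) = 0
  w_pos : ∃ y : F, y ≠ 0 ∧ 0 < w y

namespace IntVal

variable (W : IntVal K F)

theorem w_one : W.w 1 = 0 := by
  have := W.w_const 1
  rwa [map_one] at this

theorem w_inv {f : F} (hf : f ≠ 0) : W.w f⁻¹ = - W.w f := by
  have := W.w_mul f f⁻¹ hf (inv_ne_zero hf)
  rw [mul_inv_cancel₀ hf, W.w_one] at this
  omega

theorem w_neg_one : W.w (-1) = 0 := by
  have := W.w_const (-1)
  rwa [map_neg, map_one] at this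

theorem w_neg {f : F} (hf : f ≠ 0) : W.w (-f) = W.w f := by
  have := W.w_mul (-1) f (by simp) hf
  rw [W.w_neg_one] at this
  simpa using this

theorem w_pow {f : F} (hf : f ≠ 0) (n : ℕ) : W.w (f ^ n) = n * W.w f := by
  induction n with
  | zero => simp [W.w_one]
  | succ n ih =>
    rw [pow_succ, W.w_mul _ _ (pow_ne_zero n hf) hf, ih]
    push_cast
    ring

theorem w_zpow {f : F} (hf : f ≠ 0) (n : ℤ) : W.w (f ^ n) = n * W.w f := by
  obtain ⟨m, rfl | rfl⟩ := n.eq_nat_or_neg
  · simpa using W.w_pow hf m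
  · rw [zpow_neg, W.w_inv (zpow_ne_zero _ hf)]
    simp only [zpow_natCast]
    rw [W.w_pow hf m]
    ring

/-- the valuation subring. -/
def subring : ValuationSubring F where
  carrier := {f | f = 0 ∨ 0 ≤ W.w f}
  mul_mem' := by
    rintro a b (rfl | ha) (rfl | hb)
    · left; simp
    · left; simp
    · left; simp
    · by_cases ha0 : a = 0
      · left; simp [ha0]
      by_cases hb0 : b = 0
      · left; simp [hb0]
      right
      rw [W.w_mul a b ha0 hb0]
      omega
  one_mem' := Or.inr (by rw [W.w_one])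
  add_mem' := by
    rintro a b ha hb
    by_cases ha0 : a = 0
    · simpa [ha0] using hb
    by_cases hb0 : b = 0
    · simpa [hb0] using ha
    by_cases hab : a + b = 0
    · exact Or.inl hab
    right
    have := W.w_add a b ha0 hb0 hab
    have ha' := ha.resolve_left ha0
    have hb' := hb.resolve_left hb0
    omega
  zero_mem' := Or.inl rfl
  neg_mem' := by
    rintro a (rfl | ha)
    · left; simp
    · by_cases ha0 : a = 0
      · left; simp [ha0]
      right
      rwa [W.w_neg ha0]
  mem_or_inv_mem' := by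
    intro x
    by_cases hx : x = 0
    · exact Or.inl (Or.inl hx)
    rcases le_total 0 (W.w x) with h | h
    · exact Or.inl (Or.inr h)
    · right; right
      rw [W.w_inv hx]
      omega

theorem mem_subring {f : F} : f ∈ W.subring ↔ f = 0 ∨ 0 ≤ W.w f := Iff.rfl

theorem isUnit_iff (a : W.subring) : IsUnit a ↔ (a : F) ≠ 0 ∧ W.w a = 0 := by
  constructor
  · rintro ⟨u, rfl⟩
    have h1 : ((u : W.subring) : F) * ((u⁻¹ : (W.subring)ˣ) : W.subring) = 1 := by
      exact congrArg (Subtype.val) u.mul_inv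
    have hu0 : ((u : W.subring) : F) ≠ 0 := left_ne_zero_of_mul_eq_one h1
    have hv0 : (((u⁻¹ : (W.subring)ˣ) : W.subring) : F) ≠ 0 := right_ne_zero_of_mul_eq_one h1
    refine ⟨hu0, ?_⟩
    have h2 := W.w_mul _ _ hu0 hv0
    rw [h1, W.w_one] at h2
    have h3 := ((u : W.subring).2).resolve_left hu0
    have h4 := (((u⁻¹ : (W.subring)ˣ) : W.subring).2).resolve_left hv0
    omega
  · rintro ⟨h0, hw⟩
    refine IsUnit.of_mul_eq_one ⟨(a : F)⁻¹, Or.inr (by rw [W.w_inv h0]; omega)⟩ ?_
    apply Subtype.ext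
    simpa using mul_inv_cancel₀ h0

/-- the minimal positive value. -/
theorem exists_min : ∃ (c : ℕ) (π : F), 0 < c ∧ π ≠ 0 ∧ W.w π = c ∧
    ∀ f : F, f ≠ 0 → (c : ℤ) ∣ W.w f := by
  classical
  have hex : ∃ c : ℕ, 0 < c ∧ ∃ π : F, π ≠ 0 ∧ W.w π = c := by
    obtain ⟨y, hy0, hy⟩ := W.w_pos
    exact ⟨(W.w y).toNat, by omega, y, hy0, by omega⟩
  obtain ⟨hc, π, hπ0, hπ⟩ := Nat.find_spec hex
  refine ⟨Nat.find hex, π, hc, hπ0, hπ, fun f hf => ?_⟩
  set c := Nat.find hex with hcdef
  by_contra hnd
  have hr : 0 < W.w f % c := by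
    have := Int.emod_nonneg (W.w f) (show (c : ℤ) ≠ 0 by omega)
    rcases eq_or_lt_of_le this with h | h
    · exact absurd (Int.dvd_of_emod_eq_zero h.symm) hnd
    · exact h
  have hr2 : W.w f % c < c := Int.emod_lt_of_pos _ (by omega)
  have hg : W.w (f * π ^ (-(W.w f / c))) = W.w f % c := by
    rw [W.w_mul _ _ hf (zpow_ne_zero _ hπ0), W.w_zpow hπ0, hπ, Int.emod_def]
    ring
  have := Nat.find_min hex (m := (W.w f % c).toNat) (by omega)
  apply this
  exact ⟨by omega, _, mul_ne_zero hf (zpow_ne_zero _ hπ0), by rw [hg]; omega⟩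

theorem exists_place : ∃ (v : Place K F) (c : ℕ), 0 < c ∧ ∀ f : F, f ≠ 0 → W.w f = c * v.ord f := by
  obtain ⟨c, π, hc, hπ0, hπ, hdvd⟩ := W.exists_min
  have hπmem : π ∈ W.subring := Or.inr (by omega)
  let p : W.subring := ⟨π, hπmem⟩
  have hp0 : p ≠ 0 := fun h => hπ0 (congrArg Subtype.val h)
  have hirr : Irreducible p := by
    refine ⟨?_, ?_⟩
    · rw [W.isUnit_iff]
      rintro ⟨-, h⟩
      have : W.w π = 0 := h
      omega
    · intro a b hab
      have hab' : π = (a : F) * b := congrArg Subtype.val hab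
      have ha0 : (a : F) ≠ 0 := by
        rintro h; rw [h, zero_mul] at hab'; exact hπ0 hab'
      have hb0 : (b : F) ≠ 0 := by
        rintro h; rw [h, mul_zero] at hab'; exact hπ0 hab'
      have h1 := W.w_mul _ _ ha0 hb0
      rw [← hab', hπ] at h1
      obtain ⟨m, hm⟩ := hdvd _ ha0
      obtain ⟨n, hn⟩ := hdvd _ hb0
      have ha := a.2.resolve_left ha0
      have hb := b.2.resolve_left hb0
      rw [W.isUnit_iff, W.isUnit_iff]
      have hc' : (0 : ℤ) < c := by exact_mod_cast hc
      have hm0 : 0 ≤ m := by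
        by_contra h
        push Not at h
        have : (c : ℤ) * m < 0 := mul_neg_of_pos_of_neg hc' h
        omega
      have hn0 : 0 ≤ n := by
        by_contra h
        push Not at h
        have : (c : ℤ) * n < 0 := mul_neg_of_pos_of_neg hc' h
        omega
      have hmn : m + n = 1 := by
        have : (c : ℤ) * (m + n) = c * 1 := by rw [mul_add, ← hm, ← hn, mul_one]; exact h1.symm
        exact mul_left_cancel₀ hc'.ne' this
      rcases (show m = 0 ∨ n = 0 by omega) with h | h
      · left; exact ⟨ha0, by rw [hm, h, mul_zero]⟩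
      · right; exact ⟨hb0, by rw [hn, h, mul_zero]⟩
  -- decomposition of a nonzero element of `F`
  have hdec : ∀ f : F, f ≠ 0 → ∃ (u : (W.subring)ˣ) (m : ℤ), W.w f = c * m ∧
      f = ((u : W.subring) : F) * (p : F) ^ m := by
    intro f hf
    obtain ⟨m, hm⟩ := hdvd f hf
    have hu0 : f * π ^ (-m) ≠ 0 := mul_ne_zero hf (zpow_ne_zero _ hπ0)
    have hw : W.w (f * π ^ (-m)) = 0 := by
      rw [W.w_mul _ _ hf (zpow_ne_zero _ hπ0), W.w_zpow hπ0, hπ, hm]
      ring
    have hunit : IsUnit (⟨f * π ^ (-m), Or.inr hw.ge⟩ : W.subring) := by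
      rw [W.isUnit_iff]
      exact ⟨hu0, hw⟩
    refine ⟨hunit.unit, m, hm, ?_⟩
    show f = f * π ^ (-m) * π ^ m
    rw [mul_assoc, ← zpow_add₀ hπ0]
    simp
  have hfac : IsDiscreteValuationRing.HasUnitMulPowIrreducibleFactorization W.subring := by
    refine ⟨p, hirr, fun {x} hx => ?_⟩
    have hx0 : (x : F) ≠ 0 := fun h => hx (Subtype.ext h)
    obtain ⟨u, m, hm, hf⟩ := hdec x hx0
    have hxw := x.2.resolve_left hx0
    have hc' : (0 : ℤ) < c := by exact_mod_cast hc
    have hm0 : 0 ≤ m := by
      by_contra h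
      push Not at h
      have : (c : ℤ) * m < 0 := mul_neg_of_pos_of_neg hc' h
      omega
    lift m to ℕ using hm0
    refine ⟨m, u, ?_⟩
    apply Subtype.ext
    rw [hf]
    simp [mul_comm]
  have : IsDiscreteValuationRing W.subring :=
    IsDiscreteValuationRing.ofHasUnitMulPowIrreducibleFactorization hfac
  let v : Place K F :=
    { toValuationSubring := W.subring
      algebraMap_mem' := fun a => Or.inr (by rw [W.w_const])
      ne_top' := by
        intro h
        have : π⁻¹ ∈ W.subring := by rw [h]; trivial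
        rcases this with h | h
        · exact inv_ne_zero hπ0 h
        · rw [W.w_inv hπ0] at h
          omega
      isPrincipalIdealRing' := inferInstance }
  refine ⟨v, c, hc, fun f hf => ?_⟩
  obtain ⟨u, m, hm, hfu⟩ := hdec f hf
  have := v.ord_unit_smul_zpow u (π := p) hirr m
  rw [hm, hfu, this]

end IntVal

theorem algebraMap_laurent {k : Type} [Field k] [Algebra K k] (a : K) :
    algebraMap K (LaurentSeries k) a = HahnSeries.C (algebraMap K k a) := by
  rw [HahnSeries.algebraMap_apply', PowerSeries.algebraMap_apply, HahnSeries.ofPowerSeries_C]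

/-- the integer valuation attached to an embedding into Laurent series. -/
noncomputable def intValOfEmbedding {k : Type} [Field k] [Algebra K k]
    (σ : F →ₐ[K] LaurentSeries k) (y : F) (hy : 0 < (σ y).order) : IntVal K F where
  w f := (σ f).order
  w_mul f g hf hg := by
    rw [map_mul, HahnSeries.order_mul ((map_ne_zero σ).mpr hf) ((map_ne_zero σ).mpr hg)]
  w_add f g _ _ hfg := by
    rw [map_add]
    apply HahnSeries.min_order_le_order_add
    rw [← map_add]
    exact (map_ne_zero σ).mpr hfg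
  w_const a := by
    rw [AlgHom.commutes, algebraMap_laurent, HahnSeries.order_C]
  w_pos := by
    refine ⟨y, ?_, hy⟩
    rintro rfl
    simp at hy

theorem exists_place_of_embedding {k : Type} [Field k] [Algebra K k]
    (σ : F →ₐ[K] LaurentSeries k) (y : F) (hy : 0 < (σ y).order) :
    ∃ (v : Place K F) (c : ℕ), 0 < c ∧ ∀ f : F, f ≠ 0 → (σ f).order = c * v.ord f :=
  (intValOfEmbedding σ y hy).exists_place

end Fermat.Agent.S24
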