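import Mathlib
import Fermat.Agent.S24.PlaceBasic
import Fermat.Agent.S24.PlaceOf
import Fermat.Agent.S24.NormProd
import Fermat.Agent.S24.Dedekind

set_option autoImplicit false
set_option maxHeartbeats 400000

/-! # S24 (A5): the places over a point are the orbits of the local monodromy -/

namespace Fermat.Agent.S24

open AlgebraicCurve IntermediateField

variable {K F : Type} [Field K] [Field F] [Algebra K F]

section basic

variable {k Q : Type} [Field k] [Algebra K k] {y : F} (L : LocalData K F k Q y)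

theorem LocalData.order_pos (γ : Q) : 0 < (L.σ γ y).order := by
  rw [L.order_y]
  exact_mod_cast L.e_pos

/-- the place attached to an embedding. -/
noncomputable def LocalData.pl (γ : Q) : Place K F :=
  (exists_place_of_embedding (L.σ γ) y (L.order_pos γ)).choose

/-- the index of the value group. -/
noncomputable def LocalData.c (γ : Q) : ℕ :=
  (exists_place_of_embedding (L.σ γ) y (L.order_pos γ)).choose_spec.choose

theorem LocalData.c_pos (γ : Q) : 0 < L.c γ :=
  (exists_place_of_embedding (L.σ γ) y (L.order_pos γ)).choose_spec.choose_spec.1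

theorem LocalData.order_eq (γ : Q) {f : F} (hf : f ≠ 0) :
    (L.σ γ f).order = L.c γ * (L.pl γ).ord f :=
  (exists_place_of_embedding (L.σ γ) y (L.order_pos γ)).choose_spec.choose_spec.2 f hf

theorem LocalData.ζ_ne_zero : L.ζ ≠ 0 := L.hζ.ne_zero L.e_pos.ne'

theorem coeff_order_ne_zero' {x : LaurentSeries k} (hx : x ≠ 0) : x.coeff x.order ≠ 0 :=
  fun h => hx (HahnSeries.coeff_order_eq_zero.mp h)

include L in
theorem LocalData.y_ne_zero [Nonempty Q] : y ≠ 0 := by
  intro h
  obtain ⟨γ⟩ := ‹Nonempty Q›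
  have h1 := L.order_pos γ
  have h2 : L.σ γ y = L.σ γ 0 := congrArg _ h
  rw [h2, map_zero] at h1
  simp at h1

theorem LocalData.order_rot (γ : Q) (f : F) : (L.σ (L.ε γ) f).order = (L.σ γ f).order := by
  by_cases hf : f = 0
  · simp [hf]
  have h1 : L.σ γ f ≠ 0 := (map_ne_zero _).mpr hf
  have h2 : L.σ (L.ε γ) f ≠ 0 := (map_ne_zero _).mpr hf
  apply le_antisymm
  · apply HahnSeries.order_le_of_coeff_ne_zero
    rw [L.rot]
    exact mul_ne_zero (zpow_ne_zero _ L.ζ_ne_zero) (coeff_order_ne_zero' h1)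
  · apply HahnSeries.order_le_of_coeff_ne_zero
    have := coeff_order_ne_zero' h2
    rw [L.rot] at this
    exact right_ne_zero_of_mul this

theorem LocalData.pl_rot (γ : Q) : L.pl (L.ε γ) = L.pl γ := by
  apply place_ext_of_ord (L.c (L.ε γ)) (L.c γ) (L.c_pos _) (L.c_pos _)
  intro f hf
  rw [← L.order_eq _ hf, ← L.order_eq _ hf, L.order_rot]

theorem LocalData.pl_pow (m : ℕ) (γ : Q) : L.pl ((L.ε ^ m) γ) = L.pl γ := by
  induction m with
  | zero => simp
  | succ m ih => rw [pow_succ', Equiv.Perm.mul_apply, L.pl_rot, ih]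

theorem LocalData.pl_zpow (m : ℤ) (γ : Q) : L.pl ((L.ε ^ m) γ) = L.pl γ := by
  obtain ⟨n, rfl | rfl⟩ := m.eq_nat_or_neg
  · simpa using L.pl_pow n γ
  · have := L.pl_pow n ((L.ε ^ (-(n : ℤ))) γ)
    rw [← this, ← Equiv.Perm.mul_apply, ← zpow_natCast, ← zpow_add]
    simp

theorem LocalData.rot_pow (m : ℕ) (γ : Q) (f : F) (n : ℤ) :
    (L.σ ((L.ε ^ m) γ) f).coeff n = L.ζ ^ ((m : ℤ) * n) * (L.σ γ f).coeff n := by
  induction m with
  | zero => simp
  | succ m ih =>
    rw [pow_succ', Equiv.Perm.mul_apply, L.rot, ih, ← mul_assoc, ← zpow_add₀ L.ζ_ne_zero]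
    congr 2
    push_cast
    ring

theorem LocalData.e_eq (γ : Q) [Nonempty Q] : (L.e : ℤ) = L.c γ * (L.pl γ).ord y := by
  rw [← L.order_eq γ L.y_ne_zero, L.order_y]

theorem LocalData.pl_mem (γ : Q) : L.pl γ ∈ zeroSet K y := by
  have : Nonempty Q := ⟨γ⟩
  have h := L.e_eq γ
  have he : (0 : ℤ) < L.e := by exact_mod_cast L.e_pos
  have hc : (0 : ℤ) < L.c γ := by exact_mod_cast L.c_pos γ
  show 0 < (L.pl γ).ord y
  rw [h] at he
  exact (mul_pos_iff_of_pos_left hc).mp he

theorem LocalData.ord_le_of_pow_eq (γ : Q) {h : ℕ} (hh : 0 < h) (hγ : (L.ε ^ h) γ = γ) :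
    (L.pl γ).ord y ≤ h := by
  have : Nonempty Q := ⟨γ⟩
  obtain ⟨π, hπ⟩ := exists_ord_eq_one (L.pl γ)
  have hπ0 : π ≠ 0 := by
    rintro rfl
    simp at hπ
  have h1 : (L.σ γ π).order = L.c γ := by rw [L.order_eq γ hπ0, hπ, mul_one]
  have h2 := coeff_order_ne_zero' ((map_ne_zero (L.σ γ)).mpr hπ0)
  have h3 := L.rot_pow h γ π (L.σ γ π).order
  rw [hγ] at h3
  have h4 : L.ζ ^ ((h : ℤ) * (L.σ γ π).order) = 1 := by
    have : (L.ζ ^ ((h : ℤ) * (L.σ γ π).order) - 1) * (L.σ γ π).coeff (L.σ γ π).order = 0 := by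
      rw [sub_mul, one_mul, ← h3, sub_self]
    rcases mul_eq_zero.mp this with h | h
    · exact sub_eq_zero.mp h
    · exact absurd h h2
  rw [L.hζ.zpow_eq_one_iff_dvd, h1, L.e_eq γ, mul_comm (h : ℤ)] at h4
  have hc : (L.c γ : ℤ) ≠ 0 := by exact_mod_cast (L.c_pos γ).ne'
  have h5 := (mul_dvd_mul_iff_left hc).mp h4
  exact Int.le_of_dvd (by exact_mod_cast hh) h5

end basic

section main

variable [IsAlgClosed K] [CharZero K]

theorem LocalData.transcendental {k Q : Type} [Field k] [Algebra K k] [Nonempty Q] {y : F}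
    (L : LocalData K F k Q y) : Transcendental K y := by
  intro halg
  obtain ⟨γ⟩ := ‹Nonempty Q›
  obtain ⟨a, ha⟩ : ∃ a : K, algebraMap K F a = y := by
    have hint := halg.isIntegral
    have hdeg := IsAlgClosed.degree_eq_one_of_irreducible K (minpoly.irreducible hint)
    exact minpoly.mem_range_of_degree_eq_one K y hdeg
  have h1 : 0 < (L.pl γ).ord y := L.pl_mem γ
  have h2 : (L.pl γ).ord y = (L.pl γ).ord (algebraMap K F a) := congrArg _ ha.symm
  rw [h2, ord_algebraMap] at h1
  exact lt_irrefl _ h1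

omit [IsAlgClosed K] [CharZero K] in
theorem ord_aeval_nonneg (v : Place K F) {y : F} (hy : 0 ≤ v.ord y) (r : Polynomial K) :
    0 ≤ v.ord (Polynomial.aeval y r) := by
  have hmem : Polynomial.aeval y r ∈ v.toValuationSubring := by
    have hy' : y ∈ v.toValuationSubring := (mem_valuationSubring_iff v y).mpr (Or.inr hy)
    rw [Polynomial.aeval_eq_sum_range]
    refine Subring.sum_mem v.toValuationSubring.toSubring fun i _ => ?_
    rw [Algebra.smul_def]
    exact mul_mem (v.algebraMap_mem' _) (pow_mem hy' i)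
  rcases (mem_valuationSubring_iff v _).mp hmem with h | h
  · rw [h]; simp
  · exact h

theorem exists_pl_eq {k Q : Type} [Field k] [Algebra K k] [Fintype Q] (y : F)
    [FiniteDimensional K⟮y⟯ F] (L : LocalData K F k Q y)
    (hcard : Fintype.card Q = Module.finrank K⟮y⟯ F) (v : Place K F) (hv : v ∈ zeroSet K y) :
    ∃ γ : Q, L.pl γ = v := by
  by_contra hne
  push Not at hne
  have hpos : 0 < Fintype.card Q := by rw [hcard]; exact Module.finrank_pos
  obtain ⟨γ₀⟩ : Nonempty Q := Fintype.card_pos_iff.mp hpos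
  have : Nonempty Q := ⟨γ₀⟩
  obtain ⟨f, hf0, -, hf, r, hr⟩ := exists_sep y L.transcendental v hv
  have h1 := norm_eq_prod y L.σ L.σ_inj L.σ_y hcard γ₀ f
  have hprod0 : ∏ γ, L.σ γ f ≠ 0 :=
    Finset.prod_ne_zero_iff.mpr fun γ _ => (map_ne_zero _).mpr hf0
  have hord : ∀ s : Finset Q, (∏ γ ∈ s, L.σ γ f).order = 0 := by
    intro s
    classical
    induction s using Finset.induction_on with
    | empty => simp
    | insert a s ha ih =>
      rw [Finset.prod_insert ha, HahnSeries.order_mul ((map_ne_zero _).mpr hf0)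
        (Finset.prod_ne_zero_iff.mpr fun γ _ => (map_ne_zero _).mpr hf0), ih,
        L.order_eq a hf0, hf _ (L.pl_mem a) (hne a)]
      simp
  rw [hr] at h1
  have hyr : y * Polynomial.aeval y r ≠ 0 := by
    intro h0
    rw [h0, map_zero] at h1
    exact hprod0 h1.symm
  have hr0 : Polynomial.aeval y r ≠ 0 := right_ne_zero_of_mul hyr
  have h2 := congrArg HahnSeries.order h1
  rw [hord, L.order_eq γ₀ hyr, (L.pl γ₀).ord_mul L.y_ne_zero hr0] at h2
  have h3 : 0 < (L.pl γ₀).ord y := L.pl_mem γ₀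
  have h4 := ord_aeval_nonneg (L.pl γ₀) h3.le r
  have hc : (0 : ℤ) < L.c γ₀ := by exact_mod_cast L.c_pos γ₀
  have : 0 < (L.c γ₀ : ℤ) * ((L.pl γ₀).ord y + (L.pl γ₀).ord (Polynomial.aeval y r)) :=
    mul_pos hc (by omega)
  omega

theorem exists_embedding_of_mem_zeroSet {k Q : Type} [Field k] [Algebra K k] [Fintype Q] (y : F)
    [FiniteDimensional K⟮y⟯ F] (L : LocalData K F k Q y)
    (hcard : Fintype.card Q = Module.finrank K⟮y⟯ F) (v : Place K F) (hv : v ∈ zeroSet K y) :
    ∃ (γ : Q) (c : ℕ), 0 < c ∧ ∀ f : F, f ≠ 0 → (L.σ γ f).order = c * v.ord f := by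
  obtain ⟨γ, rfl⟩ := exists_pl_eq y L hcard v hv
  exact ⟨γ, L.c γ, L.c_pos γ, fun f hf => L.order_eq γ hf⟩

theorem card_zeroSet_eq_orbCard {k Q : Type} [Field k] [Algebra K k] [Fintype Q] (y : F)
    [FiniteDimensional K⟮y⟯ F] (L : LocalData K F k Q y)
    (hcard : Fintype.card Q = Module.finrank K⟮y⟯ F) :
    Nat.card (zeroSet K y) = orbCard L.ε := by
  classical
  have hpos : 0 < Fintype.card Q := by rw [hcard]; exact Module.finrank_pos
  obtain ⟨γ₀⟩ : Nonempty Q := Fintype.card_pos_iff.mp hpos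
  have : Nonempty Q := ⟨γ₀⟩
  have htr := L.transcendental
  have hfin := finite_zeroSet y htr
  set Z := hfin.toFinset with hZ
  have hsum := sum_ord_zeroSet y htr
  rw [finsum_mem_eq_finite_toFinset_sum _ hfin, ← hcard] at hsum
  -- fibres of `pl`
  let fib : Place K F → Finset Q := fun v => Finset.univ.filter fun γ => L.pl γ = v
  have hfib : Fintype.card Q = ∑ v ∈ Z, (fib v).card := by
    rw [← Finset.card_univ]
    exact Finset.card_eq_sum_card_fiberwise fun γ _ => hfin.mem_toFinset.mpr (L.pl_mem γ)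
  -- orbits
  let orb : Q → Finset Q := fun γ => (MulAction.orbit (Subgroup.zpowers L.ε) γ).toFinset
  have horb_sub : ∀ γ, orb γ ⊆ fib (L.pl γ) := by
    intro γ x hx
    rw [Set.mem_toFinset] at hx
    obtain ⟨⟨g, m, rfl⟩, rfl⟩ := hx
    rw [Finset.mem_filter]
    exact ⟨Finset.mem_univ _, L.pl_zpow m γ⟩
  have horb_card : ∀ γ, (L.pl γ).ord y ≤ (orb γ).card := by
    intro γ
    have h1 : (orb γ).card = Function.minimalPeriod (L.ε • ·) γ := by
      rw [MulAction.minimalPeriod_eq_card, Set.toFinset_card]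
    have h2 : 0 < (orb γ).card :=
      Finset.card_pos.mpr ⟨γ, by rw [Set.mem_toFinset]; exact MulAction.mem_orbit_self γ⟩
    apply L.ord_le_of_pow_eq γ h2
    rw [h1]
    have := Function.iterate_minimalPeriod (f := (L.ε • ·)) (x := γ)
    rw [smul_iterate] at this
    exact this
  have hle : ∀ v ∈ Z, v.ord y ≤ ((fib v).card : ℤ) := by
    intro v hv
    obtain ⟨γ, rfl⟩ := exists_pl_eq y L hcard v (hfin.mem_toFinset.mp hv)
    exact (horb_card γ).trans (by exact_mod_cast Finset.card_le_card (horb_sub γ))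
  have heq : ∀ v ∈ Z, v.ord y = ((fib v).card : ℤ) := by
    apply (Finset.sum_eq_sum_iff_of_le hle).mp
    rw [hsum, hfib]
    push_cast
    rfl
  have horb_eq : ∀ γ, orb γ = fib (L.pl γ) := by
    intro γ
    apply Finset.eq_of_subset_of_card_le (horb_sub γ)
    have h1 := heq (L.pl γ) (hfin.mem_toFinset.mpr (L.pl_mem γ))
    have h2 := horb_card γ
    rw [h1] at h2
    exact_mod_cast h2
  -- the bijection
  let Φ : MulAction.orbitRel.Quotient (Subgroup.zpowers L.ε) Q → zeroSet K y :=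
    Quotient.lift (fun γ => (⟨L.pl γ, L.pl_mem γ⟩ : zeroSet K y)) (by
      intro a b hab
      have hab' : a ∈ MulAction.orbit (Subgroup.zpowers L.ε) b := hab
      obtain ⟨⟨g, m, rfl⟩, rfl⟩ := hab'
      apply Subtype.ext
      exact L.pl_zpow m b)
  have hΦ : Function.Bijective Φ := by
    constructor
    · intro a b hab
      induction a using Quotient.inductionOn with
      | h a =>
      induction b using Quotient.inductionOn with
      | h b =>
      have h1 : L.pl a = L.pl b := congrArg Subtype.val hab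
      apply Quotient.sound
      show a ∈ MulAction.orbit (Subgroup.zpowers L.ε) b
      have h2 : a ∈ fib (L.pl b) := Finset.mem_filter.mpr ⟨Finset.mem_univ _, h1⟩
      rw [← horb_eq, Set.mem_toFinset] at h2
      exact h2
    · rintro ⟨v, hv⟩
      obtain ⟨γ, rfl⟩ := exists_pl_eq y L hcard v hv
      exact ⟨Quotient.mk _ γ, rfl⟩
  exact (Nat.card_eq_of_bijective Φ hΦ).symm

end main

end Fermat.Agent.S24
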