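import Mathlib

set_option autoImplicit false

/-! # S24 M0: the rotation `u ↦ ζ u` on Laurent series -/

namespace Fermat.Agent.S24

/-- underlying function of `rotHom`. -/
noncomputable def rotFun {k : Type} [Field k] (ζ : k) (f : LaurentSeries k) : LaurentSeries k where
  coeff n := ζ ^ n * f.coeff n
  isPWO_support' := f.isPWO_support.mono (by
    intro n hn
    simp only [Function.mem_support, ne_eq, mul_eq_zero, not_or] at hn
    exact hn.2)

@[simp] theorem rotFun_coeff {k : Type} [Field k] (ζ : k) (f : LaurentSeries k) (n : ℤ) :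
    (rotFun ζ f).coeff n = ζ ^ n * f.coeff n := rfl

theorem rotFun_support_subset {k : Type} [Field k] (ζ : k) (f : LaurentSeries k) :
    (rotFun ζ f).support ⊆ f.support := by
  intro n hn
  simp only [HahnSeries.mem_support, rotFun_coeff, ne_eq, mul_eq_zero, not_or] at hn
  exact hn.2

/-- `u ↦ ζ u` on Laurent series -/
noncomputable def rotHom {k : Type} [Field k] (ζ : k) (hζ : ζ ≠ 0) :
    LaurentSeries k →ₐ[k] LaurentSeries k where
  toFun := rotFun ζ
  map_one' := by
    ext n
    rw [rotFun_coeff, HahnSeries.coeff_one]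
    split_ifs with h
    · simp [h]
    · simp
  map_zero' := by
    ext n
    simp
  map_add' f g := by
    ext n
    simp [mul_add]
  map_mul' f g := by
    ext n
    rw [rotFun_coeff, HahnSeries.coeff_mul, HahnSeries.coeff_mul, Finset.mul_sum]
    refine Finset.sum_congr ?_ fun ij hij => ?_
    · ext ij
      simp [Finset.mem_antidiagonal, zpow_ne_zero _ hζ]
    · have h := (Finset.mem_antidiagonal.mp hij).2.2
      rw [rotFun_coeff, rotFun_coeff, ← h, zpow_add₀ hζ]
      ring
  commutes' c := by
    have h1 : algebraMap k (PowerSeries k) c = PowerSeries.C c := by simp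
    have h2 : algebraMap k (LaurentSeries k) c = HahnSeries.single 0 c := by
      rw [HahnSeries.algebraMap_apply', h1, HahnSeries.ofPowerSeries_C]
      rfl
    ext n
    rw [rotFun_coeff, h2, HahnSeries.coeff_single]
    split_ifs with h
    · simp [h]
    · simp

theorem rotHom_coeff {k : Type} [Field k] (ζ : k) (hζ : ζ ≠ 0) (f : LaurentSeries k) (n : ℤ) :
    (rotHom ζ hζ f).coeff n = ζ ^ n * f.coeff n := rfl

end Fermat.Agent.S24
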