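import Mathlib
import Fermat.Agent.S24.Rot
import Fermat.Agent.S24.Mer
import Fermat.Agent.S24.MerTri
import Fermat.Agent.S24.JqExp
import Fermat.Agent.S24.Cosets
import Fermat.Agent.S24.Engine
import Fermat.Agent.S24.Tay
import Fermat.Agent.S24.JOrder
import Fermat.Agent.S24.Euler
import Fermat.Agent.S21.Cocycle
import Fermat.Agent.S20.Traces

set_option autoImplicit false
set_option linter.style.haveILetI false

/-! # S24 M9: the local uniformisation data -/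

namespace Fermat.Agent.S24

open UpperHalfPlane ModularForm EisensteinSeries Matrix.SpecialLinearGroup AlgebraicCurve
open IntermediateField
open scoped MatrixGroups ModularForm Manifold
open Fermat.Agent.S20 (Quo sl rho)
open Fermat.Agent.S21 (rep mk_rep coc_mem)

variable (N : ℕ) [NeZero N]

/-- `rotHom` after a `Kb`-embedding. -/
noncomputable def rotComp (ζ : ℂ) (hζ : ζ ≠ 0) (σ : FN N →ₐ[Kb] LaurentSeries ℂ) :
    FN N →ₐ[Kb] LaurentSeries ℂ where
  toRingHom := (rotHom ζ hζ).toRingHom.comp σ.toRingHom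
  commutes' c := by
    change rotHom ζ hζ (σ (algebraMap Kb (FN N) c)) = _
    rw [σ.commutes, algebraMap_laurent_eq_C]
    have : HahnSeries.C (algebraMap Kb ℂ c) = algebraMap ℂ (LaurentSeries ℂ) (algebraMap Kb ℂ c) := by
      rw [algebraMap_laurent_eq_C]; rfl
    rw [this, (rotHom ζ hζ).commutes]

omit [NeZero N] in
theorem rotComp_apply (ζ : ℂ) (hζ : ζ ≠ 0) (σ : FN N →ₐ[Kb] LaurentSeries ℂ) (f : FN N) :
    rotComp N ζ hζ σ f = rotHom ζ hζ (σ f) := rfl

theorem exists_localData_of (A : Subalgebra ℂ (ℍ → ℂ)) (hA : ∀ d γ, jdg N d γ ∈ A)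
    (E : A →ₐ[ℂ] LaurentSeries ℂ) (hE : Function.Injective E) (g : SL(2, ℤ)) (ζ : ℂ) (e : ℕ)
    (he : 0 < e) (hζ : IsPrimitiveRoot ζ e)
    (hrot : ∀ d γ n, (E ⟨jdg N d (γ * g⁻¹), hA d _⟩).coeff n =
      ζ ^ n * (E ⟨jdg N d γ, hA d γ⟩).coeff n)
    (y : FN N) (Y : LaurentSeries ℂ) (hYord : Y.order = e)
    (hY : ∀ σ : FN N →ₐ[Kb] LaurentSeries ℂ,
      σ (jF N) = E ⟨jdg N ⟨1, one_dvd N⟩ 1, hA _ _⟩ → σ y = Y) :
    ∃ L : LocalData Kb (FN N) ℂ (Quo N) y, L.ε = MulAction.toPerm (sl g) := by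
  have hζ0 : ζ ≠ 0 := hζ.ne_zero he.ne'
  choose σ hσ using fun q : Quo N => exists_sigma N (rep q)⁻¹ A (fun d => hA d _) E hE
  have hjF : ∀ q, σ q (jF N) = E ⟨jdg N ⟨1, one_dvd N⟩ 1, hA _ _⟩ := by
    intro q
    refine (hσ q ⟨1, one_dvd N⟩).trans (congrArg E (Subtype.ext ?_))
    change jdg N ⟨1, one_dvd N⟩ (rep q)⁻¹ = jdg N ⟨1, one_dvd N⟩ 1
    rw [jdg_one_dv, jdg_one_dv]
  refine ⟨{ σ := σ, σ_inj := ?_, e := e, e_pos := he, ζ := ζ, hζ := hζ,
            ε := MulAction.toPerm (sl g), σ_y := ?_, order_y := ?_, rot := ?_ }, rfl⟩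
  · intro q q' hqq
    have h1 : ∀ d, jdg N d (rep q)⁻¹ = jdg N d (rep q')⁻¹ := by
      intro d
      have h2 := hσ q d
      rw [hqq, hσ q' d] at h2
      exact (congrArg Subtype.val (hE h2)).symm
    have h3 := mem_Gamma0_of_jdg_eq N _ _ h1
    rw [inv_inv] at h3
    rw [← mk_rep q, ← mk_rep q', Fermat.Agent.S20.mk_eq_mk_iff]
    exact h3
  · intro q q'
    rw [hY _ (hjF q), hY _ (hjF q')]
  · intro q
    rw [hY _ (hjF q), hYord]
  · intro q f n
    have key : σ (MulAction.toPerm (sl g) q) = rotComp N ζ hζ0 (σ q) := by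
      apply FN_algHom_ext
      intro d
      have h1 : (rep (sl g • q))⁻¹ = ((rep (sl g • q))⁻¹ * g * rep q) * ((rep q)⁻¹ * g⁻¹) := by
        group
      have h2 : jdg N d (rep (sl g • q))⁻¹ = jdg N d ((rep q)⁻¹ * g⁻¹) := by
        rw [h1, jdg_Gamma0_mul N d _ _ (coc_mem g q)]
      have h3 : σ (MulAction.toPerm (sl g) q) (Jd N d) = E ⟨jdg N d ((rep q)⁻¹ * g⁻¹), hA d _⟩ :=
        (hσ (MulAction.toPerm (sl g) q) d).trans (congrArg E (Subtype.ext h2))
      rw [h3, rotComp_apply, hσ q d]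
      ext m
      rw [rotHom_coeff, ← hrot]
    rw [key, rotComp_apply, rotHom_coeff]

/-! ## the cusp -/

theorem jdg_one_one_eq : jdg N ⟨1, one_dvd N⟩ 1 =
    fun z : ℍ => jfun (S22.tri 1 1 0 one_ne_zero one_ne_zero • z) := by
  funext z
  rw [jdg, one_smul]

theorem expInf_jdg_one_coeff_mul (n : ℤ) :
    (expInf N ⟨jdg N ⟨1, one_dvd N⟩ 1, jdg_mem_Mer N _ 1⟩).coeff ((N : ℤ) * n) =
      algebraMap ℚ ℂ (ModularCurve.jq.coeff n) := by
  have h := expInf_comp_tri_coeff_mul N 1 1 0 one_ne_zero one_ne_zero (one_dvd N)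
    ⟨jfun, jfun_mem_Mer⟩ n
  rw [expInf_jfun, ModularCurve.coeffEmb_coeff] at h
  simp only [Nat.div_one, one_mul, Int.cast_zero, mul_zero, zero_div, Complex.exp_zero,
    one_zpow] at h
  have e : (⟨jdg N ⟨1, one_dvd N⟩ 1, jdg_mem_Mer N _ 1⟩ : Mer N) =
      ⟨_, comp_tri_mem_Mer N 1 1 0 one_ne_zero one_ne_zero (one_dvd N) ⟨jfun, jfun_mem_Mer⟩⟩ :=
    Subtype.ext (jdg_one_one_eq N)
  rw [e]
  exact h

theorem expInf_jdg_one_coeff_of_not_dvd (m : ℤ) (hm : ¬ (N : ℤ) ∣ m) :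
    (expInf N ⟨jdg N ⟨1, one_dvd N⟩ 1, jdg_mem_Mer N _ 1⟩).coeff m = 0 := by
  have h := expInf_comp_tri_coeff_of_not_dvd N 1 1 0 one_ne_zero one_ne_zero (one_dvd N)
    ⟨jfun, jfun_mem_Mer⟩ m (by simpa using hm)
  have e : (⟨jdg N ⟨1, one_dvd N⟩ 1, jdg_mem_Mer N _ 1⟩ : Mer N) =
      ⟨_, comp_tri_mem_Mer N 1 1 0 one_ne_zero one_ne_zero (one_dvd N) ⟨jfun, jfun_mem_Mer⟩⟩ :=
    Subtype.ext (jdg_one_one_eq N)
  rw [e]
  exact h

theorem order_expInf_jdg_one :
    (expInf N ⟨jdg N ⟨1, one_dvd N⟩ 1, jdg_mem_Mer N _ 1⟩).order = -(N : ℤ) := by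
  set G := expInf N ⟨jdg N ⟨1, one_dvd N⟩ 1, jdg_mem_Mer N _ 1⟩ with hG
  have hN : (0 : ℤ) < N := by exact_mod_cast Nat.pos_of_ne_zero (NeZero.ne N)
  have h1 : G.coeff (-(N : ℤ)) ≠ 0 := by
    have := expInf_jdg_one_coeff_mul N (-1)
    rw [ModularCurve.coeff_jq_neg_one, map_one, mul_neg_one] at this
    rw [hG, this]
    exact one_ne_zero
  have h0 : G ≠ 0 := by
    intro h
    rw [h] at h1
    simp at h1
  apply le_antisymm (HahnSeries.order_le_of_coeff_ne_zero h1)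
  rw [HahnSeries.le_order_iff_forall h0]
  intro m hm
  by_cases hd : (N : ℤ) ∣ m
  · obtain ⟨n, rfl⟩ := hd
    have hn : n < -1 := by nlinarith
    rw [hG, expInf_jdg_one_coeff_mul, ModularCurve.coeff_jq_of_lt hn, map_zero]
  · exact expInf_jdg_one_coeff_of_not_dvd N m hd

theorem order_inv_laurent (x : LaurentSeries ℂ) : x⁻¹.order = - x.order := by
  by_cases hx : x = 0
  · simp [hx]
  · have h := HahnSeries.order_mul hx (inv_ne_zero hx)
    rw [mul_inv_cancel₀ hx, HahnSeries.order_one] at h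
    omega

theorem exists_localData_inf (N : ℕ) [NeZero N] :
    ∃ L : LocalData Kb (FN N) ℂ (Quo N) (jF N)⁻¹,
      L.ε = MulAction.toPerm (sl ModularGroup.T) := by
  have hN0 : N ≠ 0 := NeZero.ne N
  refine exists_localData_of N (Mer N) (fun d γ => jdg_mem_Mer N d γ) (expInf N)
    (expInf_injective N) ModularGroup.T
    (Complex.exp (2 * Real.pi * Complex.I * ((-1 : ℤ) : ℂ) / N)) N (Nat.pos_of_ne_zero hN0) ?_ ?_
    (jF N)⁻¹ (expInf N ⟨jdg N ⟨1, one_dvd N⟩ 1, jdg_mem_Mer N _ 1⟩)⁻¹ ?_ ?_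
  · have h := (Complex.isPrimitiveRoot_exp N hN0).inv
    rw [← Complex.exp_neg] at h
    have e : 2 * (Real.pi : ℂ) * Complex.I * ((-1 : ℤ) : ℂ) / N =
        -(2 * (Real.pi : ℂ) * Complex.I / N) := by
      push_cast
      ring
    rw [e]
    exact h
  · intro d γ n
    have e : (⟨jdg N d (γ * ModularGroup.T⁻¹), jdg_mem_Mer N d _⟩ : Mer N) =
        ⟨_, vadd_mem_Mer N ⟨jdg N d γ, jdg_mem_Mer N d γ⟩ (-1)⟩ := by
      apply Subtype.ext
      funext z
      change jdg N d (γ * ModularGroup.T⁻¹) z = jdg N d γ ((((-1 : ℤ) : ℝ)) +ᵥ z)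
      rw [jdg_mul, ← zpow_neg_one, UpperHalfPlane.modular_T_zpow_smul]
    rw [e]
    exact expInf_vadd_coeff N ⟨jdg N d γ, jdg_mem_Mer N d γ⟩ (-1) n
  · rw [order_inv_laurent, order_expInf_jdg_one, neg_neg]
  · intro σ hσ
    rw [map_inv₀, hσ]

/-! ## interior points -/

/-- power series as Laurent series. -/
noncomputable def psToLaurent : PowerSeries ℂ →ₐ[ℂ] LaurentSeries ℂ where
  toRingHom := HahnSeries.ofPowerSeries ℤ ℂ
  commutes' c := by
    rw [HahnSeries.algebraMap_apply']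
    rfl

theorem psToLaurent_apply (p : PowerSeries ℂ) : psToLaurent p = HahnSeries.ofPowerSeries ℤ ℂ p := rfl

theorem psToLaurent_injective : Function.Injective psToLaurent :=
  HahnSeries.ofPowerSeries_injective

theorem psToLaurent_coeff_nat (p : PowerSeries ℂ) (n : ℕ) :
    (psToLaurent p).coeff (n : ℤ) = PowerSeries.coeff n p := by
  rw [psToLaurent_apply, HahnSeries.ofPowerSeries_apply_coeff]

theorem psToLaurent_coeff_neg (p : PowerSeries ℂ) {n : ℤ} (hn : n < 0) :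
    (psToLaurent p).coeff n = 0 :=
  ModularCurve.ofPowerSeries_coeff_of_neg p hn

theorem order_psToLaurent (p : PowerSeries ℂ) (e : ℕ) (hp : p.order = e) :
    (psToLaurent p).order = e := by
  have hp0 : p ≠ 0 := by
    rintro rfl
    rw [PowerSeries.order_zero] at hp
    exact ENat.top_ne_natCast e hp
  have h1 : (psToLaurent p).coeff (e : ℤ) ≠ 0 := by
    rw [psToLaurent_coeff_nat]
    have := PowerSeries.coeff_order hp0
    rwa [hp, ENat.toNat_natCast] at this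
  have h0 : psToLaurent p ≠ 0 := by
    intro h
    rw [h] at h1
    simp at h1
  apply le_antisymm (HahnSeries.order_le_of_coeff_ne_zero h1)
  rw [HahnSeries.le_order_iff_forall h0]
  intro m hm
  rcases lt_or_ge m 0 with hneg | hpos
  · exact psToLaurent_coeff_neg p hneg
  · lift m to ℕ using hpos
    rw [psToLaurent_coeff_nat]
    apply PowerSeries.coeff_of_lt_order
    rw [hp]
    exact_mod_cast hm

theorem exists_localData_interior (τ₀ : ℍ) (g : SL(2, ℤ)) (hg : g • τ₀ = τ₀) (a : Kb) (e : ℕ)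
    (he : 0 < e) (ζ : ℂ) (hζdef : (denom (g⁻¹ : SL(2, ℤ)) τ₀) ^ (-2 : ℤ) = ζ)
    (hζ : IsPrimitiveRoot ζ e)
    (hord : (tayAt τ₀ ⟨_, jfun_sub_mem_Hol (iota a)⟩).order = e) :
    ∃ L : LocalData Kb (FN N) ℂ (Quo N) (jF N - algebraMap Kb (FN N) a),
      L.ε = MulAction.toPerm (sl g) := by
  have hg' : g⁻¹ • τ₀ = τ₀ := by
    rw [inv_smul_eq_iff, hg]
  have hA : ∀ d γ, jdg N d γ ∈ Hol := fun d γ => mem_Hol.mpr (jdg_mdiff N d γ)
  refine exists_localData_of N Hol hA (psToLaurent.comp (tayAt τ₀))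
    (psToLaurent_injective.comp (tayAt_injective τ₀)) g ζ e he hζ ?_
    (jF N - algebraMap Kb (FN N) a) (psToLaurent (tayAt τ₀ ⟨_, jfun_sub_mem_Hol (iota a)⟩))
    (order_psToLaurent _ e hord) ?_
  · intro d γ n
    have e1 : (⟨jdg N d (γ * g⁻¹), hA d _⟩ : Hol) =
        ⟨_, comp_smul_mem_Hol ⟨jdg N d γ, hA d γ⟩ g⁻¹⟩ := by
      apply Subtype.ext
      funext z
      exact jdg_mul N d γ g⁻¹ z
    rw [e1]
    change (psToLaurent (tayAt τ₀ _)).coeff n = ζ ^ n * (psToLaurent (tayAt τ₀ _)).coeff n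
    rcases lt_or_ge n 0 with hneg | hpos
    · rw [psToLaurent_coeff_neg _ hneg, psToLaurent_coeff_neg _ hneg, mul_zero]
    · lift n to ℕ using hpos
      rw [psToLaurent_coeff_nat, psToLaurent_coeff_nat, tayAt_comp_smul_coeff τ₀ g⁻¹ hg', hζdef,
        zpow_natCast]
  · intro σ hσ
    rw [map_sub, hσ, σ.commutes]
    have e2 : (⟨_, jfun_sub_mem_Hol (iota a)⟩ : Hol) =
        ⟨jdg N ⟨1, one_dvd N⟩ 1, hA _ _⟩ - algebraMap ℂ Hol (iota a) := by
      apply Subtype.ext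
      funext z
      change jfun z - iota a = jdg N ⟨1, one_dvd N⟩ 1 z - iota a
      rw [jdg_one_dv]
    rw [e2, map_sub, map_sub, AlgHom.commutes, AlgHom.commutes, algebraMap_laurent_eq_C,
      algebraMap_laurent_eq_C]
    rfl

theorem denom_inv_eq (g : SL(2, ℤ)) (z : ℍ) :
    denom (g⁻¹ : SL(2, ℤ)) z = -((g 1 0 : ℤ) : ℂ) * z + ((g 0 0 : ℤ) : ℂ) := by
  simp only [denom]
  simp [-map_inv, Matrix.adjugate_fin_two]

theorem exists_localData_generic (N : ℕ) [NeZero N] (a : Kb) (h0 : a ≠ 0) (h1 : a ≠ 1728) :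
    ∃ L : LocalData Kb (FN N) ℂ (Quo N) (jF N - algebraMap Kb (FN N) a), L.ε = 1 := by
  obtain ⟨τ₀, hτ⟩ := exists_jfun_eq (iota a)
  have hord : (tayAt τ₀ ⟨_, jfun_sub_mem_Hol (iota a)⟩).order = ((1 : ℕ) : ℕ∞) := by
    have h := order_tayAt_generic τ₀
      (by rw [hτ]; intro h; exact h0 (iota.injective (h.trans (map_zero iota).symm)))
      (by rw [hτ]; intro h; exact h1 (iota.injective (h.trans (map_ofNat iota 1728).symm)))
    have e : (⟨_, jfun_sub_mem_Hol (iota a)⟩ : Hol) = ⟨_, jfun_sub_mem_Hol (jfun τ₀)⟩ := by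
      apply Subtype.ext
      funext z
      change jfun z - iota a = jfun z - jfun τ₀
      rw [hτ]
    rw [e, h]
    rfl
  obtain ⟨L, hL⟩ := exists_localData_interior N τ₀ 1 (one_smul _ _) a 1 one_pos 1
    (by rw [denom_inv_eq]; simp) IsPrimitiveRoot.one hord
  refine ⟨L, ?_⟩
  rw [hL, Fermat.Agent.S20.sl_one]
  ext q
  simp

theorem exists_localData_1728 (N : ℕ) [NeZero N] :
    ∃ L : LocalData Kb (FN N) ℂ (Quo N) (jF N - algebraMap Kb (FN N) 1728),
      L.ε = MulAction.toPerm (sl ModularGroup.S) := by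
  have hord : (tayAt I ⟨_, jfun_sub_mem_Hol (iota 1728)⟩).order = ((2 : ℕ) : ℕ∞) := by
    have e : (⟨_, jfun_sub_mem_Hol (iota 1728)⟩ : Hol) = ⟨_, jfun_sub_mem_Hol 1728⟩ := by
      apply Subtype.ext
      funext z
      change jfun z - iota 1728 = jfun z - 1728
      rw [map_ofNat]
    rw [e, order_tayAt_I]
    rfl
  refine exists_localData_interior N I ModularGroup.S Fermat.Agent.S20.S_smul_I 1728 2 two_pos (-1)
    ?_ ?_ hord
  · rw [denom_inv_eq]
    simp [ModularGroup.coe_S, zpow_neg]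
  · exact IsPrimitiveRoot.neg_one 0 (by norm_num)

theorem isPrimitiveRoot_rho : IsPrimitiveRoot (rho : ℂ) 3 := by
  have h2 := Fermat.Agent.S20.rho_sq
  refine IsPrimitiveRoot.mk_of_lt _ (by norm_num) (by linear_combination ((rho : ℂ) - 1) * h2) ?_
  intro l hl hl3 h
  interval_cases l
  · rw [pow_one] at h
    rw [h] at h2
    norm_num at h2
  · have h3 : (rho : ℂ) = -2 := by linear_combination h2 - h
    rw [h3] at h2
    norm_num at h2

theorem exists_localData_zero (N : ℕ) [NeZero N] :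
    ∃ L : LocalData Kb (FN N) ℂ (Quo N) (jF N - algebraMap Kb (FN N) 0),
      L.ε = MulAction.toPerm (sl (ModularGroup.S * ModularGroup.T)) := by
  have hord : (tayAt rho ⟨_, jfun_sub_mem_Hol (iota 0)⟩).order = ((3 : ℕ) : ℕ∞) := by
    have e : (⟨_, jfun_sub_mem_Hol (iota 0)⟩ : Hol) = ⟨_, jfun_sub_mem_Hol 0⟩ := by
      apply Subtype.ext
      funext z
      change jfun z - iota 0 = jfun z - 0
      rw [map_zero]
    rw [e, order_tayAt_rho]
    rfl
  refine exists_localData_interior N rho (ModularGroup.S * ModularGroup.T)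
    Fermat.Agent.S20.ST_smul_rho 0 3 (by norm_num) (rho : ℂ) ?_ isPrimitiveRoot_rho hord
  have h00 : (ModularGroup.S * ModularGroup.T : SL(2, ℤ)) 0 0 = 0 := by
    rw [Fermat.Agent.S20.coe_ST]; rfl
  have h10 : (ModularGroup.S * ModularGroup.T : SL(2, ℤ)) 1 0 = 1 := by
    rw [Fermat.Agent.S20.coe_ST]; rfl
  have h2 := Fermat.Agent.S20.rho_sq
  have hne : (rho : ℂ) ≠ 0 := isPrimitiveRoot_rho.ne_zero (by norm_num)
  rw [denom_inv_eq, h00, h10]
  push_cast
  rw [zpow_neg, add_zero, neg_one_mul, inv_eq_iff_eq_inv]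
  symm
  apply inv_eq_of_mul_eq_one_left
  rw [show ((2 : ℤ)) = ((2 : ℕ) : ℤ) by norm_num, zpow_natCast]
  linear_combination ((rho : ℂ) - 1) * h2

end Fermat.Agent.S24
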