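import Mathlib
import Fermat.Agent.S24.Defs
import Fermat.Agent.S20.CardQuo
import Fermat.Agent.S20.Fixed
import Fermat.Agent.S20.Cusps

set_option autoImplicit false

/-! # S24 (M10): numbers of orbits of `T`, `S`, `ST` on the coset space -/

namespace Fermat.Agent.S24

open Matrix.SpecialLinearGroup
open scoped MatrixGroups
open Fermat.Agent.S20 (Quo sl)

theorem orbCard_one {Q : Type} [Fintype Q] : orbCard (1 : Equiv.Perm Q) = Fintype.card Q := by
  unfold orbCard
  rw [← Nat.card_eq_fintype_card]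
  refine (Nat.card_congr (Equiv.ofBijective
    (fun q : Q => (Quotient.mk'' q :
      MulAction.orbitRel.Quotient (Subgroup.zpowers (1 : Equiv.Perm Q)) Q)) ⟨?_, ?_⟩)).symm
  · intro a b hab
    have h1 : (MulAction.orbitRel (Subgroup.zpowers (1 : Equiv.Perm Q)) Q) a b := Quotient.exact hab
    rw [MulAction.orbitRel_apply, MulAction.mem_orbit_iff] at h1
    obtain ⟨⟨g, hg⟩, hgb⟩ := h1
    rw [Subgroup.zpowers_one_eq_bot, Subgroup.mem_bot] at hg
    subst hg
    exact hgb.symm
  · intro x
    induction x using Quotient.inductionOn' with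
    | h a => exact ⟨a, rfl⟩

theorem orbCard_toPerm {G Q : Type} [Group G] [MulAction G Q] (g : G) :
    orbCard (MulAction.toPerm g : Equiv.Perm Q) =
      Nat.card (MulAction.orbitRel.Quotient (Subgroup.zpowers g) Q) := by
  have hs : MulAction.orbitRel (Subgroup.zpowers (MulAction.toPerm g : Equiv.Perm Q)) Q =
      MulAction.orbitRel (Subgroup.zpowers g) Q := by
    ext a b
    rw [MulAction.orbitRel_apply, MulAction.orbitRel_apply, MulAction.mem_orbit_iff,
      MulAction.mem_orbit_iff]
    have hpow : ∀ k : ℤ, (MulAction.toPerm g : Equiv.Perm Q) ^ k = MulAction.toPerm (g ^ k) :=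
      fun k => (map_zpow (MulAction.toPermHom G Q) g k).symm
    constructor
    · rintro ⟨⟨x, k, rfl⟩, hx⟩
      refine ⟨⟨g ^ k, k, rfl⟩, ?_⟩
      have hx' : ((MulAction.toPerm g : Equiv.Perm Q) ^ k) b = a := hx
      rw [hpow] at hx'
      exact hx'
    · rintro ⟨⟨x, k, rfl⟩, hx⟩
      refine ⟨⟨(MulAction.toPerm g : Equiv.Perm Q) ^ k, k, rfl⟩, ?_⟩
      show ((MulAction.toPerm g : Equiv.Perm Q) ^ k) b = a
      rw [hpow]
      exact hx
  unfold orbCard MulAction.orbitRel.Quotient
  rw [hs]

theorem mul_orbCard_of_pow_prime {Q : Type} [Fintype Q] (ε : Equiv.Perm Q) (p : ℕ) (hp : p.Prime)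
    (h : ε ^ p = 1) :
    p * orbCard ε = Fintype.card Q + (p - 1) * Nat.card {q : Q // ε q = q} := by
  classical
  obtain ⟨m, rfl⟩ : ∃ m, p = m + 1 := ⟨p - 1, by have := hp.pos; omega⟩
  rw [Nat.add_sub_cancel]
  by_cases h1 : ε = 1
  · subst h1
    rw [orbCard_one]
    have : Nat.card {q : Q // (1 : Equiv.Perm Q) q = q} = Fintype.card Q := by
      rw [← Nat.card_eq_fintype_card]
      exact Nat.card_congr (Equiv.subtypeUnivEquiv (fun q => rfl))
    rw [this]; ring
  · have : Fact (m + 1).Prime := ⟨hp⟩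
    have hord : orderOf ε = m + 1 := orderOf_eq_prime h h1
    have hcard : Nat.card (Subgroup.zpowers ε) = m + 1 := by rw [Nat.card_zpowers, hord]
    have hB := MulAction.sum_card_fixedBy_eq_card_orbits_mul_card_group (Subgroup.zpowers ε) Q
    rw [← Nat.card_eq_fintype_card (α := Subgroup.zpowers ε), hcard,
      ← Nat.card_eq_fintype_card (α := Quotient (MulAction.orbitRel (Subgroup.zpowers ε) Q))] at hB
    have hfix : ∀ g : Subgroup.zpowers ε, g ≠ 1 →
        Fintype.card (MulAction.fixedBy Q g) = Nat.card {q : Q // ε q = q} := by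
      intro g hg
      rw [← Nat.card_eq_fintype_card]
      refine Nat.card_congr (Equiv.subtypeEquivRight (fun q => ?_))
      rw [MulAction.mem_fixedBy]
      constructor
      · intro hq
        obtain ⟨k, hk⟩ := mem_zpowers_of_prime_card hcard hg (g' := ⟨ε, Subgroup.mem_zpowers ε⟩)
        have h3 : (g ^ k) • q = q := by
          have : q ∈ MulAction.fixedBy Q g := hq
          exact (MulAction.zpow_smul_eq_iff_period_dvd).mpr
            (by rw [MulAction.period_eq_one_iff.mpr hq]; exact one_dvd _)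
        simp only at hk
        rw [hk] at h3
        exact h3
      · intro hq
        obtain ⟨g, k, rfl⟩ := g
        show (ε ^ k) q = q
        exact (MulAction.zpow_smul_eq_iff_period_dvd (a := q) (g := ε)).mpr
            (by rw [MulAction.period_eq_one_iff.mpr hq]; exact one_dvd _)
    have hone : Fintype.card (MulAction.fixedBy Q (1 : Subgroup.zpowers ε)) = Fintype.card Q := by
      rw [← Nat.card_eq_fintype_card, ← Nat.card_eq_fintype_card]
      exact Nat.card_congr (Equiv.subtypeUnivEquiv (fun q => by simp))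
    rw [← Finset.add_sum_erase _ _ (Finset.mem_univ (1 : Subgroup.zpowers ε)), hone,
      Finset.sum_congr rfl (fun g hg => hfix g (Finset.ne_of_mem_erase hg)), Finset.sum_const,
      Finset.card_erase_of_mem (Finset.mem_univ _), Finset.card_univ,
      ← Nat.card_eq_fintype_card (α := Subgroup.zpowers ε), hcard, Nat.add_sub_cancel,
      smul_eq_mul] at hB
    rw [hB, mul_comm]
    rfl

theorem orbCard_T (N : ℕ) [NeZero N] :
    orbCard (MulAction.toPerm (sl ModularGroup.T) : Equiv.Perm (Quo N)) =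
      ModularCurve.cuspCount N :=
  (orbCard_toPerm _).trans (Fermat.Agent.S20.card_orbits_T N)

theorem neg_one_smul_quo (N : ℕ) (q : Quo N) : sl (-1) • q = q := by
  obtain ⟨δ, rfl⟩ := Fermat.Agent.S20.exists_mk_sl q
  rw [Fermat.Agent.S20.pr_sl_smul_mk, Fermat.Agent.S20.mk_sl_eq_iff_dvd]
  simp

theorem toPerm_S_sq (N : ℕ) :
    (MulAction.toPerm (sl ModularGroup.S) : Equiv.Perm (Quo N)) ^ 2 = 1 := by
  ext q
  rw [sq, Equiv.Perm.mul_apply, MulAction.toPerm_apply, MulAction.toPerm_apply, smul_smul,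
    ← Fermat.Agent.S20.sl_mul, Equiv.Perm.one_apply]
  have : ModularGroup.S * ModularGroup.S = -1 := by
    ext i j
    rw [coe_mul, ModularGroup.coe_S, coe_neg, coe_one]
    fin_cases i <;> fin_cases j <;> simp [Matrix.mul_apply, Fin.sum_univ_two]
  rw [this, neg_one_smul_quo]

theorem toPerm_ST_cube (N : ℕ) :
    (MulAction.toPerm (sl (ModularGroup.S * ModularGroup.T)) : Equiv.Perm (Quo N)) ^ 3 = 1 := by
  ext q
  rw [pow_succ, sq, Equiv.Perm.mul_apply, Equiv.Perm.mul_apply]
  simp only [MulAction.toPerm_apply]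
  rw [smul_smul, smul_smul, ← Fermat.Agent.S20.sl_mul, ← Fermat.Agent.S20.sl_mul,
    Equiv.Perm.one_apply]
  have : ModularGroup.S * ModularGroup.T * (ModularGroup.S * ModularGroup.T) *
      (ModularGroup.S * ModularGroup.T) = -1 := by
    ext i j
    rw [coe_mul, coe_mul, coe_mul, ModularGroup.coe_S, ModularGroup.coe_T, coe_neg, coe_one]
    fin_cases i <;> fin_cases j <;> simp [Matrix.mul_apply, Fin.sum_univ_two]
  rw [this, neg_one_smul_quo]

theorem two_mul_orbCard_S (N : ℕ) [NeZero N] :
    2 * orbCard (MulAction.toPerm (sl ModularGroup.S) : Equiv.Perm (Quo N)) =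
      ModularCurve.dedekindPsi N + ModularCurve.nuTwo N := by
  let _ : Fintype (Quo N) := Fintype.ofFinite _
  rw [mul_orbCard_of_pow_prime _ 2 Nat.prime_two (toPerm_S_sq N), ← Nat.card_eq_fintype_card,
    Fermat.Agent.S20.card_quo]
  have := Fermat.Agent.S20.card_fixed_S N
  simp only [MulAction.toPerm_apply]
  rw [this]
  ring

theorem three_mul_orbCard_ST (N : ℕ) [NeZero N] :
    3 * orbCard (MulAction.toPerm (sl (ModularGroup.S * ModularGroup.T)) : Equiv.Perm (Quo N)) =
      ModularCurve.dedekindPsi N + 2 * ModularCurve.nuThree N := by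
  let _ : Fintype (Quo N) := Fintype.ofFinite _
  rw [mul_orbCard_of_pow_prime _ 3 Nat.prime_three (toPerm_ST_cube N), ← Nat.card_eq_fintype_card,
    Fermat.Agent.S20.card_quo]
  have := Fermat.Agent.S20.card_fixed_ST N
  simp only [MulAction.toPerm_apply]
  rw [this]

end Fermat.Agent.S24
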