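import Mathlib
import Fermat.Agent.S24.Defs
import Fermat.Agent.S24.Euler

set_option autoImplicit false
set_option linter.style.haveILetI false

/-! # S24 A6: Kaehler differentials of a function field via the Euler derivation -/

namespace Fermat.Agent.S24

open AlgebraicCurve IntermediateField KaehlerDifferential

variable {K F : Type} [Field K] [Field F] [Algebra K F]

/-- a derivation killing `x` kills `K(x)`. -/
theorem derivation_eq_zero_on_adjoin {M : Type} [AddCommGroup M] [Module K M] [Module F M]
    (d : Derivation K F M) (x : F) (hx : d x = 0) (a : F) (ha : a ∈ K⟮x⟯) : d a = 0 := by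
  induction ha using IntermediateField.adjoin_induction with
  | mem y hy =>
    rw [Set.mem_singleton_iff] at hy
    rw [hy, hx]
  | algebraMap c => exact d.map_algebraMap c
  | add y z _ _ hy hz => rw [map_add, hy, hz, add_zero]
  | inv y _ hy => rw [Derivation.leibniz_inv, hy, smul_zero]
  | mul y z _ _ hy hz => rw [Derivation.leibniz, hy, hz, smul_zero, smul_zero, add_zero]

theorem derivation_eq_zero_of_finiteDimensional [CharZero K] {M : Type} [AddCommGroup M]
    [Module K M] [Module F M] (d : Derivation K F M) (x : F) [FiniteDimensional K⟮x⟯ F]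
    (hx : d x = 0) (f : F) : d f = 0 := by
  have h0 := derivation_eq_zero_on_adjoin d x hx
  letI : Module K⟮x⟯ M := Module.compHom M (algebraMap K⟮x⟯ F)
  let d' : Derivation K⟮x⟯ F M :=
    { toFun := d
      map_add' := map_add d
      map_smul' := fun a g => by
        have ha : d (algebraMap K⟮x⟯ F a) = 0 := h0 _ a.2
        rw [Algebra.smul_def, Derivation.leibniz, ha, smul_zero, add_zero]
        rfl
      map_one_eq_zero' := d.map_one_eq_zero
      leibniz' := d.leibniz }
  have hd' : ∀ g, d' g = d g := fun _ => rfl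
  have hsep : (minpoly K⟮x⟯ f).Separable := Algebra.IsSeparable.isSeparable K⟮x⟯ f
  have h1 := d'.map_aeval (minpoly K⟮x⟯ f) f
  rw [minpoly.aeval, map_zero] at h1
  have h2 : Polynomial.aeval f (Polynomial.derivative (minpoly K⟮x⟯ f)) ≠ 0 :=
    hsep.aeval_derivative_ne_zero (minpoly.aeval _ _)
  rw [← hd']
  exact (smul_eq_zero.mp h1.symm).resolve_left h2

theorem span_D_eq_top [CharZero K] (x : F) [FiniteDimensional K⟮x⟯ F] :
    Submodule.span F {D K F x} = ⊤ := by
  set S := Submodule.span F {D K F x} with hS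
  let d : Derivation K F (Ω[F⁄K] ⧸ S) := S.mkQ.compDer (D K F)
  have hx : d x = 0 := by
    change S.mkQ (D K F x) = 0
    rw [Submodule.mkQ_apply, Submodule.Quotient.mk_eq_zero]
    exact Submodule.subset_span rfl
  have h := derivation_eq_zero_of_finiteDimensional d x hx
  rw [eq_top_iff, ← KaehlerDifferential.span_range_derivation, Submodule.span_le]
  rintro _ ⟨f, rfl⟩
  have := h f
  change S.mkQ (D K F f) = 0 at this
  rwa [Submodule.mkQ_apply, Submodule.Quotient.mk_eq_zero] at this

/-- Laurent series as an `F`-module through `σ`. -/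
def ViaEmb {k : Type} [Field k] [Algebra K k] (_σ : F →ₐ[K] LaurentSeries k) : Type :=
  LaurentSeries k

section ViaEmb

variable {k : Type} [Field k] [Algebra K k] (σ : F →ₐ[K] LaurentSeries k)

noncomputable instance instAddCommGroupViaEmb : AddCommGroup (ViaEmb σ) :=
  inferInstanceAs (AddCommGroup (LaurentSeries k))

noncomputable instance instModuleViaEmb : Module F (ViaEmb σ) :=
  Module.compHom (LaurentSeries k) σ.toRingHom

noncomputable instance instModuleViaEmb' : Module K (ViaEmb σ) :=
  Module.compHom (LaurentSeries k) (σ.toRingHom.comp (algebraMap K F))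

theorem viaEmb_smul_def (g : F) (m : ViaEmb σ) :
    g • m = (show LaurentSeries k from σ g * (show LaurentSeries k from m)) := rfl

theorem viaEmb_smul_def' (c : K) (m : ViaEmb σ) :
    c • m = (show LaurentSeries k from σ (algebraMap K F c) * (show LaurentSeries k from m)) := rfl

instance instIsScalarTowerViaEmb : IsScalarTower K F (ViaEmb σ) where
  smul_assoc c g m := by
    rw [viaEmb_smul_def, viaEmb_smul_def', viaEmb_smul_def, Algebra.smul_def, map_mul, mul_assoc]

theorem eulerFun_algebraMap (c : K) : eulerFun (algebraMap K (LaurentSeries k) c) = 0 := by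
  rw [algebraMap_laurent_eq_C]
  ext n
  rw [eulerFun_coeff, HahnSeries.coeff_zero]
  by_cases hn : n = 0
  · rw [hn]; simp
  · rw [HahnSeries.C_apply, HahnSeries.coeff_single_of_ne hn, mul_zero]

theorem eulerFun_add (f g : LaurentSeries k) : eulerFun (f + g) = eulerFun f + eulerFun g :=
  map_add (euler k k) f g

/-- the derivation `f ↦ u d/du (σ f)`. -/
noncomputable def eulerDer : Derivation K F (ViaEmb σ) where
  toFun f := (eulerFun (σ f) : LaurentSeries k)
  map_add' f g := by
    rw [map_add, eulerFun_add]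
    rfl
  map_smul' c f := by
    change eulerFun (σ (c • f)) = σ (algebraMap K F c) * eulerFun (σ f)
    rw [Algebra.smul_def, map_mul, eulerFun_mul, σ.commutes,
      eulerFun_algebraMap, mul_zero, add_zero]
  map_one_eq_zero' := by
    change eulerFun (σ 1) = 0
    rw [map_one]
    exact (euler k k).map_one_eq_zero
  leibniz' f g := by
    change eulerFun (σ (f * g)) = σ f * eulerFun (σ g) + σ g * eulerFun (σ f)
    rw [map_mul, eulerFun_mul]

end ViaEmb

/-- the `σ`-semilinear functional on differentials induced by the Euler derivation. -/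
theorem exists_euler_functional {k : Type} [Field k] [Algebra K k]
    (σ : F →ₐ[K] LaurentSeries k) :
    ∃ ℓ : Ω[F⁄K] → LaurentSeries k, (∀ (g : F) (ω : Ω[F⁄K]), ℓ (g • ω) = σ g * ℓ ω) ∧
      ∀ f : F, ℓ (D K F f) = euler K k (σ f) := by
  refine ⟨(eulerDer σ).liftKaehlerDifferential, ?_, ?_⟩
  · intro g ω
    rw [map_smul]
    rfl
  · intro f
    rw [Derivation.liftKaehlerDifferential_comp_D]
    rfl

theorem euler_ne_zero {k : Type} [Field k] [CharZero k] [Algebra K k] {f : LaurentSeries k}
    (hf : f.order ≠ 0) : euler K k f ≠ 0 := by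
  intro h
  have := order_euler (K := K) hf
  rw [h, HahnSeries.order_zero] at this
  exact hf this.symm

theorem D_ne_zero_of_embedding {k : Type} [Field k] [CharZero k] [Algebra K k]
    (σ : F →ₐ[K] LaurentSeries k) (y : F) (hy : (σ y).order ≠ 0) : D K F y ≠ 0 := by
  obtain ⟨ℓ, hℓ, hD⟩ := exists_euler_functional σ
  intro h
  have h1 := hD y
  have h2 : ℓ (D K F y) = 0 := by
    have := hℓ 0 (D K F y)
    rw [zero_smul, map_zero, zero_mul] at this
    rw [h]; exact this
  rw [h2] at h1
  exact euler_ne_zero hy h1.symm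

/-- the (private) uniformizer used by the prelude -/
theorem exists_dCoord_eq' (v : Place K F) : ∃ π : F, v.ord π = 1 ∧ v.dCoord = D K F π := by
  refine ⟨((IsDiscreteValuationRing.exists_irreducible v.toValuationSubring).choose : F), ?_, rfl⟩
  exact v.ord_coe_irreducible
    (IsDiscreteValuationRing.exists_irreducible v.toValuationSubring).choose_spec

theorem ordDifferential_smul_D [CharZero K] {k : Type} [Field k] [CharZero k] [Algebra K k]
    (x : F) [FiniteDimensional K⟮x⟯ F] (v : Place K F)
    (σ : F →ₐ[K] LaurentSeries k) (c : ℕ) (hc : 0 < c)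
    (hσ : ∀ f : F, f ≠ 0 → (σ f).order = c * v.ord f) (y g : F) (hy : v.ord y ≠ 0) (hg : g ≠ 0) :
    v.ordDifferential (g • D K F y) = v.ord g + v.ord y - 1 := by
  obtain ⟨π, hπ, hdC⟩ := exists_dCoord_eq' v
  obtain ⟨ℓ, hℓ, hD⟩ := exists_euler_functional σ
  have hc' : (c : ℤ) ≠ 0 := by exact_mod_cast hc.ne'
  have hπ0 : π ≠ 0 := by
    rintro rfl
    simp at hπ
  have hy0 : y ≠ 0 := by
    rintro rfl
    simp at hy
  have hoπ : (σ π).order ≠ 0 := by rw [hσ π hπ0, hπ, mul_one]; exact hc'
  have hoy : (σ y).order ≠ 0 := by rw [hσ y hy0]; exact mul_ne_zero hc' hy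
  have hDπ : D K F π ≠ 0 := D_ne_zero_of_embedding σ π hoπ
  -- `D π` spans
  have hspan : ∀ ω : Ω[F⁄K], ∃ h : F, ω = h • D K F π := by
    intro ω
    have htop := span_D_eq_top (K := K) x
    have h1 : ∀ ω : Ω[F⁄K], ∃ h : F, h • D K F x = ω := by
      intro ω
      have : ω ∈ Submodule.span F {D K F x} := by rw [htop]; trivial
      exact Submodule.mem_span_singleton.mp this
    obtain ⟨a, ha⟩ := h1 (D K F π)
    obtain ⟨b, hb⟩ := h1 ω
    have ha0 : a ≠ 0 := by
      rintro rfl
      rw [zero_smul] at ha
      exact hDπ ha.symm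
    refine ⟨b * a⁻¹, ?_⟩
    rw [← ha, smul_smul, mul_assoc, inv_mul_cancel₀ ha0, mul_one, hb]
  obtain ⟨h, hh⟩ := hspan (D K F y)
  have hh0 : h ≠ 0 := by
    rintro rfl
    rw [zero_smul] at hh
    exact D_ne_zero_of_embedding σ y hoy hh
  -- the order of `h`
  have hord : v.ord h = v.ord y - 1 := by
    have h1 := congrArg ℓ hh
    rw [hℓ, hD, hD] at h1
    have h2 := congrArg HahnSeries.order h1
    have hσh : σ h ≠ 0 := (map_ne_zero σ).mpr hh0
    rw [HahnSeries.order_mul hσh (euler_ne_zero hoπ), order_euler hoy, order_euler hoπ, hσ y hy0,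
      hσ h hh0, hσ π hπ0, hπ] at h2
    have h3 : (c : ℤ) * v.ord y = c * (v.ord h + 1) := by rw [h2]; ring
    have := mul_left_cancel₀ hc' h3
    omega
  -- the coefficient
  have hex : ∃ f : F, g • D K F y = f • v.dCoord := ⟨g * h, by rw [hdC, hh, smul_smul]⟩
  have hcoeff : v.differentialCoeff (g • D K F y) = g * h := by
    rw [Place.differentialCoeff, dif_pos hex]
    have h1 := hex.choose_spec
    generalize hex.choose = f0 at h1 ⊢
    rw [hdC, hh, smul_smul, ← sub_eq_zero, ← sub_smul] at h1
    have := (smul_eq_zero.mp h1).resolve_right hDπ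
    exact (sub_eq_zero.mp this).symm
  rw [Place.ordDifferential, hcoeff, v.ord_mul hg hh0, hord]
  ring

end Fermat.Agent.S24
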