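import Mathlib
import Fermat.Agent.S24.PlaceBasic
import Fermat.Agent.S24.Center
import Fermat.Agent.S24.Dedekind
import Fermat.Agent.S24.Principal
import Fermat.Agent.S24.Count
import Fermat.Agent.S24.Differential
import Fermat.Agent.S24.Orbits

set_option autoImplicit false
set_option linter.style.haveILetI false

/-! # S24 A7: the degree of a canonical divisor (Riemann-Hurwitz) -/

namespace Fermat.Agent.S24

open AlgebraicCurve IntermediateField KaehlerDifferential

variable {K F : Type} [Field K] [Field F] [Algebra K F]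

theorem degree_eq_sum [IsAlgClosed K] [CharZero K] (x : F) (hx : Transcendental K x)
    [FiniteDimensional K⟮x⟯ F] (Dv : Divisor K F) :
    Divisor.degree Dv = ∑ v ∈ Dv.support, Dv v := by
  rw [Divisor.degree, Finsupp.liftAddHom_apply, Finsupp.sum]
  apply Finset.sum_congr rfl
  intro v _
  rw [AddMonoidHom.coe_mulRight, deg_eq_one x hx v]
  simp

/-- the local sum at the zeros of `y`. -/
theorem sum_zeroSet_sub_one [IsAlgClosed K] [CharZero K] {k Q : Type} [Field k] [Algebra K k]
    [Fintype Q] (y : F) (hy : Transcendental K y) [FiniteDimensional K⟮y⟯ F]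
    (L : LocalData K F k Q y) (hcard : Fintype.card Q = Module.finrank K⟮y⟯ F) :
    ∑ v ∈ (finite_zeroSet y hy).toFinset, v.ord y = Fintype.card Q ∧
      ((finite_zeroSet y hy).toFinset.card : ℤ) = orbCard L.ε := by
  constructor
  · rw [← finsum_mem_eq_finite_toFinset_sum, sum_ord_zeroSet y hy, hcard]
  · rw [← Nat.card_eq_card_finite_toFinset, card_zeroSet_eq_orbCard y L hcard]

theorem ord_eq_one_of_eps_eq_one [IsAlgClosed K] [CharZero K] {k Q : Type} [Field k] [Algebra K k]
    [Fintype Q] (y : F) (hy : Transcendental K y) [FiniteDimensional K⟮y⟯ F]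
    (L : LocalData K F k Q y) (hcard : Fintype.card Q = Module.finrank K⟮y⟯ F) (hε : L.ε = 1)
    (v : Place K F) (hv : v ∈ zeroSet K y) : v.ord y = 1 := by
  obtain ⟨h1, h2⟩ := sum_zeroSet_sub_one y hy L hcard
  rw [hε, orbCard_one] at h2
  have h3 : ∑ v ∈ (finite_zeroSet y hy).toFinset, (v.ord y - 1) = 0 := by
    rw [Finset.sum_sub_distrib, h1, Finset.sum_const, nsmul_eq_mul, mul_one, h2, sub_self]
  have h4 := (Finset.sum_eq_zero_iff_of_nonneg (fun w hw => by
    have : w ∈ zeroSet K y := (Set.Finite.mem_toFinset _).mp hw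
    have : 0 < w.ord y := this
    omega)).mp h3 v ((Set.Finite.mem_toFinset _).mpr hv)
  omega

theorem zeroSet_disjoint_fin (x : F) {a b : K} (hab : a ≠ b) (v : Place K F)
    (ha : v ∈ zeroSet K (x - algebraMap K F a)) (hb : v ∈ zeroSet K (x - algebraMap K F b)) :
    False := by
  have ha' : 0 < v.ord (x - algebraMap K F a) := ha
  have hb' : 0 < v.ord (x - algebraMap K F b) := hb
  have hne : algebraMap K F (b - a) ≠ 0 := by
    rw [Ne, map_eq_zero, sub_eq_zero]
    exact fun h => hab h.symm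
  have h1 : (x - algebraMap K F a) + -(x - algebraMap K F b) = algebraMap K F (b - a) := by
    rw [map_sub]; ring
  have h2 := ord_add_ge v (f := x - algebraMap K F a) (g := -(x - algebraMap K F b))
    (by rw [h1]; exact hne)
  rw [h1, ord_algebraMap, ord_neg] at h2
  have := lt_min ha' hb'
  omega

theorem zeroSet_disjoint_inf (x : F) (a : K) (v : Place K F)
    (ha : v ∈ zeroSet K (x - algebraMap K F a)) (hb : v ∈ zeroSet K x⁻¹) : False := by
  have ha' : 0 < v.ord (x - algebraMap K F a) := ha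
  have hb' : 0 < v.ord x⁻¹ := hb
  rw [v.ord_inv] at hb'
  have hx0 : x ≠ 0 := by
    rintro rfl
    simp at hb'
  have h1 : v.ord (x + -algebraMap K F a) = v.ord x := by
    apply ord_add_eq_of_lt v hx0
    rw [ord_neg, ord_algebraMap]
    omega
  rw [← sub_eq_add_neg] at h1
  omega

theorem exists_differential_ne_zero {k Q : Type} [Field k] [CharZero k] [Algebra K k] [Nonempty Q]
    {y : F} (L : LocalData K F k Q y) : ∃ ω : Ω[F⁄K], ω ≠ 0 := by
  obtain ⟨γ⟩ := ‹Nonempty Q›
  refine ⟨D K F y, D_ne_zero_of_embedding (L.σ γ) y ?_⟩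
  rw [L.order_y]
  exact_mod_cast L.e_pos.ne'

theorem degree_canonical [IsAlgClosed K] [CharZero K] {k Q : Type} [Field k] [CharZero k]
    [Algebra K k] [Fintype Q]
    (x : F) (hx : Transcendental K x) [FiniteDimensional K⟮x⟯ F]
    (hcard : Fintype.card Q = Module.finrank K⟮x⟯ F)
    (Lfin : ∀ a : K, LocalData K F k Q (x - algebraMap K F a)) (Linf : LocalData K F k Q x⁻¹)
    (S : Finset K) (hS : ∀ a, a ∉ S → (Lfin a).ε = 1)
    (ω : Ω[F⁄K]) (hω : ω ≠ 0) (Dv : Divisor K F) (hD : ∀ v, Dv v = v.ordDifferential ω) :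
    Divisor.degree Dv = ∑ a ∈ S, ((Fintype.card Q : ℤ) - orbCard (Lfin a).ε)
      - Fintype.card Q - orbCard Linf.ε := by
  classical
  -- instances
  have hfd : ∀ a : K, FiniteDimensional K⟮x - algebraMap K F a⟯ F := by
    intro a
    rw [adjoin_sub_algebraMap]
    infer_instance
  have hfdi : FiniteDimensional K⟮x⁻¹⟯ F := by
    rw [adjoin_inv']
    infer_instance
  have hcarda : ∀ a : K, Fintype.card Q = Module.finrank K⟮x - algebraMap K F a⟯ F := by
    intro a
    rw [adjoin_sub_algebraMap]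
    exact hcard
  have hcardi : Fintype.card Q = Module.finrank K⟮x⁻¹⟯ F := by
    rw [adjoin_inv']
    exact hcard
  haveI : Nonempty Q := by
    rw [← Fintype.card_pos_iff, hcard]
    exact Module.finrank_pos
  have htra : ∀ a : K, Transcendental K (x - algebraMap K F a) := fun a => (Lfin a).transcendental
  have htri : Transcendental K x⁻¹ := Linf.transcendental
  -- `ω = g • D x`
  obtain ⟨g, hg⟩ : ∃ g : F, g • D K F x = ω := by
    have : ω ∈ Submodule.span F {D K F x} := by rw [span_D_eq_top]; trivial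
    exact Submodule.mem_span_singleton.mp this
  have hg0 : g ≠ 0 := by
    rintro rfl
    rw [zero_smul] at hg
    exact hω hg.symm
  -- local formulas
  have F1 : ∀ (a : K) (v : Place K F), v ∈ zeroSet K (x - algebraMap K F a) →
      Dv v - v.ord g = v.ord (x - algebraMap K F a) - 1 := by
    intro a v hv
    haveI := hfd a
    obtain ⟨γ, c, hc, hσ⟩ := exists_embedding_of_mem_zeroSet _ (Lfin a) (hcarda a) v hv
    have hDx : D K F (x - algebraMap K F a) = D K F x := by
      rw [map_sub, Derivation.map_algebraMap, sub_zero]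
    have hv' : 0 < v.ord (x - algebraMap K F a) := hv
    rw [hD, ← hg, ← hDx, ordDifferential_smul_D x v _ c hc hσ _ g hv'.ne' hg0]
    ring
  have F2 : ∀ v : Place K F, v ∈ zeroSet K x⁻¹ → Dv v - v.ord g = - v.ord x⁻¹ - 1 := by
    intro v hv
    haveI := hfdi
    obtain ⟨γ, c, hc, hσ⟩ := exists_embedding_of_mem_zeroSet _ Linf hcardi v hv
    have hv' : 0 < v.ord x⁻¹ := hv
    have hv'' : v.ord x ≠ 0 := by
      rw [v.ord_inv] at hv'
      omega
    rw [hD, ← hg, ordDifferential_smul_D x v _ c hc hσ _ g hv'' hg0, v.ord_inv]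
    ring
  have F3 : ∀ (a : K), a ∉ S → ∀ v : Place K F, v ∈ zeroSet K (x - algebraMap K F a) →
      Dv v - v.ord g = 0 := by
    intro a ha v hv
    haveI := hfd a
    rw [F1 a v hv, ord_eq_one_of_eps_eq_one _ (htra a) (Lfin a) (hcarda a) (hS a ha) v hv]
    ring
  -- the finite sets
  let Pa : K → Finset (Place K F) := fun a =>
    haveI := hfd a
    (finite_zeroSet _ (htra a)).toFinset
  let Pi : Finset (Place K F) :=
    haveI := hfdi
    (finite_zeroSet _ htri).toFinset
  have hPa : ∀ a v, v ∈ Pa a ↔ v ∈ zeroSet K (x - algebraMap K F a) := fun a v =>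
    Set.Finite.mem_toFinset _
  have hPi : ∀ v, v ∈ Pi ↔ v ∈ zeroSet K x⁻¹ := fun v => Set.Finite.mem_toFinset _
  let T : Finset (Place K F) := Pi ∪ S.biUnion Pa
  let U : Finset (Place K F) := Dv.support ∪ (finite_support_ord x hx g hg0).toFinset ∪ T
  have hsumg : ∑ v ∈ U, v.ord g = 0 := by
    rw [← finsum_ord_eq_zero x hx g hg0]
    symm
    apply finsum_eq_sum_of_support_subset
    intro v hv
    have : v ∈ (finite_support_ord x hx g hg0).toFinset := (Set.Finite.mem_toFinset _).mpr hv
    exact Finset.mem_coe.mpr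
      (Finset.mem_union_left _ (Finset.mem_union_right _ this))
  have hsumD : ∑ v ∈ Dv.support, Dv v = ∑ v ∈ U, Dv v := by
    apply Finset.sum_subset
    · intro v hv
      exact Finset.mem_union_left _ (Finset.mem_union_left _ hv)
    · intro v _ hv
      exact Finsupp.notMem_support_iff.mp hv
  have hsumT : ∑ v ∈ T, (Dv v - v.ord g) = ∑ v ∈ U, (Dv v - v.ord g) := by
    apply Finset.sum_subset
    · intro v hv
      exact Finset.mem_union_right _ hv
    · intro v _ hv
      rcases exists_center x hx v with h | ⟨a, h⟩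
      · exact absurd (Finset.mem_union_left _ ((hPi v).mpr h)) hv
      · by_cases ha : a ∈ S
        · exact absurd (Finset.mem_union_right _
            (Finset.mem_biUnion.mpr ⟨a, ha, (hPa a v).mpr h⟩)) hv
        · exact F3 a ha v h
  rw [degree_eq_sum x hx, hsumD]
  have : ∑ v ∈ U, Dv v = ∑ v ∈ U, (Dv v - v.ord g) := by
    rw [Finset.sum_sub_distrib, hsumg, sub_zero]
  rw [this, ← hsumT]
  have hdisj : Disjoint Pi (S.biUnion Pa) := by
    rw [Finset.disjoint_left]
    intro v hv hv'
    obtain ⟨a, -, ha⟩ := Finset.mem_biUnion.mp hv'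
    exact zeroSet_disjoint_inf x a v ((hPa a v).mp ha) ((hPi v).mp hv)
  rw [Finset.sum_union hdisj, Finset.sum_biUnion]
  swap
  · intro a _ b _ hab
    change Disjoint (Pa a) (Pa b)
    rw [Finset.disjoint_left]
    intro v hv hv'
    exact zeroSet_disjoint_fin x hab v ((hPa a v).mp hv) ((hPa b v).mp hv')
  have hI : ∑ v ∈ Pi, (Dv v - v.ord g) = - (Fintype.card Q : ℤ) - orbCard Linf.ε := by
    haveI := hfdi
    obtain ⟨h1, h2⟩ := sum_zeroSet_sub_one _ htri Linf hcardi
    rw [Finset.sum_congr rfl (fun v hv => F2 v ((hPi v).mp hv)), Finset.sum_sub_distrib,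
      Finset.sum_neg_distrib, Finset.sum_const]
    change - (∑ v ∈ (finite_zeroSet _ htri).toFinset, v.ord x⁻¹) -
      (finite_zeroSet _ htri).toFinset.card • (1 : ℤ) = _
    rw [h1, nsmul_eq_mul, mul_one, h2]
  have hA : ∀ a ∈ S, ∑ v ∈ Pa a, (Dv v - v.ord g) = (Fintype.card Q : ℤ) - orbCard (Lfin a).ε := by
    intro a _
    haveI := hfd a
    obtain ⟨h1, h2⟩ := sum_zeroSet_sub_one _ (htra a) (Lfin a) (hcarda a)
    rw [Finset.sum_congr rfl (fun v hv => F1 a v ((hPa a v).mp hv)), Finset.sum_sub_distrib,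
      Finset.sum_const]
    change (∑ v ∈ (finite_zeroSet _ (htra a)).toFinset, v.ord (x - algebraMap K F a)) -
      (finite_zeroSet _ (htra a)).toFinset.card • (1 : ℤ) = _
    rw [h1, nsmul_eq_mul, mul_one, h2]
  rw [hI, Finset.sum_congr rfl hA]
  ring

end Fermat.Agent.S24
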