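import Mathlib
import Fermat.Agent.S24.Defs

set_option autoImplicit false

/-! # S24: stubs of the abstract (function field) part. REFERENCE ONLY, never import from final files. -/

namespace Fermat.Agent.S24

open AlgebraicCurve IntermediateField KaehlerDifferential

variable {K F : Type} [Field K] [Field F] [Algebra K F]

/-! ## A0 PlaceBasic.lean (no hypotheses on K) -/

theorem mem_valuationSubring_iff (v : Place K F) (f : F) :
    f ∈ v.toValuationSubring ↔ f = 0 ∨ 0 ≤ v.ord f := sorry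

theorem ord_algebraMap (v : Place K F) (a : K) : v.ord (algebraMap K F a) = 0 := sorry

theorem ord_add_ge (v : Place K F) {f g : F} (hfg : f + g ≠ 0) :
    min (v.ord f) (v.ord g) ≤ v.ord (f + g) := sorry

theorem ord_add_eq_of_lt (v : Place K F) {f g : F} (hf : f ≠ 0) (h : v.ord f < v.ord g) :
    v.ord (f + g) = v.ord f := sorry

theorem ord_neg (v : Place K F) (f : F) : v.ord (-f) = v.ord f := sorry

theorem ord_pow (v : Place K F) (f : F) (n : ℕ) : v.ord (f ^ n) = n * v.ord f := sorry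

theorem exists_ord_eq_one (v : Place K F) : ∃ π : F, v.ord π = 1 := sorry

/-- the (private) uniformizer used by the prelude -/
theorem exists_dCoord_eq (v : Place K F) : ∃ π : F, v.ord π = 1 ∧ v.dCoord = D K F π := sorry

theorem place_ext_of_ord {v v' : Place K F} (c c' : ℕ) (hc : 0 < c) (hc' : 0 < c')
    (h : ∀ f : F, f ≠ 0 → (c : ℤ) * v.ord f = c' * v'.ord f) : v = v' := sorry

theorem adjoin_sub_algebraMap (x : F) (a : K) : K⟮x - algebraMap K F a⟯ = K⟮x⟯ := sorry

theorem adjoin_inv' (x : F) : K⟮x⁻¹⟯ = K⟮x⟯ := sorry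

/-! ## A1 Dedekind.lean -/

section
variable [IsAlgClosed K] [CharZero K]

theorem finite_zeroSet (y : F) (hy : Transcendental K y) [FiniteDimensional K⟮y⟯ F] :
    (zeroSet K y).Finite := sorry

theorem sum_ord_zeroSet (y : F) (hy : Transcendental K y) [FiniteDimensional K⟮y⟯ F] :
    ∑ᶠ v ∈ zeroSet K y, v.ord y = (Module.finrank K⟮y⟯ F : ℤ) := sorry

theorem exists_sep (y : F) (hy : Transcendental K y) [FiniteDimensional K⟮y⟯ F]
    (v₀ : Place K F) (hv₀ : v₀ ∈ zeroSet K y) :
    ∃ f : F, f ≠ 0 ∧ 0 < v₀.ord f ∧ (∀ v ∈ zeroSet K y, v ≠ v₀ → v.ord f = 0) ∧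
      ∃ r : Polynomial K, algebraMap K⟮y⟯ F (Algebra.norm K⟮y⟯ f) = y * Polynomial.aeval y r := sorry

/-! ## A1' Center.lean -/

theorem exists_center (x : F) (hx : Transcendental K x) [FiniteDimensional K⟮x⟯ F]
    (v : Place K F) :
    v ∈ zeroSet K x⁻¹ ∨ ∃ a : K, v ∈ zeroSet K (x - algebraMap K F a) := sorry

theorem deg_eq_one (x : F) (hx : Transcendental K x) [FiniteDimensional K⟮x⟯ F]
    (v : Place K F) : v.deg = 1 := sorry

/-! ## A2 Principal.lean -/

theorem finiteDimensional_adjoin_of_transcendental (x g : F) (hx : Transcendental K x)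
    [FiniteDimensional K⟮x⟯ F] (hg : Transcendental K g) : FiniteDimensional K⟮g⟯ F := sorry

theorem finite_support_ord (x : F) (hx : Transcendental K x) [FiniteDimensional K⟮x⟯ F]
    (g : F) (hg : g ≠ 0) : {v : Place K F | v.ord g ≠ 0}.Finite := sorry

theorem finsum_ord_eq_zero (x : F) (hx : Transcendental K x) [FiniteDimensional K⟮x⟯ F]
    (g : F) (hg : g ≠ 0) : ∑ᶠ v : Place K F, v.ord g = 0 := sorry

end

/-! ## A3 PlaceOf.lean -/

theorem exists_place_of_embedding {k : Type} [Field k] [Algebra K k]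
    (σ : F →ₐ[K] LaurentSeries k) (y : F) (hy : 0 < (σ y).order) :
    ∃ (v : Place K F) (c : ℕ), 0 < c ∧ ∀ f : F, f ≠ 0 → (σ f).order = c * v.ord f := sorry

/-! ## A4 NormProd.lean -/

theorem card_le_finrank [CharZero K] {E Q : Type} [Field E] [Algebra K E] [Fintype Q] (y : F)
    [FiniteDimensional K⟮y⟯ F] (σ : Q → (F →ₐ[K] E)) (hinj : Function.Injective σ)
    (hy : ∀ γ γ', σ γ y = σ γ' y) : Fintype.card Q ≤ Module.finrank K⟮y⟯ F := sorry

theorem norm_eq_prod [CharZero K] {E Q : Type} [Field E] [Algebra K E] [Fintype Q] (y : F)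
    [FiniteDimensional K⟮y⟯ F] (σ : Q → (F →ₐ[K] E)) (hinj : Function.Injective σ)
    (hy : ∀ γ γ', σ γ y = σ γ' y) (hcard : Fintype.card Q = Module.finrank K⟮y⟯ F)
    (γ₀ : Q) (f : F) :
    σ γ₀ (algebraMap K⟮y⟯ F (Algebra.norm K⟮y⟯ f)) = ∏ γ, σ γ f := sorry

/-! ## A5 Count.lean -/

section
variable [IsAlgClosed K] [CharZero K]

theorem LocalData.transcendental {k Q : Type} [Field k] [Algebra K k] [Nonempty Q] {y : F}
    (L : LocalData K F k Q y) : Transcendental K y := sorry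

theorem exists_embedding_of_mem_zeroSet {k Q : Type} [Field k] [Algebra K k] [Fintype Q] (y : F)
    [FiniteDimensional K⟮y⟯ F] (L : LocalData K F k Q y)
    (hcard : Fintype.card Q = Module.finrank K⟮y⟯ F) (v : Place K F) (hv : v ∈ zeroSet K y) :
    ∃ (γ : Q) (c : ℕ), 0 < c ∧ ∀ f : F, f ≠ 0 → (L.σ γ f).order = c * v.ord f := sorry

theorem card_zeroSet_eq_orbCard {k Q : Type} [Field k] [Algebra K k] [Fintype Q] (y : F)
    [FiniteDimensional K⟮y⟯ F] (L : LocalData K F k Q y)
    (hcard : Fintype.card Q = Module.finrank K⟮y⟯ F) :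
    Nat.card (zeroSet K y) = orbCard L.ε := sorry

end

/-! ## A6 Differential.lean -/

theorem span_D_eq_top [CharZero K] (x : F) [FiniteDimensional K⟮x⟯ F] :
    Submodule.span F {D K F x} = ⊤ := sorry

theorem D_ne_zero_of_embedding {k : Type} [Field k] [CharZero k] [Algebra K k]
    (σ : F →ₐ[K] LaurentSeries k) (y : F) (hy : (σ y).order ≠ 0) : D K F y ≠ 0 := sorry

theorem ordDifferential_smul_D [CharZero K] {k : Type} [Field k] [CharZero k] [Algebra K k]
    (x : F) [FiniteDimensional K⟮x⟯ F] (v : Place K F)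
    (σ : F →ₐ[K] LaurentSeries k) (c : ℕ) (hc : 0 < c)
    (hσ : ∀ f : F, f ≠ 0 → (σ f).order = c * v.ord f) (y g : F) (hy : v.ord y ≠ 0) (hg : g ≠ 0) :
    v.ordDifferential (g • D K F y) = v.ord g + v.ord y - 1 := sorry

/-! ## A7 Degree.lean -/

theorem degree_canonical [IsAlgClosed K] [CharZero K] {k Q : Type} [Field k] [CharZero k]
    [Algebra K k] [Fintype Q]
    (x : F) (hx : Transcendental K x) [FiniteDimensional K⟮x⟯ F]
    (hcard : Fintype.card Q = Module.finrank K⟮x⟯ F)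
    (Lfin : ∀ a : K, LocalData K F k Q (x - algebraMap K F a)) (Linf : LocalData K F k Q x⁻¹)
    (S : Finset K) (hS : ∀ a, a ∉ S → (Lfin a).ε = 1)
    (ω : Ω[F⁄K]) (hω : ω ≠ 0) (Dv : Divisor K F) (hD : ∀ v, Dv v = v.ordDifferential ω) :
    Divisor.degree Dv = ∑ a ∈ S, ((Fintype.card Q : ℤ) - orbCard (Lfin a).ε)
      - Fintype.card Q - orbCard Linf.ε := sorry

end Fermat.Agent.S24
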