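import Mathlib
import Fermat.Agent.S24.ModDefs
import Fermat.Agent.S20.Basic

set_option autoImplicit false

/-! # S24: stubs of the modular part. REFERENCE ONLY, never import from final files. -/

namespace Fermat.Agent.S24

open UpperHalfPlane ModularForm EisensteinSeries Matrix.SpecialLinearGroup AlgebraicCurve
open IntermediateField
open scoped MatrixGroups ModularForm Manifold
open Fermat.Agent.S20 (Quo sl rho)

/-! ## M0 Rot.lean (pure algebra) -/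

/-- `u ↦ ζ u` on Laurent series -/
noncomputable def rotHom {k : Type} [Field k] (ζ : k) (hζ : ζ ≠ 0) :
    LaurentSeries k →ₐ[k] LaurentSeries k := sorry

theorem rotHom_coeff {k : Type} [Field k] (ζ : k) (hζ : ζ ≠ 0) (f : LaurentSeries k) (n : ℤ) :
    (rotHom ζ hζ f).coeff n = ζ ^ n * f.coeff n := sorry

/-! ## M1 Mer.lean -/

/-- holomorphic, `h`-periodic functions, meromorphic at `i∞` -/
def Mer (h : ℕ) : Subalgebra ℂ (ℍ → ℂ) where
  carrier := {f | IsMer h f}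
  mul_mem' := sorry
  add_mem' := sorry
  algebraMap_mem' := sorry

theorem mem_Mer {h : ℕ} {f : ℍ → ℂ} : f ∈ Mer h ↔ IsMer h f := Iff.rfl

/-- the `q_h`-expansion at `i∞` -/
noncomputable def expInf (h : ℕ) : Mer h →ₐ[ℂ] LaurentSeries ℂ := sorry

theorem expInf_injective (h : ℕ) [NeZero h] : Function.Injective (expInf h) := sorry

theorem qN_mem_Mer (h : ℕ) [NeZero h] : qN h ∈ Mer h := sorry

theorem expInf_qN (h : ℕ) [NeZero h] : expInf h ⟨qN h, qN_mem_Mer h⟩ = HahnSeries.single 1 1 := sorry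

/-- on functions bounded at `i∞` it is Mathlib's `qExpansion` -/
theorem expInf_of_bounded (h : ℕ) [NeZero h] (f : Mer h) (hf : IsBoundedAtImInfty f.1) :
    expInf h f = HahnSeries.ofPowerSeries ℤ ℂ (qExpansion h f.1) := sorry

theorem isBoundedAtImInfty_of_order_nonneg (h : ℕ) [NeZero h] (f : Mer h)
    (hf : 0 ≤ (expInf h f).order) : IsBoundedAtImInfty f.1 := sorry

theorem vadd_mem_Mer (h : ℕ) [NeZero h] (f : Mer h) (t : ℤ) :
    (fun z : ℍ => f.1 ((t : ℝ) +ᵥ z)) ∈ Mer h := sorry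

/-- translation by `t` rotates the expansion by `exp (2πi t / h)` -/
theorem expInf_vadd_coeff (h : ℕ) [NeZero h] (f : Mer h) (t n : ℤ) :
    (expInf h ⟨_, vadd_mem_Mer h f t⟩).coeff n =
      Complex.exp (2 * Real.pi * Complex.I * t / h) ^ n * (expInf h f).coeff n := sorry

/-! ## M2 MerTri.lean -/

theorem comp_tri_mem_Mer (N a d : ℕ) (b : ℤ) (ha : a ≠ 0) (hd : d ≠ 0) [NeZero N] (hdN : d ∣ N)
    (f : Mer 1) : (fun z : ℍ => f.1 (S22.tri a d b ha hd • z)) ∈ Mer N := sorry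

/-- `f((a z + b)/d) = Σ c_n ω^n q_N^(n a N / d)`, `ω = exp(2πi b/d)` -/
theorem expInf_comp_tri_coeff_mul (N a d : ℕ) (b : ℤ) (ha : a ≠ 0) (hd : d ≠ 0) [NeZero N]
    (hdN : d ∣ N) (f : Mer 1) (n : ℤ) :
    (expInf N ⟨_, comp_tri_mem_Mer N a d b ha hd hdN f⟩).coeff ((a * (N / d) : ℕ) * n) =
      Complex.exp (2 * Real.pi * Complex.I * b / d) ^ n * (expInf 1 f).coeff n := sorry

theorem expInf_comp_tri_coeff_of_not_dvd (N a d : ℕ) (b : ℤ) (ha : a ≠ 0) (hd : d ≠ 0) [NeZero N]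
    (hdN : d ∣ N) (f : Mer 1) (m : ℤ) (hm : ¬ ((a * (N / d) : ℕ) : ℤ) ∣ m) :
    (expInf N ⟨_, comp_tri_mem_Mer N a d b ha hd hdN f⟩).coeff m = 0 := sorry

/-! ## M3 JqExp.lean -/

theorem jfun_mem_Mer : jfun ∈ Mer 1 := sorry

/-- the formal `jq` of the prelude is the `q`-expansion of the analytic `j` -/
theorem expInf_jfun :
    expInf 1 ⟨jfun, jfun_mem_Mer⟩ = ModularCurve.coeffEmb ℂ ModularCurve.jq := sorry

/-! ## M5 Cosets.lean -/

theorem jfun_smul (γ : SL(2, ℤ)) (z : ℍ) : jfun (γ • z) = jfun z := sorry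

theorem jdg_one_dv (N : ℕ) [NeZero N] (γ : SL(2, ℤ)) : jdg N ⟨1, one_dvd N⟩ γ = jfun := sorry

theorem jdg_mul (N : ℕ) [NeZero N] (d : Dv N) (γ γ' : SL(2, ℤ)) (z : ℍ) :
    jdg N d (γ * γ') z = jdg N d γ (γ' • z) := sorry

theorem jdg_Gamma0_mul (N : ℕ) [NeZero N] (d : Dv N) (δ γ : SL(2, ℤ))
    (hδ : δ ∈ CongruenceSubgroup.Gamma0 N) : jdg N d (δ * γ) = jdg N d γ := sorry

theorem jdg_eq_tri (N : ℕ) [NeZero N] (d : Dv N) (γ : SL(2, ℤ)) :
    ∃ (a d' : ℕ) (b : ℤ) (ha : a ≠ 0) (hd' : d' ≠ 0), a * d' = d.1 ∧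
      jdg N d γ = fun z => jfun (S22.tri a d' b ha hd' • z) := sorry

theorem jdg_mdiff (N : ℕ) [NeZero N] (d : Dv N) (γ : SL(2, ℤ)) : MDiff (jdg N d γ) := sorry

theorem jdg_mem_Mer (N : ℕ) [NeZero N] (d : Dv N) (γ : SL(2, ℤ)) : jdg N d γ ∈ Mer N := sorry

theorem jdg_one_mem_Mer_one (N : ℕ) [NeZero N] (d : Dv N) : jdg N d 1 ∈ Mer 1 := sorry

/-- the expansions of all conjugates have coefficients in `ℚ̄` -/
theorem expInf_jdg_rational (N : ℕ) [NeZero N] (d : Dv N) (γ : SL(2, ℤ)) :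
    ∃ S : LaurentSeries Kb, expInf N ⟨jdg N d γ, jdg_mem_Mer N d γ⟩ = ModularCurve.coeffMap iota S :=
  sorry

/-- distinct cosets give distinct conjugates (compare the pole orders of `j(N γ z)`, `hermite`) -/
theorem mem_Gamma0_of_jdg_eq (N : ℕ) [NeZero N] (γ γ' : SL(2, ℤ))
    (h : ∀ d, jdg N d γ = jdg N d γ') : γ * γ'⁻¹ ∈ CongruenceSubgroup.Gamma0 N := sorry

/-! ## M4 Engine.lean -/

theorem adjoin_range_Jd (N : ℕ) [NeZero N] :
    IntermediateField.adjoin Kb (Set.range (Jd N)) = ⊤ := sorry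

theorem FN_algHom_ext (N : ℕ) [NeZero N] {L : Type} [Field L] [Algebra Kb L]
    (σ σ' : FN N →ₐ[Kb] L) (h : ∀ d, σ (Jd N d) = σ' (Jd N d)) : σ = σ' := sorry

/-- formal relations = analytic relations -/
theorem aeval_Jd_eq_zero_iff (N : ℕ) [NeZero N] (γ : SL(2, ℤ)) (P : MvPolynomial (Dv N) Kb) :
    MvPolynomial.aeval (Jd N) P = 0 ↔ MvPolynomial.aeval (fun d => jdg N d γ) P = 0 := sorry

theorem exists_sigma (N : ℕ) [NeZero N] (γ : SL(2, ℤ)) (A : Subalgebra ℂ (ℍ → ℂ))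
    (hA : ∀ d, jdg N d γ ∈ A) (E : A →ₐ[ℂ] LaurentSeries ℂ) (hE : Function.Injective E) :
    ∃ σ : FN N →ₐ[Kb] LaurentSeries ℂ, ∀ d, σ (Jd N d) = E ⟨jdg N d γ, hA d⟩ := sorry

theorem transcendental_jF (N : ℕ) [NeZero N] : Transcendental Kb (jF N) := sorry

/-! ## M6 Tay.lean -/

/-- holomorphic functions on `ℍ` -/
def Hol : Subalgebra ℂ (ℍ → ℂ) where
  carrier := {f | MDiff f}
  mul_mem' := sorry
  add_mem' := sorry
  algebraMap_mem' := sorry

theorem mem_Hol {f : ℍ → ℂ} : f ∈ Hol ↔ MDiff f := Iff.rfl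

/-- Taylor expansion at `τ₀` in the disc coordinate `u`, `z = cay τ₀ u` -/
noncomputable def tayAt (τ₀ : ℍ) : Hol →ₐ[ℂ] PowerSeries ℂ := sorry

theorem tayAt_coeff (τ₀ : ℍ) (f : Hol) (n : ℕ) : (tayAt τ₀ f).coeff n =
    (n.factorial : ℂ)⁻¹ * iteratedDeriv n (fun u => f.1 (ofComplex (cay τ₀ u))) 0 := sorry

theorem tayAt_injective (τ₀ : ℍ) : Function.Injective (tayAt τ₀) := sorry

theorem tayAt_coeff_zero (τ₀ : ℍ) (f : Hol) : (tayAt τ₀ f).coeff 0 = f.1 τ₀ := sorry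

theorem tayAt_coeff_one (τ₀ : ℍ) (f : Hol) : (tayAt τ₀ f).coeff 1 =
    ((τ₀ : ℂ) - (starRingEnd ℂ) (τ₀ : ℂ)) * deriv (f.1 ∘ ofComplex) τ₀ := sorry

theorem comp_smul_mem_Hol (f : Hol) (g : SL(2, ℤ)) : (fun z : ℍ => f.1 (g • z)) ∈ Hol := sorry

/-- an elliptic element fixing `τ₀` acts by the rotation `u ↦ (denom g τ₀)⁻² u` -/
theorem tayAt_comp_smul_coeff (τ₀ : ℍ) (g : SL(2, ℤ)) (hg : g • τ₀ = τ₀) (f : Hol) (n : ℕ) :
    (tayAt τ₀ ⟨_, comp_smul_mem_Hol f g⟩).coeff n =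
      ((denom g τ₀) ^ (-2 : ℤ)) ^ n * (tayAt τ₀ f).coeff n := sorry

/-! ## M7 JOrder.lean -/

theorem jfun_mdiff : MDiff jfun := sorry

theorem exists_jfun_eq (a : ℂ) : ∃ τ : ℍ, jfun τ = a := sorry

theorem jfun_I : jfun I = 1728 := sorry

theorem jfun_rho : jfun rho = 0 := sorry

theorem jfun_sub_mem_Hol (a : ℂ) : (fun z => jfun z - a) ∈ Hol := sorry

theorem order_tayAt_generic (τ₀ : ℍ) (h0 : jfun τ₀ ≠ 0) (h1 : jfun τ₀ ≠ 1728) :
    (tayAt τ₀ ⟨_, jfun_sub_mem_Hol (jfun τ₀)⟩).order = 1 := sorry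

theorem order_tayAt_I : (tayAt I ⟨_, jfun_sub_mem_Hol 1728⟩).order = 2 := sorry

theorem order_tayAt_rho : (tayAt rho ⟨_, jfun_sub_mem_Hol 0⟩).order = 3 := sorry

/-! ## M8 Integral.lean -/

/-- M8a -/
theorem levelOne_polynomial (N : ℕ) [NeZero N] (s : ℍ → ℂ) (hs : s ∈ Mer N)
    (hinv : ∀ (γ : SL(2, ℤ)) (z : ℍ), s (γ • z) = s z) (S : LaurentSeries Kb)
    (hS : expInf N ⟨s, hs⟩ = ModularCurve.coeffMap iota S) :
    ∃ p : Polynomial Kb, ∀ z, s z = Polynomial.aeval (jfun z) p := sorry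

/-- M8b -/
theorem exists_monic_relation (N : ℕ) [NeZero N] (P : MvPolynomial (Dv N) Kb) :
    ∃ χ : Polynomial (Polynomial Kb), χ.Monic ∧ χ.natDegree = Nat.card (Quo N) ∧
      Polynomial.eval₂ (Polynomial.aeval (jF N)).toRingHom (MvPolynomial.aeval (Jd N) P) χ = 0 :=
  sorry

/-- M8c (pure algebra) -/
theorem finrank_le_of_monic {K F ι : Type} [Field K] [CharZero K] [Field F] [Algebra K F]
    [Finite ι] (x : F) (g : ι → F) (hgen : IntermediateField.adjoin K (Set.range g) = ⊤) (μ : ℕ)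
    (h : ∀ P : MvPolynomial ι K, ∃ χ : Polynomial (Polynomial K), χ.Monic ∧ χ.natDegree = μ ∧
      Polynomial.eval₂ (Polynomial.aeval x).toRingHom (MvPolynomial.aeval g P) χ = 0) :
    FiniteDimensional K⟮x⟯ F ∧ Module.finrank K⟮x⟯ F ≤ μ := sorry

theorem finrank_FN_le (N : ℕ) [NeZero N] :
    FiniteDimensional Kb⟮jF N⟯ (FN N) ∧ Module.finrank Kb⟮jF N⟯ (FN N) ≤ Nat.card (Quo N) := sorry

/-! ## M10 Orbits.lean (pure group theory + K2, K4 of S20) -/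

theorem orbCard_one {Q : Type} [Fintype Q] : orbCard (1 : Equiv.Perm Q) = Fintype.card Q := sorry

theorem orbCard_toPerm {G Q : Type} [Group G] [MulAction G Q] (g : G) :
    orbCard (MulAction.toPerm g : Equiv.Perm Q) =
      Nat.card (MulAction.orbitRel.Quotient (Subgroup.zpowers g) Q) := sorry

theorem mul_orbCard_of_pow_prime {Q : Type} [Fintype Q] (ε : Equiv.Perm Q) (p : ℕ) (hp : p.Prime)
    (h : ε ^ p = 1) :
    p * orbCard ε = Fintype.card Q + (p - 1) * Nat.card {q : Q // ε q = q} := sorry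

theorem orbCard_T (N : ℕ) [NeZero N] :
    orbCard (MulAction.toPerm (sl ModularGroup.T) : Equiv.Perm (Quo N)) =
      ModularCurve.cuspCount N := sorry

theorem two_mul_orbCard_S (N : ℕ) [NeZero N] :
    2 * orbCard (MulAction.toPerm (sl ModularGroup.S) : Equiv.Perm (Quo N)) =
      ModularCurve.dedekindPsi N + ModularCurve.nuTwo N := sorry

theorem three_mul_orbCard_ST (N : ℕ) [NeZero N] :
    3 * orbCard (MulAction.toPerm (sl (ModularGroup.S * ModularGroup.T)) : Equiv.Perm (Quo N)) =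
      ModularCurve.dedekindPsi N + 2 * ModularCurve.nuThree N := sorry

/-! ## M9 Local.lean -/

theorem exists_localData_inf (N : ℕ) [NeZero N] :
    ∃ L : LocalData Kb (FN N) ℂ (Quo N) (jF N)⁻¹,
      L.ε = MulAction.toPerm (sl ModularGroup.T) := sorry

theorem exists_localData_generic (N : ℕ) [NeZero N] (a : Kb) (h0 : a ≠ 0) (h1 : a ≠ 1728) :
    ∃ L : LocalData Kb (FN N) ℂ (Quo N) (jF N - algebraMap Kb (FN N) a), L.ε = 1 := sorry

theorem exists_localData_zero (N : ℕ) [NeZero N] :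
    ∃ L : LocalData Kb (FN N) ℂ (Quo N) (jF N - algebraMap Kb (FN N) 0),
      L.ε = MulAction.toPerm (sl (ModularGroup.S * ModularGroup.T)) := sorry

theorem exists_localData_1728 (N : ℕ) [NeZero N] :
    ∃ L : LocalData Kb (FN N) ℂ (Quo N) (jF N - algebraMap Kb (FN N) 1728),
      L.ε = MulAction.toPerm (sl ModularGroup.S) := sorry

end Fermat.Agent.S24
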